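import Fermat.Agent.ES.Gamma0Sep

/-!
# Task G2: a modular form on `Γ₀(N)` whose stabiliser in `SL(2,ℤ)` is exactly `Γ₀(N)`.

The proof is in `ES/Gamma0Sep.lean` (with `t = Δ ∣[12] diag(N,1)`).
-/

set_option autoImplicit false

namespace Fermat.Agent.ES

open UpperHalfPlane ModularForm Filter Topology CongruenceSubgroup
open scoped MatrixGroups Manifold ModularForm

theorem sep_Gamma0 (N : ℕ) [NeZero N] :
    ∃ (t : ℍ → ℂ) (k₀ : ℤ), IsMF (Gamma0 N) k₀ t ∧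
      ∀ γ : SL(2, ℤ), t ∣[k₀] γ = t → γ ∈ Gamma0 N := sep_Gamma0_aux N

end Fermat.Agent.ES
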