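import Fermat.Agent.ES.Sturm
import Fermat.Agent.ES.Sep

/-!
# Task G: `Γ₀(N)` satisfies the hypothesis package `Good`.
-/

set_option autoImplicit false

namespace Fermat.Agent.ES

open UpperHalfPlane ModularForm Filter Topology CongruenceSubgroup
open scoped MatrixGroups Manifold ModularForm

theorem good_Gamma0 (N : ℕ) [NeZero N] : Good (Gamma0 N) where
  finiteIndex := inferInstance
  neg_one_mem := neg_one_mem_Gamma0 N
  sep := sep_Gamma0 N
  sturm := sturm_Gamma0 N

end Fermat.Agent.ES
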