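import Mathlib
import Fermat.Prelude.Def_ModularCurve_PeriodHomPair
import Fermat.Prelude.Thm_Subgroup_IsArithmetic_exists_nat_mem_strictPeriods_conj

set_option autoImplicit false

open UpperHalfPlane Filter Topology Function
open scoped MatrixGroups ModularForm Manifold Real

namespace Fermat.Agent.ES

local notation "𝕢" => Function.Periodic.qParam

/-- A holomorphic `h`-periodic function on the upper half plane vanishing at `i∞` has a primitive
of the form `Ψ ∘ 𝕢 h` with `Ψ` holomorphic on the unit disc, `Ψ 0 = 0`. -/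
theorem exists_disc_primitive_of_periodic {g : ℍ → ℂ} {h : ℝ} (hh : 0 < h)
    (hper : Periodic (g ∘ ofComplex) h) (hhol : MDiff g) (hzero : IsZeroAtImInfty g) :
    ∃ Ψ : ℂ → ℂ, DifferentiableOn ℂ Ψ (Metric.ball 0 1) ∧ Ψ 0 = 0 ∧
      ∀ τ : ℍ, HasDerivAt ((fun w : ℍ => Ψ (𝕢 h w)) ∘ ofComplex) (g τ) ↑τ := by
  have hbdd : IsBoundedAtImInfty g := hzero.isBoundedAtImInfty
  set c := cuspFunction h g with hc_def
  have hc : DifferentiableOn ℂ c (Metric.ball 0 1) :=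
    differentiableOn_cuspFunction_ball hh hper hhol hbdd
  have hc0 : c 0 = 0 := by
    rw [hc_def, cuspFunction_apply_zero hh (analyticAt_cuspFunction_zero hh hper hhol hbdd) hper]
    exact hzero.valueAtInfty_eq_zero
  have hc1 : DifferentiableOn ℂ (dslope c 0) (Metric.ball 0 1) :=
    (Complex.differentiableOn_dslope (Metric.ball_mem_nhds 0 one_pos)).mpr hc
  obtain ⟨P, hP0, hP⟩ := (hc1.isExactOn_ball).with_val_at 0 0
  refine ⟨fun q => (h / (2 * π * Complex.I)) * P q, ?_, by simp [hP0], fun τ => ?_⟩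
  · exact fun q hq => ((hP q hq).differentiableAt.const_mul _).differentiableWithinAt
  · have hq : 𝕢 h τ ∈ Metric.ball (0 : ℂ) 1 := by
      simpa using Function.Periodic.norm_qParam_lt_one hh τ.im_pos
    have h1 : HasDerivAt (𝕢 h) (2 * π * Complex.I / h * 𝕢 h τ) (τ : ℂ) := by
      have : HasDerivAt (fun z : ℂ => 2 * π * Complex.I * z / h) (2 * π * Complex.I / h) (τ : ℂ) := by
        simpa using ((hasDerivAt_id (τ : ℂ)).const_mul (2 * π * Complex.I)).div_const (h : ℂ)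
      have h' := this.cexp
      rw [mul_comm (Complex.exp _)] at h'
      exact h'
    have h2 := ((hP _ hq).comp (τ : ℂ) h1).const_mul (h / (2 * π * Complex.I))
    have h3 : (h / (2 * π * Complex.I)) * (dslope c 0 (𝕢 h τ) * (2 * π * Complex.I / h * 𝕢 h τ))
        = g τ := by
      have e1 : (𝕢 h τ - 0) • dslope c 0 (𝕢 h τ) = c (𝕢 h τ) - c 0 := sub_smul_dslope c 0 _
      have e2 : c (𝕢 h τ) = g τ := eq_cuspFunction τ hh.ne' hper
      rw [hc0, e2, sub_zero, sub_zero, smul_eq_mul] at e1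
      rw [← e1]
      have hh' : (h : ℂ) ≠ 0 := by exact_mod_cast hh.ne'
      have hpi : (π : ℂ) ≠ 0 := by exact_mod_cast Real.pi_ne_zero
      field_simp
    rw [h3] at h2
    refine h2.congr_of_eventuallyEq ?_
    filter_upwards [isOpen_upperHalfPlaneSet.mem_nhds τ.im_pos] with w hw
    simp [Function.comp, ofComplex_apply_of_im_pos hw]

/-- A holomorphic `h`-periodic function on the upper half plane vanishing at `i∞` has a primitive
vanishing at `i∞`. -/
theorem exists_primitive_of_periodic {g : ℍ → ℂ} {h : ℝ} (hh : 0 < h)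
    (hper : Periodic (g ∘ ofComplex) h) (hhol : MDiff g) (hzero : IsZeroAtImInfty g) :
    ∃ G : ℍ → ℂ, (∀ τ : ℍ, HasDerivAt (G ∘ ofComplex) (g τ) ↑τ) ∧ Tendsto G atImInfty (𝓝 0) := by
  obtain ⟨Ψ, hΨ, hΨ0, hd⟩ := exists_disc_primitive_of_periodic hh hper hhol hzero
  refine ⟨fun w => Ψ (𝕢 h w), hd, ?_⟩
  have hcont : ContinuousAt Ψ 0 :=
    (hΨ.differentiableAt (Metric.ball_mem_nhds 0 one_pos)).continuousAt
  have := hcont.tendsto.comp (qParam_tendsto_atImInfty hh)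
  rwa [hΨ0] at this

/-- A function on `ℍ` with vanishing derivative is constant. -/
theorem eq_of_hasDerivAt_zero {H : ℍ → ℂ} (hH : ∀ τ : ℍ, HasDerivAt (H ∘ ofComplex) 0 ↑τ)
    (τ τ' : ℍ) : H τ = H τ' := by
  have hconv : Convex ℝ upperHalfPlaneSet := by
    have : upperHalfPlaneSet = Complex.im ⁻¹' Set.Ioi 0 := rfl
    rw [this]
    exact (convex_Ioi 0).linear_preimage Complex.imLm
  have hd : DifferentiableOn ℂ (H ∘ ofComplex) upperHalfPlaneSet := fun z hz =>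
    (hH ⟨z, hz⟩).differentiableAt.differentiableWithinAt
  have hd' : Set.EqOn (deriv (H ∘ ofComplex)) 0 upperHalfPlaneSet := fun z hz =>
    (hH ⟨z, hz⟩).deriv
  have := isOpen_upperHalfPlaneSet.is_const_of_deriv_eq_zero hconv.isPreconnected hd hd'
    τ.im_pos τ'.im_pos
  simpa using this

/-- Two primitives of the same function differ by a constant. -/
theorem sub_eq_sub_of_hasDerivAt {F G : ℍ → ℂ} {f : ℍ → ℂ}
    (hF : ∀ τ : ℍ, HasDerivAt (F ∘ ofComplex) (f τ) ↑τ)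
    (hG : ∀ τ : ℍ, HasDerivAt (G ∘ ofComplex) (f τ) ↑τ) (τ τ' : ℍ) :
    F τ - G τ = F τ' - G τ' := by
  refine eq_of_hasDerivAt_zero (H := fun z => F z - G z) (fun z => ?_) τ τ'
  have := (hF z).sub (hG z)
  rw [sub_self] at this
  exact this

/-- Chain rule for the Möbius action of `SL(2, ℤ)`. -/
theorem hasDerivAt_comp_smul {F f : ℍ → ℂ}
    (hF : ∀ τ : ℍ, HasDerivAt (F ∘ ofComplex) (f τ) ↑τ) (δ : SL(2, ℤ)) (τ : ℍ) :
    HasDerivAt ((fun w : ℍ => F (δ • w)) ∘ ofComplex) ((f ∣[(2 : ℤ)] δ) τ) ↑τ := by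
  have hdet : (δ : GL (Fin 2) ℝ).val.det = 1 := by
    rw [← Matrix.GeneralLinearGroup.val_det_apply]; simp
  have h_smul : HasDerivAt (fun w ↦ ↑((δ : GL (Fin 2) ℝ) • ofComplex w) : ℂ → ℂ)
      (((δ : GL (Fin 2) ℝ).val.det : ℂ) / denom (δ : GL (Fin 2) ℝ) τ ^ 2) ↑τ :=
    (hasStrictDerivAt_smul (by rw [hdet]; exact one_pos) τ).hasDerivAt
  have h_F : HasDerivAt (F ∘ ofComplex) (f ((δ : GL (Fin 2) ℝ) • ofComplex (τ : ℂ)))
      ↑((δ : GL (Fin 2) ℝ) • ofComplex (τ : ℂ)) := hF _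
  have h := h_F.comp (τ : ℂ) h_smul
  have e : f ((δ : GL (Fin 2) ℝ) • ofComplex (τ : ℂ)) *
      (((δ : GL (Fin 2) ℝ).val.det : ℂ) / denom (δ : GL (Fin 2) ℝ) τ ^ 2) = (f ∣[(2 : ℤ)] δ) τ := by
    rw [ModularForm.SL_slash_apply, hdet, ofComplex_apply]
    simp [zpow_neg, div_eq_mul_inv, ModularGroup.sl_moeb]
  rw [e] at h
  refine h.congr_of_eventuallyEq (Eventually.of_forall fun w => ?_)
  simp [Function.comp, ModularGroup.sl_moeb]

/-- Every `SL(2, ℤ)`-translate of a weight 2 cusp form has a primitive vanishing at `i∞`. -/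
theorem exists_primitive_slash {𝒢 : Subgroup (GL (Fin 2) ℝ)} [𝒢.IsArithmetic]
    (f : CuspForm 𝒢 2) (δ : SL(2, ℤ)) :
    ∃ G : ℍ → ℂ, (∀ τ : ℍ, HasDerivAt (G ∘ ofComplex) (((f : ℍ → ℂ) ∣[(2 : ℤ)] δ) τ) ↑τ) ∧
      Tendsto G atImInfty (𝓝 0) := by
  obtain ⟨M, hM, hper⟩ := Subgroup.IsArithmetic.exists_nat_mem_strictPeriods_conj 𝒢
  have hM' : (0 : ℝ) < M := by exact_mod_cast hM
  have h1 : Periodic ((CuspForm.translate f (δ : GL (Fin 2) ℝ)) ∘ ofComplex) (M : ℝ) := by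
    apply SlashInvariantFormClass.periodic_comp_ofComplex
    have := hper δ⁻¹
    rwa [map_inv] at this
  exact exists_primitive_of_periodic hM' h1 ((CuspFormClass.holo f).slash 2 _)
    (CuspFormClass.zero_at_infty_slash f δ)

/-- Near every cusp, a primitive of a weight 2 cusp form is a holomorphic function of the local
parameter `𝕢 M`. -/
theorem exists_disc_rep {𝒢 : Subgroup (GL (Fin 2) ℝ)} [𝒢.IsArithmetic]
    (f : CuspForm 𝒢 2) {F : ℍ → ℂ} (hF : ∀ τ : ℍ, HasDerivAt (F ∘ ofComplex) (f τ) ↑τ) :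
    ∃ M : ℕ, 0 < M ∧ ∀ δ : SL(2, ℤ), ∃ Ψ : ℂ → ℂ, DifferentiableOn ℂ Ψ (Metric.ball 0 1) ∧
      ∀ w : ℍ, F (δ • w) = Ψ (𝕢 (M : ℝ) w) := by
  obtain ⟨M, hM, hper⟩ := Subgroup.IsArithmetic.exists_nat_mem_strictPeriods_conj 𝒢
  refine ⟨M, hM, fun δ => ?_⟩
  have hM' : (0 : ℝ) < M := by exact_mod_cast hM
  have h1 : Periodic ((CuspForm.translate f (δ : GL (Fin 2) ℝ)) ∘ ofComplex) (M : ℝ) := by
    apply SlashInvariantFormClass.periodic_comp_ofComplex
    have := hper δ⁻¹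
    rwa [map_inv] at this
  obtain ⟨Ψ, hΨ, -, hd⟩ := exists_disc_primitive_of_periodic hM' h1
    ((CuspFormClass.holo f).slash 2 _) (CuspFormClass.zero_at_infty_slash f δ)
  refine ⟨fun q => Ψ q + (F (δ • UpperHalfPlane.I) - Ψ (𝕢 (M : ℝ) UpperHalfPlane.I)),
    hΨ.add_const _, fun w => ?_⟩
  have := sub_eq_sub_of_hasDerivAt (F := fun w => F (δ • w)) (hasDerivAt_comp_smul hF δ) hd
    w UpperHalfPlane.I
  linear_combination this

open CongruenceSubgroup ModularCurve ModularCurve.Period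

theorem slash_eq_of_mem_Gamma0 {N : ℕ} (f : CuspForm (Gamma0 N) 2) {γ : SL(2, ℤ)}
    (hγ : γ ∈ Gamma0 N) : (f : ℍ → ℂ) ∣[(2 : ℤ)] γ = f :=
  SlashInvariantForm.slash_action_eqn f _ (Subgroup.mem_map_of_mem _ hγ)

/-- Any primitive of a weight 2 cusp form on `Γ₀(N)` is an equivariant primitive. -/
theorem isEquivariantPrimitive_of_hasDerivAt {N : ℕ} (f : CuspForm (Gamma0 N) 2) {F : ℍ → ℂ}
    (hF : ∀ τ : ℍ, HasDerivAt (F ∘ ofComplex) (f τ) ↑τ) :
    IsEquivariantPrimitive (Gamma0 N) F := by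
  intro γ
  refine ⟨F ((γ : SL(2, ℤ)) • UpperHalfPlane.I) - F UpperHalfPlane.I, fun z => ?_⟩
  refine sub_eq_sub_of_hasDerivAt (F := fun w => F ((γ : SL(2, ℤ)) • w)) (f := f) (fun τ => ?_) hF _ _
  have := hasDerivAt_comp_smul hF (γ : SL(2, ℤ)) τ
  rwa [slash_eq_of_mem_Gamma0 f γ.2] at this

/-- Any primitive of a weight 2 cusp form has limits at all cusps. -/
theorem exists_tendsto_smul_of_hasDerivAt {𝒢 : Subgroup (GL (Fin 2) ℝ)} [𝒢.IsArithmetic]
    (f : CuspForm 𝒢 2) {F : ℍ → ℂ}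
    (hF : ∀ τ : ℍ, HasDerivAt (F ∘ ofComplex) (f τ) ↑τ) (δ : SL(2, ℤ)) :
    ∃ L : ℂ, Tendsto (fun w : ℍ => F (δ • w)) atImInfty (𝓝 L) := by
  obtain ⟨G, hG, hG0⟩ := exists_primitive_slash f δ
  refine ⟨F (δ • UpperHalfPlane.I) - G UpperHalfPlane.I, ?_⟩
  have h : ∀ w : ℍ, F (δ • w) = G w + (F (δ • UpperHalfPlane.I) - G UpperHalfPlane.I) := by
    intro w
    have := sub_eq_sub_of_hasDerivAt (F := fun w => F (δ • w)) (hasDerivAt_comp_smul hF δ) hG
      w UpperHalfPlane.I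
    rw [← this]; ring
  have h' : (fun w : ℍ => F (δ • w)) =
      fun w => G w + (F (δ • UpperHalfPlane.I) - G UpperHalfPlane.I) := funext h
  rw [h']
  simpa using hG0.add_const (F (δ • UpperHalfPlane.I) - G UpperHalfPlane.I)

theorem exists_hasEquivariantPrimitive (N : ℕ) [NeZero N] (f : CuspForm (Gamma0 N) 2) :
    ∃ F : ℍ → ℂ, HasEquivariantPrimitive N f F := by
  obtain ⟨F, hF, hF0⟩ := exists_primitive_slash f 1
  simp only [SlashAction.slash_one] at hF
  exact ⟨F, hF, hF0, isEquivariantPrimitive_of_hasDerivAt f hF,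
    exists_tendsto_smul_of_hasDerivAt f hF⟩

/-- The period map can be computed with any primitive and any base point. -/
theorem periodMap_apply (N : ℕ) [NeZero N] (f : CuspForm (Gamma0 N) 2) {F : ℍ → ℂ}
    (hF : ∀ τ : ℍ, HasDerivAt (F ∘ ofComplex) (f τ) ↑τ) (γ : Gamma0 N) (z : ℍ) :
    periodMap N f (Additive.ofMul γ) = F ((γ : SL(2, ℤ)) • z) - F z := by
  obtain ⟨F₁, hF₁⟩ := exists_hasEquivariantPrimitive N f
  obtain ⟨F₀, h₀, h⟩ := periodMap_def N f hF₁
  rw [h, IsEquivariantPrimitive.periodHom_apply, ← h₀.2.2.1.sub_eq_period γ z]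
  have := sub_eq_sub_of_hasDerivAt h₀.1 hF ((γ : SL(2, ℤ)) • z) z
  linear_combination this

theorem periodMap_add (N : ℕ) [NeZero N] (f g : CuspForm (Gamma0 N) 2) :
    periodMap N (f + g) = periodMap N f + periodMap N g := by
  obtain ⟨F, hF⟩ := exists_hasEquivariantPrimitive N f
  obtain ⟨G, hG⟩ := exists_hasEquivariantPrimitive N g
  refine AddMonoidHom.ext fun γ => ?_
  have hFG : ∀ τ : ℍ, HasDerivAt ((fun z => F z + G z) ∘ ofComplex) ((f + g) τ) ↑τ :=
    fun τ => (hF.1 τ).add (hG.1 τ)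
  have h1 := periodMap_apply N (f + g) hFG (Additive.toMul γ) UpperHalfPlane.I
  have h2 := periodMap_apply N f hF.1 (Additive.toMul γ) UpperHalfPlane.I
  have h3 := periodMap_apply N g hG.1 (Additive.toMul γ) UpperHalfPlane.I
  simp only [ofMul_toMul] at h1 h2 h3
  rw [AddMonoidHom.add_apply, h1, h2, h3]
  ring

theorem periodMap_smul (N : ℕ) [NeZero N] (c : ℂ) (f : CuspForm (Gamma0 N) 2) :
    periodMap N (c • f) = c • periodMap N f := by
  obtain ⟨F, hF⟩ := exists_hasEquivariantPrimitive N f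
  refine AddMonoidHom.ext fun γ => ?_
  have hcF : ∀ τ : ℍ, HasDerivAt ((fun z => c * F z) ∘ ofComplex) ((c • f) τ) ↑τ :=
    fun τ => (hF.1 τ).const_mul c
  have h1 := periodMap_apply N (c • f) hcF (Additive.toMul γ) UpperHalfPlane.I
  have h2 := periodMap_apply N f hF.1 (Additive.toMul γ) UpperHalfPlane.I
  simp only [ofMul_toMul] at h1 h2
  rw [AddMonoidHom.smul_apply, h1, h2, smul_eq_mul]
  ring

/-- The period map as a linear map. -/
noncomputable def periodMapLin (N : ℕ) [NeZero N] :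
    CuspForm (Gamma0 N) 2 →ₗ[ℂ] (Additive (Gamma0 N) →+ ℂ) where
  toFun := periodMap N
  map_add' := periodMap_add N
  map_smul' := periodMap_smul N

@[simp] theorem periodMapLin_apply (N : ℕ) [NeZero N] (f : CuspForm (Gamma0 N) 2) :
    periodMapLin N f = periodMap N f := rfl

theorem existsPeriodMapLinear (N : ℕ) [NeZero N] : ExistsPeriodMapLinear N :=
  ⟨periodMapLin N, fun _ => rfl⟩

theorem periodHomPair_eq (N : ℕ) [NeZero N] :
    periodHomPair N = LinearMap.coprod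
        ((LinearMap.id + charInvolution N ℂ ℂ) ∘ₗ periodMapLin N)
        ((LinearMap.id - charInvolution N ℂ ℂ) ∘ₗ periodMapLin N) := by
  obtain ⟨pml, hpml, h⟩ := periodHomPair_def N (existsPeriodMapLinear N)
  have : pml = periodMapLin N := LinearMap.ext fun f => hpml f
  rw [h, this]

/-- A parabolic (or `±1`) element of `SL(2, ℤ)` is conjugate to an upper triangular one. -/
theorem exists_conj_upperTriangular (γ : SL(2, ℤ))
    (hγ : (γ : Matrix (Fin 2) (Fin 2) ℤ).trace ^ 2 = 4) :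
    ∃ δ : SL(2, ℤ), (δ⁻¹ * γ * δ) 1 0 = 0 := by
  have hdet : γ 0 0 * γ 1 1 - γ 0 1 * γ 1 0 = 1 := by
    have := γ.det_coe
    rwa [Matrix.det_fin_two] at this
  rw [Matrix.trace_fin_two] at hγ
  obtain ⟨ε, hε, htr⟩ : ∃ ε : ℤ, ε ^ 2 = 1 ∧ γ 0 0 + γ 1 1 = 2 * ε := by
    have h : (γ 0 0 + γ 1 1 - 2) * (γ 0 0 + γ 1 1 + 2) = 0 := by linear_combination hγ
    rcases mul_eq_zero.mp h with h | h
    · exact ⟨1, by norm_num, by linarith⟩
    · exact ⟨-1, by norm_num, by linarith⟩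
  by_cases hc : γ 1 0 = 0
  · exact ⟨1, by simpa using hc⟩
  have hg : 0 < Int.gcd (γ 0 0 - ε) (γ 1 0) := Int.gcd_pos_of_ne_zero_right _ hc
  obtain ⟨p, q, hpq, hp, hq⟩ := Int.exists_gcd_one hg
  set g : ℤ := (Int.gcd (γ 0 0 - ε) (γ 1 0) : ℤ) with hg_def
  have hg0 : g ≠ 0 := by positivity
  obtain ⟨δ, hδ0, hδ1⟩ := (Int.isCoprime_iff_gcd_eq_one.mpr hpq).exists_SL2_col 0
  refine ⟨δ, ?_⟩
  have e1 : γ 0 0 * p + γ 0 1 * q = ε * p := by
    apply mul_left_cancel₀ hg0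
    linear_combination (γ 0 0 - ε) * hp.symm + (γ 0 1) * hq.symm + γ 0 0 * htr - hdet + hε
  have e2 : γ 1 0 * p + γ 1 1 * q = ε * q := by
    apply mul_left_cancel₀ hg0
    linear_combination (γ 1 0) * hp.symm + (γ 1 1 - ε) * hq.symm + γ 1 0 * htr
  simp only [Matrix.SpecialLinearGroup.coe_mul, Matrix.SpecialLinearGroup.coe_inv,
    Matrix.adjugate_fin_two, Matrix.mul_apply, Fin.sum_univ_two, hδ0, hδ1]
  simp
  linear_combination (-q) * e1 + p * e2

theorem periodMap_mem_parabolicHoms (N : ℕ) [NeZero N] (f : CuspForm (Gamma0 N) 2) :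
    periodMap N f ∈ parabolicHoms ℂ (Gamma0 N) ℂ := by
  rw [mem_parabolicHoms_iff]
  intro γ hγ
  obtain ⟨F, hF⟩ := exists_hasEquivariantPrimitive N f
  obtain ⟨δ, hδ⟩ := exists_conj_upperTriangular γ hγ
  obtain ⟨L, hL⟩ := hF.2.2.2 δ
  set κ : SL(2, ℤ) := δ⁻¹ * γ * δ with hκ
  have h1 : ∀ w : ℍ, periodMap N f (Additive.ofMul γ) = F (δ • (κ • w)) - F (δ • w) := by
    intro w
    rw [periodMap_apply N f hF.1 γ (δ • w)]
    congr 2
    simp [hκ, mul_smul]
  have hκ' : ((κ : SL(2, ℤ)) : GL (Fin 2) ℝ) 1 0 = 0 := by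
    simp [hδ]
  have h2 : Tendsto (fun w : ℍ => F (δ • (κ • w))) atImInfty (𝓝 L) :=
    hL.comp (tendsto_smul_atImInfty hκ')
  have h3 : Tendsto (fun w : ℍ => F (δ • (κ • w)) - F (δ • w)) atImInfty (𝓝 (L - L)) := h2.sub hL
  have h4 : (fun w : ℍ => F (δ • (κ • w)) - F (δ • w)) =
      fun _ => periodMap N f (Additive.ofMul γ) := funext fun w => (h1 w).symm
  rw [h4, sub_self] at h3
  exact tendsto_nhds_unique tendsto_const_nhds h3

theorem periodHomPair_apply (N : ℕ) [NeZero N] (f g : CuspForm (Gamma0 N) 2) :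
    periodHomPair N (f, g) = (periodMap N f + charInvolution N ℂ ℂ (periodMap N f)) +
      (periodMap N g - charInvolution N ℂ ℂ (periodMap N g)) := by
  rw [periodHomPair_eq]
  simp [LinearMap.coprod_apply]

theorem range_periodHomPair_le (N : ℕ) [NeZero N] :
    LinearMap.range (periodHomPair N) ≤ parabolicHoms ℂ (Gamma0 N) ℂ := by
  rintro _ ⟨⟨f, g⟩, rfl⟩
  rw [periodHomPair_apply]
  have hf := periodMap_mem_parabolicHoms N f
  have hg := periodMap_mem_parabolicHoms N g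
  exact Submodule.add_mem _
    (Submodule.add_mem _ hf (charInvolution_mem_parabolicHoms N ℂ ℂ hf))
    (Submodule.sub_mem _ hg (charInvolution_mem_parabolicHoms N ℂ ℂ hg))

end Fermat.Agent.ES
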