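import Mathlib
import Fermat.Agent.ES.Period

set_option autoImplicit false

open UpperHalfPlane Filter Topology Function
open scoped MatrixGroups ModularForm Manifold Real
open CongruenceSubgroup ModularCurve ModularCurve.Period

namespace Fermat.Agent.ES

local notation "𝕢" => Function.Periodic.qParam

/-- A weight 2 cusp form on `Γ₀(N)` all of whose periods are purely imaginary vanishes. -/
theorem eq_zero_of_re_periodMap_eq_zero (N : ℕ) [NeZero N] (φ : CuspForm (Gamma0 N) 2)
    (h : ∀ γ : Gamma0 N, (periodMap N φ (Additive.ofMul γ)).re = 0) : φ = 0 := by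
  obtain ⟨F, hF⟩ := exists_hasEquivariantPrimitive N φ
  obtain ⟨M, hM, hΨ⟩ := exists_disc_rep φ hF.1
  have hM' : (0 : ℝ) < M := by exact_mod_cast hM
  choose Ψ hΨd hΨe using hΨ
  -- invariance of the real part
  have hinv : ∀ (γ : Gamma0 N) (z : ℍ), (F ((γ : SL(2, ℤ)) • z)).re = (F z).re := by
    intro γ z
    have := h γ
    rw [periodMap_apply N φ hF.1 γ z, Complex.sub_re] at this
    linarith
  set r : ℝ := Real.exp (-π / M) with hr
  have hr1 : r < 1 := by
    rw [hr, Real.exp_lt_one_iff]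
    exact div_neg_of_neg_of_pos (by linarith [Real.pi_pos]) hM'
  have hr0 : 0 < r := Real.exp_pos _
  have hsub : Metric.closedBall (0 : ℂ) r ⊆ Metric.ball 0 1 := Metric.closedBall_subset_ball hr1
  -- maxima on the closed ball
  have hmax : ∀ δ : SL(2, ℤ), ∃ x ∈ Metric.closedBall (0 : ℂ) r,
      IsMaxOn (fun q => (Ψ δ q).re) (Metric.closedBall (0 : ℂ) r) x := by
    intro δ
    refine (isCompact_closedBall (0 : ℂ) r).exists_isMaxOn ⟨0, by simp [hr0.le]⟩ ?_
    exact Complex.continuous_re.comp_continuousOn ((hΨd δ).continuousOn.mono hsub)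
  choose x hx hxmax using hmax
  let rep : SL(2, ℤ) ⧸ Gamma0 N → SL(2, ℤ) := fun q => (q.out)⁻¹
  obtain ⟨q₀, hq₀⟩ := Finite.exists_max (fun q : SL(2, ℤ) ⧸ Gamma0 N => (Ψ (rep q) (x (rep q))).re)
  set δ₀ := rep q₀ with hδ₀
  set m₀ := (Ψ δ₀ (x δ₀)).re with hm₀
  -- global bound
  have hbound : ∀ τ : ℍ, (F τ).re ≤ m₀ := by
    intro τ
    obtain ⟨g, hg⟩ := ModularGroup.exists_one_half_le_im_smul τ
    obtain ⟨γ, hγ⟩ := QuotientGroup.mk_out_eq_mul (Gamma0 N) g
    set q : SL(2, ℤ) ⧸ Gamma0 N := (g : SL(2, ℤ) ⧸ Gamma0 N) with hq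
    have e1 : τ = (γ : SL(2, ℤ)) • (rep q • (g • τ)) := by
      simp only [rep, hγ, ← mul_smul]
      simp
    have e2 : (F τ).re = (Ψ (rep q) (𝕢 (M : ℝ) ((g • τ : ℍ) : ℂ))).re := by
      rw [← hΨe, ← hinv γ (rep q • (g • τ)), ← e1]
    have e3 : 𝕢 (M : ℝ) ((g • τ : ℍ) : ℂ) ∈ Metric.closedBall (0 : ℂ) r := by
      rw [mem_closedBall_zero_iff, Function.Periodic.norm_qParam, hr]
      apply Real.exp_le_exp.mpr
      rw [div_le_div_iff_of_pos_right hM']
      have : (1 : ℝ) / 2 ≤ ((g • τ : ℍ) : ℂ).im := hg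
      nlinarith [Real.pi_pos]
    rw [e2]
    exact (hxmax (rep q) e3).trans (hq₀ q)
  -- maximum principle on the disc
  have hMaxOn : IsMaxOn (norm ∘ (fun q => Complex.exp (Ψ δ₀ q))) (Metric.ball 0 1) (x δ₀) := by
    intro y hy
    simp only [Function.comp, Complex.norm_exp, Set.mem_ofPred_eq]
    apply Real.exp_le_exp.mpr
    by_cases hy0 : y = 0
    · subst hy0
      exact hxmax δ₀ (by simp [hr0.le])
    · have hy1 : ‖y‖ < 1 := by simpa using hy
      have him := Function.Periodic.im_invQParam_pos_of_norm_lt_one hM' hy1 hy0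
      let w : ℍ := ⟨Function.Periodic.invQParam M y, him⟩
      have : 𝕢 (M : ℝ) w = y := Function.Periodic.qParam_right_inv hM'.ne' hy0
      rw [← this, ← hΨe]
      exact hbound _
  have hconst := Complex.eqOn_of_isPreconnected_of_isMaxOn_norm
    (convex_ball (0 : ℂ) 1).isPreconnected Metric.isOpen_ball
    (f := fun q => Complex.exp (Ψ δ₀ q)) (fun q hq => ((hΨd δ₀ q hq).cexp)) (hsub (hx δ₀)) hMaxOn
  set C := Complex.exp (Ψ δ₀ (x δ₀)) with hC
  have hexp : ∀ τ : ℍ, Complex.exp (F τ) = C := by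
    intro τ
    have e1 : τ = δ₀ • (δ₀⁻¹ • τ) := by simp
    have hq : 𝕢 (M : ℝ) ((δ₀⁻¹ • τ : ℍ) : ℂ) ∈ Metric.ball (0 : ℂ) 1 := by
      simpa using Function.Periodic.norm_qParam_lt_one hM' (δ₀⁻¹ • τ).im_pos
    have := hconst hq
    simp only [Function.const] at this
    rw [e1, hΨe]
    exact this
  ext τ
  have h1 : HasDerivAt (fun z => Complex.exp ((F ∘ ofComplex) z)) (Complex.exp (F τ) * φ τ) ↑τ := by
    have := (hF.1 τ).cexp
    simpa using this
  have h2 : HasDerivAt (fun z => Complex.exp ((F ∘ ofComplex) z)) 0 ↑τ := by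
    refine (hasDerivAt_const (τ : ℂ) C).congr_of_eventuallyEq (Eventually.of_forall fun z => ?_)
    exact hexp _
  have h3 := h1.unique h2
  simpa [Complex.exp_ne_zero] using h3

open scoped ComplexConjugate Pointwise
open Matrix.SpecialLinearGroup

theorem mapGL_jConjSL (A : SL(2, ℤ)) :
    mapGL ℝ (jConjSL A) = J * mapGL ℝ A * J := by
  ext i j
  fin_cases i <;> fin_cases j <;>
    simp [jConjMat, Matrix.mul_apply, Fin.sum_univ_two, Matrix.vecMul, dotProduct]

theorem J_mul_J : J * J = 1 := by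
  have := J_sq
  rwa [sq] at this

theorem J_inv : J⁻¹ = J := inv_eq_of_mul_eq_one_left J_mul_J

theorem J_smul_J_smul (τ : ℍ) : J • J • τ = τ := by
  rw [← mul_smul, J_mul_J, one_smul]

theorem jConjSL_smul_J_smul (A : SL(2, ℤ)) (τ : ℍ) : jConjSL A • (J • τ) = J • (A • τ) := by
  rw [ModularGroup.sl_moeb, ModularGroup.sl_moeb]
  show mapGL ℝ (jConjSL A) • J • τ = J • mapGL ℝ A • τ
  rw [mapGL_jConjSL, ← mul_smul, ← mul_smul, mul_assoc, J_mul_J, mul_one]

theorem conjAct_J_smul_Gamma0 (N : ℕ) :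
    (Subgroup.map (mapGL ℝ) (Gamma0 N)) =
      ConjAct.toConjAct J⁻¹ • (Subgroup.map (mapGL ℝ) (Gamma0 N)) := by
  ext x
  rw [Subgroup.mem_pointwise_smul_iff_inv_smul_mem, ← ConjAct.toConjAct_inv, inv_inv,
    ConjAct.toConjAct_smul, J_inv]
  constructor
  · rintro ⟨A, hA, rfl⟩
    exact ⟨jConjSL A, jConjSL_mem_Gamma0 hA, mapGL_jConjSL A⟩
  · rintro ⟨A, hA, hx⟩
    refine ⟨jConjSL A, jConjSL_mem_Gamma0 hA, ?_⟩
    rw [mapGL_jConjSL, hx]
    simp only [mul_assoc, J_mul_J, mul_one]
    rw [← mul_assoc, J_mul_J, one_mul]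

/-- The conjugate form `τ ↦ conj (f (-conj τ))`. -/
noncomputable def conjForm {N : ℕ} (f : CuspForm (Gamma0 N) 2) : CuspForm (Gamma0 N) 2 :=
  (CuspForm.translate f J).copy ((f : ℍ → ℂ) ∣[(2 : ℤ)] J) rfl (conjAct_J_smul_Gamma0 N)

theorem conjForm_apply {N : ℕ} (f : CuspForm (Gamma0 N) 2) (τ : ℍ) :
    conjForm f τ = conj (f (J • τ)) := by
  show ((f : ℍ → ℂ) ∣[(2 : ℤ)] J) τ = _
  rw [ModularForm.slash_apply]
  simp

theorem conjForm_conjForm {N : ℕ} (f : CuspForm (Gamma0 N) 2) : conjForm (conjForm f) = f := by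
  ext τ
  rw [conjForm_apply, conjForm_apply, J_smul_J_smul]
  simp

/-- If `G` is a primitive of `g`, then `τ ↦ -conj (G (-conj τ))` is a primitive of
`τ ↦ conj (g (-conj τ))`. -/
theorem hasDerivAt_conj_primitive {G g : ℍ → ℂ}
    (hG : ∀ τ : ℍ, HasDerivAt (G ∘ ofComplex) (g τ) ↑τ) (τ : ℍ) :
    HasDerivAt ((fun w : ℍ => -conj (G (J • w))) ∘ ofComplex) (conj (g (J • τ))) ↑τ := by
  have h0 : HasDerivAt (G ∘ ofComplex) (g (J • τ)) (-(conj (τ : ℂ))) := by
    have := hG (J • τ)
    rwa [coe_J_smul] at this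
  have h1 : HasDerivAt (fun z : ℂ => (G ∘ ofComplex) (-z)) (-(g (J • τ))) (conj (τ : ℂ)) := by
    have := h0.comp (conj (τ : ℂ)) (hasDerivAt_neg (conj (τ : ℂ)))
    rw [mul_neg_one] at this
    exact this
  have h2 := h1.conj_conj.neg
  simp only [Complex.conj_conj, map_neg, neg_neg] at h2
  refine h2.congr_of_eventuallyEq ?_
  filter_upwards [isOpen_upperHalfPlaneSet.mem_nhds τ.im_pos] with w hw
  have e : J • (ofComplex w) = ofComplex (-conj w) := by
    apply UpperHalfPlane.ext
    rw [coe_J_smul, ofComplex_apply_of_im_pos hw,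
      ofComplex_apply_of_im_pos (show 0 < (-conj w).im by simpa using hw)]
  simp [Function.comp, e]

/-- The involution on characters corresponds to complex conjugation of periods. -/
theorem charInvolution_periodMap_conjForm (N : ℕ) [NeZero N] (c : CuspForm (Gamma0 N) 2)
    (γ : Gamma0 N) :
    charInvolution N ℂ ℂ (periodMap N (conjForm c)) (Additive.ofMul γ)
      = -conj (periodMap N c (Additive.ofMul γ)) := by
  obtain ⟨G, hG⟩ := exists_hasEquivariantPrimitive N c
  have hB : ∀ τ : ℍ, HasDerivAt ((fun w : ℍ => -conj (G (J • w))) ∘ ofComplex)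
      (conjForm c τ) ↑τ := by
    intro τ
    rw [conjForm_apply]
    exact hasDerivAt_conj_primitive hG.1 τ
  rw [charInvolution_apply, toMul_ofMul,
    periodMap_apply N (conjForm c) hB (jConjGamma0 N γ) (J • UpperHalfPlane.I),
    periodMap_apply N c hG.1 γ UpperHalfPlane.I, jConjGamma0_coe, jConjSL_smul_J_smul,
    J_smul_J_smul, J_smul_J_smul, map_sub]
  ring

theorem periodHomPair_injective (N : ℕ) [NeZero N] : Function.Injective (periodHomPair N) := by
  rw [← LinearMap.ker_eq_bot, LinearMap.ker_eq_bot']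
  rintro ⟨f, g⟩ hfg
  rw [periodHomPair_apply] at hfg
  set a := f + g with ha
  set b := f - g with hb
  set b' := conjForm b with hb'
  -- the key relation between the periods
  have hrel : ∀ γ : Gamma0 N, periodMap N a (Additive.ofMul γ)
      = conj (periodMap N b' (Additive.ofMul γ)) := by
    intro γ
    have h1 := charInvolution_periodMap_conjForm N b' γ
    rw [hb', conjForm_conjForm, ← hb'] at h1
    have h2 := DFunLike.congr_fun hfg (Additive.ofMul γ)
    have h3 : periodMap N a = periodMap N f + periodMap N g := periodMap_add N f g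
    have h4 : periodMap N b = periodMap N f - periodMap N g := by
      have := (periodMapLin N).map_sub f g
      simpa using this
    rw [h4, map_sub] at h1
    rw [h3]
    simp only [AddMonoidHom.add_apply, AddMonoidHom.sub_apply, AddMonoidHom.zero_apply] at h1 h2 ⊢
    linear_combination h2 - h1
  have h1 : a - b' = 0 := by
    apply eq_zero_of_re_periodMap_eq_zero
    intro γ
    have : periodMap N (a - b') = periodMap N a - periodMap N b' := by
      have := (periodMapLin N).map_sub a b'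
      simpa using this
    rw [this, AddMonoidHom.sub_apply, hrel γ]
    simp
  have h2 : Complex.I • (a + b') = 0 := by
    apply eq_zero_of_re_periodMap_eq_zero
    intro γ
    rw [periodMap_smul, periodMap_add, AddMonoidHom.smul_apply, AddMonoidHom.add_apply, hrel γ]
    simp
  have h3 : a + b' = 0 := by
    rcases smul_eq_zero.mp h2 with h | h
    · exact absurd h Complex.I_ne_zero
    · exact h
  have ha0 : a = 0 := by
    have : (2 : ℂ) • a = 0 := by
      have : (2 : ℂ) • a = (a - b') + (a + b') := by rw [two_smul]; abel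
      rw [this, h1, h3, add_zero]
    rcases smul_eq_zero.mp this with h | h
    · exact absurd h two_ne_zero
    · exact h
  have hb0' : b' = 0 := by rw [ha0, zero_add] at h3; exact h3
  have hb0 : b = 0 := by
    rw [← conjForm_conjForm b, ← hb', hb0']
    ext τ
    rw [conjForm_apply]
    simp
  have hf0 : f = 0 := by
    have : (2 : ℂ) • f = 0 := by
      have : (2 : ℂ) • f = a + b := by rw [two_smul, ha, hb]; abel
      rw [this, ha0, hb0, add_zero]
    rcases smul_eq_zero.mp this with h | h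
    · exact absurd h two_ne_zero
    · exact h
  have hg0 : g = 0 := by rw [ha, hf0, zero_add] at ha0; exact ha0
  rw [hf0, hg0]
  rfl

end Fermat.Agent.ES
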