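import Fermat.Agent.ES.Defs
import Fermat.Prelude.Def_ModularCurve_PeriodMap

/-!
# Task B: `dim Hom_par(Γ, ℂ) ≤ μ - d0 S - d0 (ST) - d0 T + 2` (pure algebra).

`X = SL(2,ℤ) ⧸ Γ`, `s x = x.out`, `κ(g,x) = (s (g • x))⁻¹ * g * s x ∈ Γ`,
`c(g)(x) = φ(κ(g,x)) + v (g • x) - v x`, `c(g h)(x) = c(g)(h • x) + c(h)(x)`.

* `Φ(φ, v) = (c(S⁻¹), c(U))`, `U = S T`, has kernel of dimension `≤ 1`;
* `Ω(p, q, u) = (p + u ∘ U⁻¹, q + u)` on `permInv S × permInv U × permInv T` has kernel of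
  dimension `≤ 1`;
* the ranges of `Φ` and `Ω` are orthogonal for the standard pairing on `(X → ℂ) × (X → ℂ)`.
-/

set_option autoImplicit false

namespace Fermat.Agent.ES

open ModularCurve.Period
open scoped MatrixGroups

namespace Shapiro

/-- Two subspaces orthogonal for a nondegenerate pairing. -/
theorem finrank_add_le_of_orthogonal {E : Type*} [AddCommGroup E] [Module ℂ E]
    [FiniteDimensional ℂ E]
    (B : E →ₗ[ℂ] Module.Dual ℂ E) (hB : Function.Injective B) (M₁ M₂ : Submodule ℂ E)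
    (h : ∀ a ∈ M₁, ∀ b ∈ M₂, B b a = 0) :
    Module.finrank ℂ M₁ + Module.finrank ℂ M₂ ≤ Module.finrank ℂ E := by
  have h1 : M₂.map B ≤ M₁.dualAnnihilator := by
    rintro _ ⟨b, hb, rfl⟩
    rw [Submodule.mem_dualAnnihilator]
    intro a ha
    exact h a ha b hb
  have h2 : Module.finrank ℂ (M₂.map B) = Module.finrank ℂ M₂ :=
    (Submodule.equivMapOfInjective B hB M₂).finrank_eq.symm
  have h3 := Subspace.finrank_add_finrank_dualAnnihilator_eq M₁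
  have h4 := Submodule.finrank_mono h1
  omega

variable {Γ : Subgroup SL(2, ℤ)}

theorem kap_mem (g : SL(2, ℤ)) (x : SL(2, ℤ) ⧸ Γ) :
    (g • x).out⁻¹ * g * x.out ∈ Γ := by
  rw [mul_assoc, ← QuotientGroup.eq]
  rw [QuotientGroup.out_eq']
  conv_lhs => rw [← QuotientGroup.out_eq' x]
  rfl

/-- The `Γ`-valued cocycle attached to the section `x ↦ x.out`. -/
noncomputable def kap (g : SL(2, ℤ)) (x : SL(2, ℤ) ⧸ Γ) : Γ :=
  ⟨(g • x).out⁻¹ * g * x.out, kap_mem g x⟩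

theorem kap_mul (g h : SL(2, ℤ)) (x : SL(2, ℤ) ⧸ Γ) :
    kap (g * h) x = kap g (h • x) * kap h x := by
  apply Subtype.ext
  simp only [kap, Subgroup.coe_mul, mul_smul]
  group

/-- The cocycle attached to `(φ, v)`. -/
noncomputable def coc (g : SL(2, ℤ)) :
    (parabolicHoms ℂ Γ ℂ × ((SL(2, ℤ) ⧸ Γ) → ℂ)) →ₗ[ℂ] ((SL(2, ℤ) ⧸ Γ) → ℂ) where
  toFun p := fun x => p.1.1 (Additive.ofMul (kap g x)) + p.2 (g • x) - p.2 x
  map_add' p q := by
    funext x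
    simp only [Prod.fst_add, Prod.snd_add, Submodule.coe_add, AddMonoidHom.add_apply, Pi.add_apply]
    ring
  map_smul' c p := by
    funext x
    simp only [Prod.smul_fst, Prod.smul_snd, Submodule.coe_smul, AddMonoidHom.smul_apply,
      Pi.smul_apply, RingHom.id_apply, smul_eq_mul]
    ring

theorem coc_apply (g : SL(2, ℤ)) (p : parabolicHoms ℂ Γ ℂ × ((SL(2, ℤ) ⧸ Γ) → ℂ))
    (x : SL(2, ℤ) ⧸ Γ) :
    coc g p x = p.1.1 (Additive.ofMul (kap g x)) + p.2 (g • x) - p.2 x := rfl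

theorem coc_mul (g h : SL(2, ℤ)) (p : parabolicHoms ℂ Γ ℂ × ((SL(2, ℤ) ⧸ Γ) → ℂ))
    (x : SL(2, ℤ) ⧸ Γ) :
    coc (g * h) p x = coc g p (h • x) + coc h p x := by
  simp only [coc_apply, kap_mul, ofMul_mul, map_add, mul_smul]
  ring

theorem coc_one (p : parabolicHoms ℂ Γ ℂ × ((SL(2, ℤ) ⧸ Γ) → ℂ)) (x : SL(2, ℤ) ⧸ Γ) :
    coc 1 p x = 0 := by
  have h := coc_mul 1 1 p x
  rw [mul_one, one_smul] at h
  exact left_eq_add.mp h

theorem coc_pow (g : SL(2, ℤ)) (m : ℕ) (p : parabolicHoms ℂ Γ ℂ × ((SL(2, ℤ) ⧸ Γ) → ℂ))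
    (x : SL(2, ℤ) ⧸ Γ) :
    coc (g ^ m) p x = ∑ i ∈ Finset.range m, coc g p (g ^ i • x) := by
  induction m with
  | zero => simp [coc_one]
  | succ m ih => rw [pow_succ', coc_mul, Finset.sum_range_succ, ih, add_comm]

theorem trace_conj (a g : SL(2, ℤ)) :
    ((a⁻¹ * g * a : SL(2, ℤ)) : Matrix (Fin 2) (Fin 2) ℤ).trace
      = (g : Matrix (Fin 2) (Fin 2) ℤ).trace := by
  rw [Matrix.SpecialLinearGroup.coe_mul, Matrix.trace_mul_comm,
    ← Matrix.SpecialLinearGroup.coe_mul]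
  congr 2
  rw [mul_inv_cancel_left]

/-- The subgroup of elements leaving `u` invariant. -/
def stab (u : (SL(2, ℤ) ⧸ Γ) → ℂ) : Subgroup SL(2, ℤ) where
  carrier := {g | ∀ x, u (g • x) = u x}
  mul_mem' := by
    intro a b ha hb x
    rw [mul_smul, ha, hb]
  one_mem' := by
    intro x
    rw [one_smul]
  inv_mem' := by
    intro a ha x
    have := ha (a⁻¹ • x)
    rw [smul_inv_smul] at this
    exact this.symm

theorem mem_stab {u : (SL(2, ℤ) ⧸ Γ) → ℂ} {g : SL(2, ℤ)} :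
    g ∈ stab u ↔ ∀ x, u (g • x) = u x := Iff.rfl

/-- The subgroup on which the cocycle vanishes. -/
def vanish (p : parabolicHoms ℂ Γ ℂ × ((SL(2, ℤ) ⧸ Γ) → ℂ)) : Subgroup SL(2, ℤ) where
  carrier := {g | ∀ x, coc g p x = 0}
  mul_mem' := by
    intro a b ha hb x
    rw [coc_mul, ha, hb, add_zero]
  one_mem' := coc_one p
  inv_mem' := by
    intro a ha x
    have := coc_mul a⁻¹ a p (a⁻¹ • x)
    rw [inv_mul_cancel, coc_one, smul_inv_smul, ha, add_zero] at this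
    exact this.symm

theorem mem_vanish {p : parabolicHoms ℂ Γ ℂ × ((SL(2, ℤ) ⧸ Γ) → ℂ)} {g : SL(2, ℤ)} :
    g ∈ vanish p ↔ ∀ x, coc g p x = 0 := Iff.rfl

theorem eq_top_of_S_T_mem (K : Subgroup SL(2, ℤ)) (hS : ModularGroup.S ∈ K)
    (hT : ModularGroup.T ∈ K) : K = ⊤ := by
  rw [eq_top_iff, ← SpecialLinearGroup.SL2Z_generators, Subgroup.closure_le]
  rintro x (rfl | rfl) <;> assumption

theorem const_of_stab_eq_top (u : (SL(2, ℤ) ⧸ Γ) → ℂ) (h : stab u = ⊤) (x : SL(2, ℤ) ⧸ Γ) :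
    u x = u ((1 : SL(2, ℤ)) : SL(2, ℤ) ⧸ Γ) := by
  have h1 : x.out ∈ stab u := h ▸ Subgroup.mem_top _
  have h2 := h1 ((1 : SL(2, ℤ)) : SL(2, ℤ) ⧸ Γ)
  rw [← h2]
  congr 1
  conv_lhs => rw [← QuotientGroup.out_eq' x]
  show _ = ((x.out * 1 : SL(2, ℤ)) : SL(2, ℤ) ⧸ Γ)
  rw [mul_one]

theorem fst_eq_zero_of_vanish (p : parabolicHoms ℂ Γ ℂ × ((SL(2, ℤ) ⧸ Γ) → ℂ))
    (h : vanish p = ⊤) : p.1 = 0 := by
  apply Subtype.ext
  apply AddMonoidHom.ext
  intro a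
  obtain ⟨γ, rfl⟩ := Additive.ofMul.surjective a
  set x0 : SL(2, ℤ) ⧸ Γ := ((1 : SL(2, ℤ)) : SL(2, ℤ) ⧸ Γ) with hx0
  have hfix : (γ : SL(2, ℤ)) • x0 = x0 := by
    show (((γ : SL(2, ℤ)) * 1 : SL(2, ℤ)) : SL(2, ℤ) ⧸ Γ) = _
    rw [hx0, QuotientGroup.eq]
    simp
  have hout : x0.out ∈ Γ := by
    have h1 : ((x0.out : SL(2, ℤ)) : SL(2, ℤ) ⧸ Γ) = ((1 : SL(2, ℤ)) : SL(2, ℤ) ⧸ Γ) :=
      QuotientGroup.out_eq' x0
    rw [QuotientGroup.eq] at h1
    simpa using h1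
  have hk : kap (γ : SL(2, ℤ)) x0 = (⟨x0.out, hout⟩ : Γ)⁻¹ * γ * ⟨x0.out, hout⟩ := by
    apply Subtype.ext
    simp only [kap, hfix, Subgroup.coe_mul, Subgroup.coe_inv]
  have h1 : (γ : SL(2, ℤ)) ∈ vanish p := h ▸ Subgroup.mem_top _
  have h2 := h1 x0
  rw [coc_apply, hfix, hk, ofMul_mul, ofMul_mul, ofMul_inv, map_add, map_add, map_neg] at h2
  simp only [ZeroMemClass.coe_zero, AddMonoidHom.zero_apply]
  linear_combination h2

theorem snd_const_of_vanish (p : parabolicHoms ℂ Γ ℂ × ((SL(2, ℤ) ⧸ Γ) → ℂ))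
    (h : vanish p = ⊤) (x : SL(2, ℤ) ⧸ Γ) :
    p.2 x = p.2 ((1 : SL(2, ℤ)) : SL(2, ℤ) ⧸ Γ) := by
  apply const_of_stab_eq_top
  rw [eq_top_iff]
  intro g _ y
  have h1 : g ∈ vanish p := h ▸ Subgroup.mem_top _
  have h2 := h1 y
  rw [coc_apply, fst_eq_zero_of_vanish p h] at h2
  simp only [ZeroMemClass.coe_zero, AddMonoidHom.zero_apply, zero_add] at h2
  linear_combination h2

theorem sum_mul_coc_eq_zero [Γ.FiniteIndex] (g : SL(2, ℤ)) (m : ℕ) (hm : 0 < m)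
    (hfix : ∀ x : SL(2, ℤ) ⧸ Γ, g ^ m • x = x)
    (htr : ((g ^ m : SL(2, ℤ)) : Matrix (Fin 2) (Fin 2) ℤ).trace ^ 2 = 4)
    (p : parabolicHoms ℂ Γ ℂ × ((SL(2, ℤ) ⧸ Γ) → ℂ)) (u : (SL(2, ℤ) ⧸ Γ) → ℂ)
    (hu : ∀ x, u (g • x) = u x) :
    ∑ x, u x * coc g p x = 0 := by
  have h0 : ∀ x, coc (g ^ m) p x = 0 := by
    intro x
    rw [coc_apply, hfix, add_sub_cancel_right]
    apply p.1.2
    simp only [kap, hfix]
    rw [trace_conj, htr]
  have h1 : ∀ i : ℕ, ∑ x, u x * coc g p (g ^ i • x) = ∑ x, u x * coc g p x := by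
    intro i
    have hui : ∀ x, u (g ^ i • x) = u x := (stab u).pow_mem (mem_stab.2 hu) i
    calc ∑ x, u x * coc g p (g ^ i • x) = ∑ x, u (g ^ i • x) * coc g p (g ^ i • x) := by
          simp only [hui]
      _ = ∑ x, u x * coc g p x :=
          Equiv.sum_comp (MulAction.toPerm (g ^ i)) (fun x => u x * coc g p x)
  have h2 : (m : ℂ) * ∑ x, u x * coc g p x = 0 := by
    calc (m : ℂ) * ∑ x, u x * coc g p x
        = ∑ i ∈ Finset.range m, ∑ x, u x * coc g p (g ^ i • x) := by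
          simp only [h1, Finset.sum_const, Finset.card_range, nsmul_eq_mul]
      _ = ∑ x, u x * ∑ i ∈ Finset.range m, coc g p (g ^ i • x) := by
          rw [Finset.sum_comm]
          simp only [Finset.mul_sum]
      _ = 0 := by
          simp only [← coc_pow, h0, mul_zero, Finset.sum_const_zero]
  rcases mul_eq_zero.mp h2 with h | h
  · exact absurd (Nat.cast_eq_zero.mp h) hm.ne'
  · exact h

theorem neg_one_smul_eq (hneg : -1 ∈ Γ) (x : SL(2, ℤ) ⧸ Γ) : (-1 : SL(2, ℤ)) • x = x := by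
  induction x using QuotientGroup.induction_on with
  | H g =>
    show (((-1 : SL(2, ℤ)) * g : SL(2, ℤ)) : SL(2, ℤ) ⧸ Γ) = _
    rw [QuotientGroup.eq]
    have : ((-1 : SL(2, ℤ)) * g)⁻¹ * g = -1 := by
      rw [neg_mul, one_mul, inv_neg, neg_mul, inv_mul_cancel]
    rw [this]
    exact hneg

theorem S_inv_sq : (ModularGroup.S⁻¹) ^ 2 = (-1 : SL(2, ℤ)) := by decide

theorem U_cube : (ModularGroup.S * ModularGroup.T) ^ 3 = (-1 : SL(2, ℤ)) := by decide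

theorem trace_neg_one :
    ((-1 : SL(2, ℤ)) : Matrix (Fin 2) (Fin 2) ℤ).trace ^ 2 = 4 := by decide

theorem trace_T_pow (m : ℕ) :
    ((ModularGroup.T ^ m : SL(2, ℤ)) : Matrix (Fin 2) (Fin 2) ℤ).trace ^ 2 = 4 := by
  have h := ModularGroup.coe_T_zpow (m : ℤ)
  rw [zpow_natCast] at h
  rw [h, Matrix.trace_fin_two_of]
  norm_num

theorem exists_pow_smul_eq [Γ.FiniteIndex] (g : SL(2, ℤ)) :
    ∃ m : ℕ, 0 < m ∧ ∀ x : SL(2, ℤ) ⧸ Γ, g ^ m • x = x := by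
  refine ⟨orderOf (MulAction.toPermHom SL(2, ℤ) (SL(2, ℤ) ⧸ Γ) g), orderOf_pos _, fun x => ?_⟩
  have h := pow_orderOf_eq_one (MulAction.toPermHom SL(2, ℤ) (SL(2, ℤ) ⧸ Γ) g)
  rw [← map_pow] at h
  have h2 := congrArg (fun σ : Equiv.Perm (SL(2, ℤ) ⧸ Γ) => σ x) h
  simpa using h2

theorem finrank_le_one_of_functional {M : Type*} [AddCommGroup M] [Module ℂ M] (f : M →ₗ[ℂ] ℂ)
    (hf : ∀ m, f m = 0 → m = 0) : Module.finrank ℂ M ≤ 1 := by
  have h := LinearMap.finrank_le_finrank_of_injective (f := f)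
    ((injective_iff_map_eq_zero f).2 hf)
  simpa using h

/-- The map `(φ, v) ↦ (c(S⁻¹), c(U))`. -/
noncomputable def Phi :
    (parabolicHoms ℂ Γ ℂ × ((SL(2, ℤ) ⧸ Γ) → ℂ)) →ₗ[ℂ]
      ((SL(2, ℤ) ⧸ Γ) → ℂ) × ((SL(2, ℤ) ⧸ Γ) → ℂ) :=
  (coc ModularGroup.S⁻¹).prod (coc (ModularGroup.S * ModularGroup.T))

theorem vanish_eq_top_of_Phi (p : parabolicHoms ℂ Γ ℂ × ((SL(2, ℤ) ⧸ Γ) → ℂ))
    (h : Phi p = 0) : vanish p = ⊤ := by
  have h1 : coc ModularGroup.S⁻¹ p = 0 := congrArg Prod.fst h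
  have h2 : coc (ModularGroup.S * ModularGroup.T) p = 0 := congrArg Prod.snd h
  have m1 : ModularGroup.S⁻¹ ∈ vanish p := fun x => congrFun h1 x
  have m2 : ModularGroup.S * ModularGroup.T ∈ vanish p := fun x => congrFun h2 x
  apply eq_top_of_S_T_mem
  · simpa using (vanish p).inv_mem m1
  · simpa using (vanish p).mul_mem m1 m2

theorem finrank_ker_Phi_le : Module.finrank ℂ (LinearMap.ker (Phi (Γ := Γ))) ≤ 1 := by
  refine finrank_le_one_of_functional (M := LinearMap.ker (Phi (Γ := Γ)))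
    (((LinearMap.proj ((1 : SL(2, ℤ)) : SL(2, ℤ) ⧸ Γ)) ∘ₗ
      (LinearMap.snd ℂ (parabolicHoms ℂ Γ ℂ) ((SL(2, ℤ) ⧸ Γ) → ℂ))) ∘ₗ
      (LinearMap.ker (Phi (Γ := Γ))).subtype) ?_
  rintro ⟨p, hp⟩ h
  have hv := vanish_eq_top_of_Phi p hp
  apply Subtype.ext
  apply Prod.ext
  · exact fst_eq_zero_of_vanish p hv
  · funext x
    rw [snd_const_of_vanish p hv x]
    exact h

theorem finite_parabolicHoms [Γ.FiniteIndex] : Module.Finite ℂ (parabolicHoms ℂ Γ ℂ) := by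
  apply Module.Finite.of_injective
    (Phi (Γ := Γ) ∘ₗ LinearMap.inl ℂ (parabolicHoms ℂ Γ ℂ) ((SL(2, ℤ) ⧸ Γ) → ℂ))
  rw [injective_iff_map_eq_zero]
  intro φ h
  exact fst_eq_zero_of_vanish (φ, 0) (vanish_eq_top_of_Phi (φ, 0) h)

/-- The map `(p, q, u) ↦ (p + u ∘ U⁻¹, q + u)`. -/
noncomputable def Omega :
    (permInv (MulAction.toPerm ModularGroup.S : Equiv.Perm (SL(2, ℤ) ⧸ Γ)) ×
      permInv (MulAction.toPerm (ModularGroup.S * ModularGroup.T) : Equiv.Perm (SL(2, ℤ) ⧸ Γ)) ×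
      permInv (MulAction.toPerm ModularGroup.T : Equiv.Perm (SL(2, ℤ) ⧸ Γ))) →ₗ[ℂ]
      ((SL(2, ℤ) ⧸ Γ) → ℂ) × ((SL(2, ℤ) ⧸ Γ) → ℂ) where
  toFun t := (fun x => t.1.1 x + t.2.2.1 ((ModularGroup.S * ModularGroup.T)⁻¹ • x),
    fun x => t.2.1.1 x + t.2.2.1 x)
  map_add' s t := by
    apply Prod.ext <;> funext x <;>
    simp only [Prod.fst_add, Prod.snd_add, Submodule.coe_add, Pi.add_apply, Prod.mk_add_mk] <;>
    ring
  map_smul' c t := by
    apply Prod.ext <;> funext x <;>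
    simp only [Prod.smul_fst, Prod.smul_snd, Submodule.coe_smul, Pi.smul_apply, RingHom.id_apply,
      smul_eq_mul, Prod.smul_mk] <;>
    ring

theorem finrank_ker_Omega_le : Module.finrank ℂ (LinearMap.ker (Omega (Γ := Γ))) ≤ 1 := by
  refine finrank_le_one_of_functional (M := LinearMap.ker (Omega (Γ := Γ)))
    ((((LinearMap.proj ((1 : SL(2, ℤ)) : SL(2, ℤ) ⧸ Γ)) ∘ₗ
      (permInv (MulAction.toPerm ModularGroup.T : Equiv.Perm (SL(2, ℤ) ⧸ Γ))).subtype) ∘ₗ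
      (LinearMap.snd ℂ _ _ ∘ₗ LinearMap.snd ℂ _ _)) ∘ₗ
      (LinearMap.ker (Omega (Γ := Γ))).subtype) ?_
  rintro ⟨⟨p, q, u⟩, ht⟩ h
  have h1 : ∀ x, p.1 x + u.1 ((ModularGroup.S * ModularGroup.T)⁻¹ • x) = 0 :=
    fun x => congrFun (congrArg Prod.fst ht) x
  have h2 : ∀ x, q.1 x + u.1 x = 0 := fun x => congrFun (congrArg Prod.snd ht) x
  have mT : ModularGroup.T ∈ stab u.1 := fun x => u.2 x
  have mU : ModularGroup.S * ModularGroup.T ∈ stab u.1 := by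
    intro x
    have e1 := h2 ((ModularGroup.S * ModularGroup.T) • x)
    have e2 := h2 x
    have e3 : q.1 ((ModularGroup.S * ModularGroup.T) • x) = q.1 x := q.2 x
    linear_combination e1 - e2 - e3
  have htop : stab u.1 = ⊤ := by
    apply eq_top_of_S_T_mem _ _ mT
    simpa using (stab u.1).mul_mem mU ((stab u.1).inv_mem mT)
  have hu : ∀ x, u.1 x = 0 := by
    intro x
    rw [const_of_stab_eq_top u.1 htop x]
    exact h
  apply Subtype.ext
  refine Prod.ext ?_ (Prod.ext ?_ ?_)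
  · apply Subtype.ext
    funext x
    have := h1 x
    rw [hu, add_zero] at this
    exact this
  · apply Subtype.ext
    funext x
    have := h2 x
    rw [hu, add_zero] at this
    exact this
  · apply Subtype.ext
    funext x
    exact hu x

/-- The standard pairing on `(X → ℂ) × (X → ℂ)`. -/
noncomputable def pairing [Γ.FiniteIndex] :
    (((SL(2, ℤ) ⧸ Γ) → ℂ) × ((SL(2, ℤ) ⧸ Γ) → ℂ)) →ₗ[ℂ]
      Module.Dual ℂ (((SL(2, ℤ) ⧸ Γ) → ℂ) × ((SL(2, ℤ) ⧸ Γ) → ℂ)) :=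
  LinearMap.mk₂ ℂ (fun a b => ∑ x, a.1 x * b.1 x + ∑ x, a.2 x * b.2 x)
    (by
      intro a a' b
      simp only [Prod.fst_add, Prod.snd_add, Pi.add_apply, add_mul, Finset.sum_add_distrib]
      ring)
    (by
      intro c a b
      simp only [Prod.smul_fst, Prod.smul_snd, Pi.smul_apply, smul_eq_mul, mul_assoc,
        ← Finset.mul_sum, mul_add])
    (by
      intro a b b'
      simp only [Prod.fst_add, Prod.snd_add, Pi.add_apply, mul_add, Finset.sum_add_distrib]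
      ring)
    (by
      intro c a b
      simp only [Prod.smul_fst, Prod.smul_snd, Pi.smul_apply, smul_eq_mul, mul_left_comm _ c,
        ← Finset.mul_sum, mul_add])

theorem pairing_apply [Γ.FiniteIndex] (a b : ((SL(2, ℤ) ⧸ Γ) → ℂ) × ((SL(2, ℤ) ⧸ Γ) → ℂ)) :
    pairing a b = ∑ x, a.1 x * b.1 x + ∑ x, a.2 x * b.2 x := rfl

theorem pairing_injective [Γ.FiniteIndex] : Function.Injective (pairing (Γ := Γ)) := by
  classical
  rw [injective_iff_map_eq_zero]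
  intro a h
  apply Prod.ext
  · funext x
    have := LinearMap.congr_fun h (Pi.single x 1, 0)
    simpa [pairing_apply, Pi.single_apply] using this
  · funext x
    have := LinearMap.congr_fun h (0, Pi.single x 1)
    simpa [pairing_apply, Pi.single_apply] using this

theorem pairing_Omega_Phi [Γ.FiniteIndex] (hneg : -1 ∈ Γ)
    (t : permInv (MulAction.toPerm ModularGroup.S : Equiv.Perm (SL(2, ℤ) ⧸ Γ)) ×
      permInv (MulAction.toPerm (ModularGroup.S * ModularGroup.T) : Equiv.Perm (SL(2, ℤ) ⧸ Γ)) ×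
      permInv (MulAction.toPerm ModularGroup.T : Equiv.Perm (SL(2, ℤ) ⧸ Γ)))
    (p : parabolicHoms ℂ Γ ℂ × ((SL(2, ℤ) ⧸ Γ) → ℂ)) :
    pairing (Omega t) (Phi p) = 0 := by
  obtain ⟨a, b, u⟩ := t
  have hS : ∑ x, a.1 x * coc ModularGroup.S⁻¹ p x = 0 := by
    apply sum_mul_coc_eq_zero ModularGroup.S⁻¹ 2 two_pos
    · intro x
      rw [S_inv_sq, neg_one_smul_eq hneg]
    · rw [S_inv_sq, trace_neg_one]
    · exact (stab a.1).inv_mem (fun x => a.2 x)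
  have hU : ∑ x, b.1 x * coc (ModularGroup.S * ModularGroup.T) p x = 0 := by
    apply sum_mul_coc_eq_zero (ModularGroup.S * ModularGroup.T) 3 three_pos
    · intro x
      rw [U_cube, neg_one_smul_eq hneg]
    · rw [U_cube, trace_neg_one]
    · exact fun x => b.2 x
  have hT : ∑ x, u.1 x * coc ModularGroup.T p x = 0 := by
    obtain ⟨m, hm, hfix⟩ := exists_pow_smul_eq (Γ := Γ) ModularGroup.T
    exact sum_mul_coc_eq_zero ModularGroup.T m hm hfix (trace_T_pow m) p u.1 (fun x => u.2 x)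
  have hre : ∑ x, u.1 ((ModularGroup.S * ModularGroup.T)⁻¹ • x) * coc ModularGroup.S⁻¹ p x
      = ∑ x, u.1 x * coc ModularGroup.S⁻¹ p ((ModularGroup.S * ModularGroup.T) • x) := by
    rw [← Equiv.sum_comp (MulAction.toPerm (ModularGroup.S * ModularGroup.T))
      (fun x => u.1 ((ModularGroup.S * ModularGroup.T)⁻¹ • x) * coc ModularGroup.S⁻¹ p x)]
    simp only [MulAction.toPerm_apply, inv_smul_smul]
  have hTT : ∀ x, coc ModularGroup.T p x
      = coc ModularGroup.S⁻¹ p ((ModularGroup.S * ModularGroup.T) • x)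
        + coc (ModularGroup.S * ModularGroup.T) p x := by
    intro x
    rw [← coc_mul, inv_mul_cancel_left]
  rw [pairing_apply]
  show ∑ x, (a.1 x + u.1 ((ModularGroup.S * ModularGroup.T)⁻¹ • x)) * coc ModularGroup.S⁻¹ p x
    + ∑ x, (b.1 x + u.1 x) * coc (ModularGroup.S * ModularGroup.T) p x = 0
  simp only [hTT, mul_add, Finset.sum_add_distrib] at hT
  simp only [add_mul, Finset.sum_add_distrib]
  rw [hS, hU, hre]
  linear_combination hT

end Shapiro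

theorem finrank_parabolicHoms_le (Γ : Subgroup SL(2, ℤ)) [Γ.FiniteIndex] (hneg : -1 ∈ Γ) :
    Module.Finite ℂ (parabolicHoms ℂ Γ ℂ) ∧
      Module.finrank ℂ (parabolicHoms ℂ Γ ℂ) + d0 Γ ModularGroup.S
        + d0 Γ (ModularGroup.S * ModularGroup.T) + d0 Γ ModularGroup.T ≤ Γ.index + 2 := by
  have hfin : Module.Finite ℂ (parabolicHoms ℂ Γ ℂ) := Shapiro.finite_parabolicHoms
  refine ⟨hfin, ?_⟩
  have h1 := LinearMap.finrank_range_add_finrank_ker (Shapiro.Phi (Γ := Γ))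
  have h2 := LinearMap.finrank_range_add_finrank_ker (Shapiro.Omega (Γ := Γ))
  have h3 := Shapiro.finrank_ker_Phi_le (Γ := Γ)
  have h4 := Shapiro.finrank_ker_Omega_le (Γ := Γ)
  have h5 := Shapiro.finrank_add_le_of_orthogonal (Shapiro.pairing (Γ := Γ))
    Shapiro.pairing_injective (LinearMap.range (Shapiro.Phi (Γ := Γ)))
    (LinearMap.range (Shapiro.Omega (Γ := Γ))) (by
      rintro _ ⟨p, rfl⟩ _ ⟨t, rfl⟩
      exact Shapiro.pairing_Omega_Phi hneg t p)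
  have hV : Module.finrank ℂ ((SL(2, ℤ) ⧸ Γ) → ℂ) = Γ.index := by
    rw [Module.finrank_fintype_fun_eq_card, Subgroup.index, Nat.card_eq_fintype_card]
  rw [Module.finrank_prod, hV] at h1 h5
  rw [Module.finrank_prod, Module.finrank_prod] at h2
  unfold d0
  omega

end Fermat.Agent.ES
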