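import Fermat.Agent.ES.Count
import Fermat.Agent.ES.Gamma0
import Fermat.Agent.ES.Shapiro
import Fermat.Agent.ES.PeriodInj

/-!
# Assembly: Eichler-Shimura for `Γ₀(N)` and the dimension of `S_2(Γ₀(N))` in terms of `d0`.
-/

set_option autoImplicit false

namespace Fermat.Agent.ES

open UpperHalfPlane ModularForm CongruenceSubgroup ModularCurve ModularCurve.Period
open scoped MatrixGroups

variable (N : ℕ) [NeZero N]

theorem finite_cuspForm : Module.Finite ℂ (CuspForm (Gamma0 N) 2) := by
  have h := ((good_Gamma0 N).sturm 2 (CF (Gamma0 N) 2) (fun f hf => IsCF.isMF hf)).1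
  exact Module.Finite.equiv (cfEquiv (Gamma0 N) 2).symm

theorem finrank_cuspForm_eq :
    Module.finrank ℂ (CuspForm (Gamma0 N) 2) = Module.finrank ℂ (CF (Gamma0 N) 2) :=
  (cfEquiv (Gamma0 N) 2).finrank_eq

theorem eichlerShimura :
    Function.Injective (periodHomPair N)
      ∧ LinearMap.range (periodHomPair N) = parabolicHoms ℂ (Gamma0 N) ℂ := by
  have hinj := periodHomPair_injective N
  refine ⟨hinj, ?_⟩
  obtain ⟨hfin, hle⟩ := finrank_parabolicHoms_le (Gamma0 N) (neg_one_mem_Gamma0 N)
  have hA := finrank_CF_two_ge' (good_Gamma0 N)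
  have := finite_cuspForm N
  apply Submodule.eq_of_le_of_finrank_le (range_periodHomPair_le N)
  rw [LinearMap.finrank_range_of_inj hinj, Module.finrank_prod, finrank_cuspForm_eq]
  omega

/-- The dimension formula in terms of `d0`. -/
theorem two_mul_finrank_cuspForm :
    2 * (Module.finrank ℂ (CuspForm (Gamma0 N) 2) : ℤ) + d0 (Gamma0 N) ModularGroup.S
        + d0 (Gamma0 N) (ModularGroup.S * ModularGroup.T) + d0 (Gamma0 N) ModularGroup.T
      = (Gamma0 N).index + 2 := by
  have hinj := periodHomPair_injective N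
  obtain ⟨hfin, hle⟩ := finrank_parabolicHoms_le (Gamma0 N) (neg_one_mem_Gamma0 N)
  have hA := finrank_CF_two_ge' (good_Gamma0 N)
  have := finite_cuspForm N
  have h1 := Submodule.finrank_mono (range_periodHomPair_le N)
  rw [LinearMap.finrank_range_of_inj hinj, Module.finrank_prod, finrank_cuspForm_eq] at h1
  rw [finrank_cuspForm_eq]
  omega

end Fermat.Agent.ES
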