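import Fermat.Agent.ES.Defs

set_option autoImplicit false

namespace Fermat.Agent.ES

open UpperHalfPlane ModularForm Filter Topology
open scoped MatrixGroups Manifold ModularForm

variable {Γ : Subgroup SL(2, ℤ)} {k k₁ k₂ : ℤ} {f g : ℍ → ℂ}

theorem IsMF.mdiff (h : IsMF Γ k f) : MDiff f := h.1
theorem IsMF.slash_eq (h : IsMF Γ k f) {γ : SL(2, ℤ)} (hγ : γ ∈ Γ) : f ∣[k] γ = f := h.2.1 γ hγ
theorem IsMF.bdd (h : IsMF Γ k f) (γ : SL(2, ℤ)) : IsBoundedAtImInfty (f ∣[k] γ) := h.2.2 γ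
theorem IsCF.mdiff (h : IsCF Γ k f) : MDiff f := h.1
theorem IsCF.slash_eq (h : IsCF Γ k f) {γ : SL(2, ℤ)} (hγ : γ ∈ Γ) : f ∣[k] γ = f := h.2.1 γ hγ
theorem IsCF.zero_at (h : IsCF Γ k f) (γ : SL(2, ℤ)) : IsZeroAtImInfty (f ∣[k] γ) := h.2.2 γ

theorem IsCF.isMF (h : IsCF Γ k f) : IsMF Γ k f :=
  ⟨h.1, h.2.1, fun γ => (h.2.2 γ).isBoundedAtImInfty⟩

theorem IsMF.bdd_self (h : IsMF Γ k f) : IsBoundedAtImInfty f := by
  simpa using h.bdd 1

theorem IsMF.zero : IsMF Γ k 0 :=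
  ⟨mdifferentiable_const, fun γ _ => SlashAction.zero_slash _ _, fun γ => by
    rw [SlashAction.zero_slash]; exact (zero_form_isBoundedAtImInfty)⟩

theorem IsMF.add (hf : IsMF Γ k f) (hg : IsMF Γ k g) : IsMF Γ k (f + g) :=
  ⟨hf.1.add hg.1, fun γ hγ => by rw [SlashAction.add_slash, hf.slash_eq hγ, hg.slash_eq hγ],
    fun γ => by rw [SlashAction.add_slash]; exact (hf.bdd γ).add (hg.bdd γ)⟩

theorem IsMF.smul (c : ℂ) (hf : IsMF Γ k f) : IsMF Γ k (c • f) :=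
  ⟨hf.1.const_smul c, fun γ hγ => by rw [SL_smul_slash, hf.slash_eq hγ],
    fun γ => by rw [SL_smul_slash]; exact (hf.bdd γ).const_smul_left c⟩

theorem IsMF.neg (hf : IsMF Γ k f) : IsMF Γ k (-f) := by
  simpa using hf.smul (-1)

theorem IsMF.sub (hf : IsMF Γ k f) (hg : IsMF Γ k g) : IsMF Γ k (f - g) := by
  simpa [sub_eq_add_neg] using hf.add hg.neg

theorem IsMF.mul (hf : IsMF Γ k₁ f) (hg : IsMF Γ k₂ g) : IsMF Γ (k₁ + k₂) (f * g) :=
  ⟨hf.1.mul hg.1, fun γ hγ => by rw [mul_slash_SL2, hf.slash_eq hγ, hg.slash_eq hγ],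
    fun γ => by rw [mul_slash_SL2]; exact (hf.bdd γ).mul (hg.bdd γ)⟩

theorem IsMF.mono {Γ' : Subgroup SL(2, ℤ)} (h : Γ' ≤ Γ) (hf : IsMF Γ k f) : IsMF Γ' k f :=
  ⟨hf.1, fun γ hγ => hf.slash_eq (h hγ), hf.2.2⟩

theorem IsMF.of_top (hf : IsMF ⊤ k f) : IsMF Γ k f := hf.mono le_top

theorem IsMF.cast {k' : ℤ} (h : k = k') (hf : IsMF Γ k f) : IsMF Γ k' f := h ▸ hf

theorem IsMF.const (c : ℂ) : IsMF Γ 0 (fun _ => c) :=
  ⟨mdifferentiable_const, fun γ _ => is_invariant_const γ c, fun γ => by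
    rw [show (fun _ : ℍ => c) = Function.const ℍ c from rfl, is_invariant_const]
    exact Filter.const_boundedAtFilter _ c⟩

theorem IsMF.sum {ι : Type*} (s : Finset ι) {F : ι → ℍ → ℂ} (h : ∀ i ∈ s, IsMF Γ k (F i)) :
    IsMF Γ k (∑ i ∈ s, F i) := by
  classical
  induction s using Finset.induction_on with
  | empty => simpa using IsMF.zero
  | insert a s ha ih =>
    rw [Finset.sum_insert ha]
    exact (h a (Finset.mem_insert_self a s)).add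
      (ih fun i hi => h i (Finset.mem_insert_of_mem hi))

theorem IsMF.slash (hf : IsMF ⊤ k f) (γ : SL(2, ℤ)) : f ∣[k] γ = f :=
  hf.slash_eq (Subgroup.mem_top γ)

theorem IsCF.zero : IsCF Γ k 0 :=
  ⟨mdifferentiable_const, fun γ _ => SlashAction.zero_slash _ _, fun γ => by
    rw [SlashAction.zero_slash]; exact Filter.zero_zeroAtFilter _⟩

theorem IsCF.add (hf : IsCF Γ k f) (hg : IsCF Γ k g) : IsCF Γ k (f + g) :=
  ⟨hf.1.add hg.1, fun γ hγ => by rw [SlashAction.add_slash, hf.slash_eq hγ, hg.slash_eq hγ],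
    fun γ => by rw [SlashAction.add_slash]; exact (hf.zero_at γ).add (hg.zero_at γ)⟩

theorem IsCF.smul (c : ℂ) (hf : IsCF Γ k f) : IsCF Γ k (c • f) :=
  ⟨hf.1.const_smul c, fun γ hγ => by rw [SL_smul_slash, hf.slash_eq hγ],
    fun γ => by rw [SL_smul_slash]; exact (hf.zero_at γ).smul c⟩

/-- The space of modular forms as a submodule of all functions. -/
def MF (Γ : Subgroup SL(2, ℤ)) (k : ℤ) : Submodule ℂ (ℍ → ℂ) where
  carrier := {f | IsMF Γ k f}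
  zero_mem' := IsMF.zero
  add_mem' := IsMF.add
  smul_mem' := fun c _ h => IsMF.smul c h

/-- The space of cusp forms as a submodule of all functions. -/
def CF (Γ : Subgroup SL(2, ℤ)) (k : ℤ) : Submodule ℂ (ℍ → ℂ) where
  carrier := {f | IsCF Γ k f}
  zero_mem' := IsCF.zero
  add_mem' := IsCF.add
  smul_mem' := fun c _ h => IsCF.smul c h

@[simp] theorem mem_MF : f ∈ MF Γ k ↔ IsMF Γ k f := Iff.rfl
@[simp] theorem mem_CF : f ∈ CF Γ k ↔ IsCF Γ k f := Iff.rfl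

theorem CF_le_MF : CF Γ k ≤ MF Γ k := fun _ h => IsCF.isMF h


/-! ### Comparison with Mathlib's bundled forms -/

theorem isMF_coe [Γ.FiniteIndex] (F : ModularForm Γ k) : IsMF Γ k F :=
  ⟨F.holo', fun γ hγ => by
    rw [SL_slash]
    exact F.slash_action_eq' _ (Subgroup.mem_map_of_mem _ hγ),
    fun γ => ModularFormClass.bdd_at_infty_slash F γ⟩

theorem isCF_coe [Γ.FiniteIndex] (F : CuspForm Γ k) : IsCF Γ k F :=
  ⟨F.holo', fun γ hγ => by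
    rw [SL_slash]
    exact F.slash_action_eq' _ (Subgroup.mem_map_of_mem _ hγ),
    fun γ => CuspFormClass.zero_at_infty_slash F γ⟩

/-- Bundle a concrete modular form. -/
noncomputable def IsMF.toModularForm [Γ.FiniteIndex] (hf : IsMF Γ k f) : ModularForm Γ k where
  toFun := f
  slash_action_eq' := by
    rintro _ ⟨γ, hγ, rfl⟩
    exact hf.slash_eq hγ
  holo' := hf.1
  bdd_at_cusps' := by
    intro c hc
    rw [Subgroup.IsArithmetic.isCusp_iff_isCusp_SL2Z] at hc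
    rw [OnePoint.isBoundedAt_iff_forall_SL2Z hc]
    exact fun γ _ => hf.bdd γ

/-- Bundle a concrete cusp form. -/
noncomputable def IsCF.toCuspForm [Γ.FiniteIndex] (hf : IsCF Γ k f) : CuspForm Γ k where
  toFun := f
  slash_action_eq' := by
    rintro _ ⟨γ, hγ, rfl⟩
    exact hf.slash_eq hγ
  holo' := hf.1
  zero_at_cusps' := by
    intro c hc
    rw [Subgroup.IsArithmetic.isCusp_iff_isCusp_SL2Z] at hc
    rw [OnePoint.isZeroAt_iff_forall_SL2Z hc]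
    exact fun γ _ => hf.zero_at γ

@[simp] theorem IsMF.coe_toModularForm [Γ.FiniteIndex] (hf : IsMF Γ k f) :
    ⇑hf.toModularForm = f := rfl

@[simp] theorem IsCF.coe_toCuspForm [Γ.FiniteIndex] (hf : IsCF Γ k f) :
    ⇑hf.toCuspForm = f := rfl

/-- `ModularForm Γ k ≃ MF Γ k`. -/
noncomputable def mfEquiv (Γ : Subgroup SL(2, ℤ)) [Γ.FiniteIndex] (k : ℤ) :
    ModularForm Γ k ≃ₗ[ℂ] MF Γ k where
  toFun F := ⟨F, isMF_coe F⟩
  map_add' _ _ := rfl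
  map_smul' _ _ := rfl
  invFun f := IsMF.toModularForm f.2
  left_inv _ := rfl
  right_inv _ := rfl

/-- `CuspForm Γ k ≃ CF Γ k`. -/
noncomputable def cfEquiv (Γ : Subgroup SL(2, ℤ)) [Γ.FiniteIndex] (k : ℤ) :
    CuspForm Γ k ≃ₗ[ℂ] CF Γ k where
  toFun F := ⟨F, isCF_coe F⟩
  map_add' _ _ := rfl
  map_smul' _ _ := rfl
  invFun f := IsCF.toCuspForm f.2
  left_inv _ := rfl
  right_inv _ := rfl

@[simp] theorem mfEquiv_apply_coe [Γ.FiniteIndex] (F : ModularForm Γ k) :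
    ((mfEquiv Γ k F : MF Γ k) : ℍ → ℂ) = F := rfl

@[simp] theorem cfEquiv_apply_coe [Γ.FiniteIndex] (F : CuspForm Γ k) :
    ((cfEquiv Γ k F : CF Γ k) : ℍ → ℂ) = F := rfl

/-- Level one: comparison with Mathlib's `𝒮ℒ`. -/
theorem isMF_top_coe (F : ModularForm 𝒮ℒ k) : IsMF ⊤ k F :=
  ⟨F.holo', fun γ _ => by
    rw [SL_slash]
    exact F.slash_action_eq' _ ⟨γ, rfl⟩,
    fun γ => ModularFormClass.bdd_at_infty_slash F γ⟩

theorem isCF_top_coe (F : CuspForm 𝒮ℒ k) : IsCF ⊤ k F :=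
  ⟨F.holo', fun γ _ => by
    rw [SL_slash]
    exact F.slash_action_eq' _ ⟨γ, rfl⟩,
    fun γ => CuspFormClass.zero_at_infty_slash F γ⟩

/-- Bundle a concrete level one modular form. -/
noncomputable def IsMF.toLevelOne (hf : IsMF ⊤ k f) : ModularForm 𝒮ℒ k where
  toFun := f
  slash_action_eq' := by
    rintro _ ⟨γ, rfl⟩
    exact hf.slash γ
  holo' := hf.1
  bdd_at_cusps' := by
    intro c hc
    rw [OnePoint.isBoundedAt_iff_forall_SL2Z hc]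
    exact fun γ _ => hf.bdd γ

@[simp] theorem IsMF.coe_toLevelOne (hf : IsMF ⊤ k f) : ⇑hf.toLevelOne = f := rfl

/-- Bundle a concrete level one cusp form. -/
noncomputable def IsCF.toLevelOne (hf : IsCF ⊤ k f) : CuspForm 𝒮ℒ k where
  toFun := f
  slash_action_eq' := by
    rintro _ ⟨γ, rfl⟩
    exact hf.slash_eq (Subgroup.mem_top γ)
  holo' := hf.1
  zero_at_cusps' := by
    intro c hc
    rw [OnePoint.isZeroAt_iff_forall_SL2Z hc]
    exact fun γ _ => hf.zero_at γ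

@[simp] theorem IsCF.coe_toLevelOne (hf : IsCF ⊤ k f) : ⇑hf.toLevelOne = f := rfl

/-! ### Conjugates -/

theorem tr_mk (hf : ∀ γ ∈ Γ, f ∣[k] γ = f) (g : SL(2, ℤ)) :
    tr k f (g : SL(2, ℤ) ⧸ Γ) = f ∣[k] g⁻¹ := by
  unfold tr
  obtain ⟨γ, hγ⟩ := QuotientGroup.mk_out_eq_mul Γ g
  rw [hγ, mul_inv_rev, SlashAction.slash_mul, hf _ (Γ.inv_mem γ.2)]

theorem tr_one (hf : ∀ γ ∈ Γ, f ∣[k] γ = f) :
    tr k f ((1 : SL(2, ℤ)) : SL(2, ℤ) ⧸ Γ) = f := by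
  rw [tr_mk hf]; simp

theorem tr_slash (hf : ∀ γ ∈ Γ, f ∣[k] γ = f) (q : SL(2, ℤ) ⧸ Γ) (h : SL(2, ℤ)) :
    tr k f q ∣[k] h = tr k f (h⁻¹ • q) := by
  induction q using QuotientGroup.induction_on with
  | H g =>
    rw [tr_mk hf, ← SlashAction.slash_mul, MulAction.Quotient.smul_mk, tr_mk hf]
    simp [mul_inv_rev]

theorem tr_add (q : SL(2, ℤ) ⧸ Γ) : tr k (f + g) q = tr k f q + tr k g q :=
  SlashAction.add_slash _ _ _ _

theorem tr_smul (c : ℂ) (q : SL(2, ℤ) ⧸ Γ) : tr k (c • f) q = c • tr k f q :=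
  SL_smul_slash _ _ _ _

theorem tr_zero (q : SL(2, ℤ) ⧸ Γ) : tr k (0 : ℍ → ℂ) q = 0 :=
  SlashAction.zero_slash _ _

theorem tr_mul (q : SL(2, ℤ) ⧸ Γ) : tr (k₁ + k₂) (f * g) q = tr k₁ f q * tr k₂ g q :=
  mul_slash_SL2 _ _ _ _ _

theorem tr_sum {ι : Type*} (s : Finset ι) (F : ι → ℍ → ℂ) (q : SL(2, ℤ) ⧸ Γ) :
    tr k (∑ i ∈ s, F i) q = ∑ i ∈ s, tr k (F i) q :=
  SlashAction.sum_slash _ _

theorem tr_levelOne (hf : IsMF ⊤ k f) (q : SL(2, ℤ) ⧸ Γ) : tr k f q = f :=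
  hf.slash _

theorem IsMF.tr_mdiff (hf : IsMF Γ k f) (q : SL(2, ℤ) ⧸ Γ) : MDiff (tr k f q) := by
  unfold tr
  rw [SL_slash]
  exact hf.1.slash k _

theorem IsMF.tr_bdd (hf : IsMF Γ k f) (q : SL(2, ℤ) ⧸ Γ) : IsBoundedAtImInfty (tr k f q) :=
  hf.bdd _

theorem IsCF.tr_zero_at (hf : IsCF Γ k f) (q : SL(2, ℤ) ⧸ Γ) : IsZeroAtImInfty (tr k f q) :=
  hf.zero_at _

/-- Criterion for `IsMF` in terms of the conjugates. -/
theorem isMF_of_tr (h1 : MDiff f) (h2 : ∀ γ ∈ Γ, f ∣[k] γ = f)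
    (h3 : ∀ q : SL(2, ℤ) ⧸ Γ, IsBoundedAtImInfty (tr k f q)) : IsMF Γ k f :=
  ⟨h1, h2, fun γ => by
    have := h3 ((γ⁻¹ : SL(2, ℤ)) : SL(2, ℤ) ⧸ Γ)
    rwa [tr_mk h2, inv_inv] at this⟩

theorem isCF_of_tr (h1 : MDiff f) (h2 : ∀ γ ∈ Γ, f ∣[k] γ = f)
    (h3 : ∀ q : SL(2, ℤ) ⧸ Γ, IsZeroAtImInfty (tr k f q)) : IsCF Γ k f :=
  ⟨h1, h2, fun γ => by
    have := h3 ((γ⁻¹ : SL(2, ℤ)) : SL(2, ℤ) ⧸ Γ)
    rwa [tr_mk h2, inv_inv] at this⟩

/-- `tr k f q (z + 1) = tr k f (T⁻¹ • q) z`. -/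
theorem tr_vadd_one (hf : ∀ γ ∈ Γ, f ∣[k] γ = f) (q : SL(2, ℤ) ⧸ Γ) (z : ℍ) :
    tr k f q ((1 : ℝ) +ᵥ z) = tr k f (ModularGroup.T⁻¹ • q) z := by
  rw [← tr_slash hf, SL_slash_apply, UpperHalfPlane.modular_T_smul]
  have hd : denom ((ModularGroup.T : SL(2, ℤ)) : GL (Fin 2) ℝ) z = 1 := by
    rw [ModularGroup.denom_apply]; simp [ModularGroup.T]
  rw [hd]; simp

/-! ### Vanishing -/

theorem IsMF.eq_zero_of_neg [Γ.FiniteIndex] (hk : k < 0) (hf : IsMF Γ k f) : f = 0 := by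
  have := ModularForm.isZero_of_neg_weight hk hf.toModularForm
  simpa using congrArg (fun F : ModularForm Γ k => (F : ℍ → ℂ)) this

theorem IsMF.const_of_weight_zero [Γ.FiniteIndex] (hf : IsMF Γ 0 f) : ∃ c : ℂ, f = fun _ => c := by
  obtain ⟨c, hc⟩ := ModularForm.eq_const_of_weight_zero hf.toModularForm
  exact ⟨c, hc⟩

theorem IsMF.eq_zero_of_odd (hneg : -1 ∈ Γ) (hk : Odd k) (hf : IsMF Γ k f) : f = 0 := by
  have h := hf.slash_eq hneg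
  funext z
  have h2 := congrFun h z
  rw [SL_slash_apply] at h2
  have hd : denom ((-1 : SL(2, ℤ)) : GL (Fin 2) ℝ) z = -1 := by
    simp [denom]
  have hs : ((-1 : SL(2, ℤ)) • z) = z := by
    simp
  rw [hd, hs, hk.neg.neg_one_zpow] at h2
  have : f z = 0 := by linear_combination (-1 / 2 : ℂ) * h2
  simpa using this

end Fermat.Agent.ES
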