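import Fermat.Agent.ES.Defs

/-!
# Task P: three lemmas on `1`-periodic holomorphic functions on `ℍ` (independent leaf).
-/

set_option autoImplicit false

namespace Fermat.Agent.ES

open UpperHalfPlane ModularForm Filter Topology Asymptotics
open scoped MatrixGroups Manifold ModularForm Real

namespace Infty

/-- The function `z ↦ exp(2π i t z)` on `ℍ`. -/
noncomputable def eexp (t : ℝ) (z : ℍ) : ℂ := Complex.exp (2 * π * Complex.I * t * z)

theorem norm_eexp (t : ℝ) (z : ℍ) : ‖eexp t z‖ = Real.exp (-2 * π * t * z.im) := by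
  unfold eexp
  rw [Complex.norm_exp]
  congr 1
  simp

theorem eexp_ne_zero (t : ℝ) (z : ℍ) : eexp t z ≠ 0 := Complex.exp_ne_zero _

theorem eexp_add (s t : ℝ) (z : ℍ) : eexp (s + t) z = eexp s z * eexp t z := by
  unfold eexp
  rw [← Complex.exp_add]
  congr 1
  push_cast
  ring

theorem eexp_zero (z : ℍ) : eexp 0 z = 1 := by
  simp [eexp]

theorem eexp_neg_mul (t : ℝ) (z : ℍ) : eexp (-t) z * eexp t z = 1 := by
  rw [← eexp_add, neg_add_cancel, eexp_zero]

theorem eexp_vadd_one (t : ℝ) (z : ℍ) :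
    eexp t ((1 : ℝ) +ᵥ z) = Complex.exp (2 * π * Complex.I * t) * eexp t z := by
  unfold eexp
  rw [← Complex.exp_add]
  congr 1
  simp
  ring

theorem eexp_one_vadd_one (z : ℍ) : eexp 1 ((1 : ℝ) +ᵥ z) = eexp 1 z := by
  rw [eexp_vadd_one]
  simp [Complex.exp_two_pi_mul_I]

theorem mdiff_eexp (t : ℝ) : MDiff (eexp t) := by
  rw [UpperHalfPlane.mdifferentiable_iff]
  have h : DifferentiableOn ℂ (fun z : ℂ => Complex.exp (2 * π * Complex.I * t * z))
      {z | 0 < z.im} := by
    fun_prop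
  refine h.congr fun z hz => ?_
  simp [eexp, ofComplex_apply_of_im_pos hz]

theorem eexp_sum {ι : Type*} (s : Finset ι) (t : ι → ℝ) (z : ℍ) :
    eexp (∑ i ∈ s, t i) z = ∏ i ∈ s, eexp (t i) z := by
  classical
  induction s using Finset.induction_on with
  | empty => simp [eexp_zero]
  | insert a s ha ih => rw [Finset.sum_insert ha, Finset.prod_insert ha, eexp_add, ih]

theorem eexp_pow (t : ℝ) (n : ℕ) (z : ℍ) : eexp t z ^ n = eexp (n * t) z := by
  unfold eexp
  rw [← Complex.exp_nat_mul]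
  congr 1
  push_cast
  ring

theorem eexp_zpow (t : ℝ) (n : ℤ) (z : ℍ) : eexp t z ^ n = eexp (n * t) z := by
  unfold eexp
  rw [← Complex.exp_int_mul]
  congr 1
  push_cast
  ring

theorem eexp_one_eq (z : ℍ) : eexp 1 z = Function.Periodic.qParam 1 z := by
  simp [eexp, Function.Periodic.qParam]


theorem periodic_comp_ofComplex_of_vadd {ψ : ℍ → ℂ} (hper : ∀ z : ℍ, ψ ((1 : ℝ) +ᵥ z) = ψ z) :
    Function.Periodic (ψ ∘ ofComplex) ((1 : ℝ) : ℂ) := by
  intro w
  by_cases! hw : 0 < Complex.im w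
  · have h1 : 0 < Complex.im (w + ((1 : ℝ) : ℂ)) := by simp [hw]
    simp only [Function.comp_apply, ofComplex_apply_of_im_pos h1, ofComplex_apply_of_im_pos hw]
    rw [← hper ⟨w, hw⟩]
    congr 1
    ext
    simp [add_comm]
  · have h1 : Complex.im (w + ((1 : ℝ) : ℂ)) ≤ 0 := by simpa using hw
    simp only [Function.comp_apply, ofComplex_apply_of_im_nonpos h1,
      ofComplex_apply_of_im_nonpos hw]

theorem eventually_differentiableAt_comp_ofComplex {ψ : ℍ → ℂ} (hol : MDiff ψ) :
    ∀ᶠ z in comap Complex.im atTop, DifferentiableAt ℂ (ψ ∘ ofComplex) z :=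
  eventually_of_mem (preimage_mem_comap (Ioi_mem_atTop 0))
        (fun z hz ↦ UpperHalfPlane.mdifferentiableAt_iff.mp (hol ⟨z, hz⟩))

end Infty

open Infty

/-- A `1`-periodic holomorphic function bounded at `i∞` has a limit there. -/
theorem tendsto_of_periodic_of_bounded {ψ : ℍ → ℂ} (hol : MDiff ψ)
    (hper : ∀ z : ℍ, ψ ((1 : ℝ) +ᵥ z) = ψ z) (hb : IsBoundedAtImInfty ψ) :
    ∃ c : ℂ, Tendsto ψ atImInfty (𝓝 c) := by
  have h1 := Function.Periodic.tendsto_at_I_inf one_pos (periodic_comp_ofComplex_of_vadd hper)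
    (eventually_differentiableAt_comp_ofComplex hol) (hb.comp_tendsto tendsto_comap_im_ofComplex)
  have h2 := h1.comp tendsto_coe_atImInfty
  refine ⟨_, h2.congr fun z => ?_⟩
  simp

/-- A `1`-periodic holomorphic function tending to `0` at `i∞` is `O(exp(-2π Im z))`
(`Function.Periodic.exp_decay_of_zero_at_inf`). -/
theorem isBigO_exp_of_periodic_of_tendsto_zero {ψ : ℍ → ℂ} (hol : MDiff ψ)
    (hper : ∀ z : ℍ, ψ ((1 : ℝ) +ᵥ z) = ψ z) (h0 : Tendsto ψ atImInfty (𝓝 0)) :
    ψ =O[atImInfty] fun z : ℍ => Real.exp (-2 * π * z.im) := by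
  have h1 := Function.Periodic.exp_decay_of_zero_at_inf one_pos
    (periodic_comp_ofComplex_of_vadd hper)
    (eventually_differentiableAt_comp_ofComplex hol) (h0.comp tendsto_comap_im_ofComplex)
  have h2 := h1.comp_tendsto tendsto_coe_atImInfty
  refine h2.congr (fun z => by simp) (fun z => by simp)


/-- A `1`-periodic holomorphic function on `ℍ` which is `O(exp(2π a Im z))` with `a < 1` is
bounded at `i∞`. (Apply the previous statement to `ψ(z) exp(2π i z)`.) -/
theorem isBoundedAtImInfty_of_periodic_of_growth {ψ : ℍ → ℂ} (hol : MDiff ψ)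
    (hper : ∀ z : ℍ, ψ ((1 : ℝ) +ᵥ z) = ψ z) {a : ℝ} (ha : a < 1)
    (hgrow : ψ =O[atImInfty] fun z : ℍ => Real.exp (2 * π * a * z.im)) :
    IsBoundedAtImInfty ψ := by
  have hE : (eexp 1) =O[atImInfty] fun z : ℍ => Real.exp (-2 * π * 1 * z.im) :=
    IsBigO.of_norm_left (by
      simp_rw [norm_eexp]
      exact isBigO_refl _ _)
  have h1 : (ψ * eexp 1) =O[atImInfty] fun z : ℍ => Real.exp (-(2 * π * (1 - a)) * z.im) := by
    refine (hgrow.mul hE).congr_right fun z => ?_
    rw [← Real.exp_add]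
    congr 1
    ring
  have h2 : Tendsto (fun z : ℍ => Real.exp (-(2 * π * (1 - a)) * z.im)) atImInfty (𝓝 0) := by
    have hpos : 0 < 2 * π * (1 - a) := by
      have := Real.pi_pos
      have : 0 < 1 - a := by linarith
      positivity
    have h3 : Tendsto (fun z : ℍ => z.im) atImInfty atTop := tendsto_comap
    have h4 := (h3.const_mul_atTop hpos)
    have h5 := Real.tendsto_exp_neg_atTop_nhds_zero.comp h4
    refine h5.congr fun z => ?_
    simp
  have h3 : Tendsto (ψ * eexp 1) atImInfty (𝓝 0) := h1.trans_tendsto h2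
  have h4 := isBigO_exp_of_periodic_of_tendsto_zero (hol.mul (mdiff_eexp 1))
    (fun z => by simp only [Pi.mul_apply, hper, eexp_one_vadd_one]) h3
  have hE' : (eexp (-1)) =O[atImInfty] fun z : ℍ => Real.exp (-2 * π * (-1) * z.im) :=
    IsBigO.of_norm_left (by
      simp_rw [norm_eexp]
      exact isBigO_refl _ _)
  have h5 := h4.mul hE'
  unfold IsBoundedAtImInfty BoundedAtFilter
  refine h5.congr (fun z => ?_) (fun z => ?_)
  · simp only [Pi.mul_apply]
    rw [mul_assoc, mul_comm (eexp 1 z), eexp_neg_mul, mul_one]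
  · rw [← Real.exp_add]
    simp


end Fermat.Agent.ES
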