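import Fermat.Agent.ES.LevelOne
import Fermat.Agent.ES.Periodic

/-!
# Task A9: `dim S_2(Γ) ≥ dim M_2(Γ) - (d0 T - 1)`.
-/

set_option autoImplicit false

namespace Fermat.Agent.ES

open UpperHalfPlane ModularForm Filter Topology
open scoped MatrixGroups Manifold ModularForm

variable {Γ : Subgroup SL(2, ℤ)}

/-! ### Values at the cusps -/

namespace Count

/-- An `m`-periodic holomorphic function bounded at `i∞` has a limit there. -/
theorem tendsto_of_nat_periodic_of_bounded {ψ : ℍ → ℂ} (hol : MDiff ψ) {m : ℕ} (hm : 0 < m)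
    (hper : ∀ z : ℍ, ψ ((m : ℝ) +ᵥ z) = ψ z) (hb : IsBoundedAtImInfty ψ) :
    ∃ c : ℂ, Tendsto ψ atImInfty (𝓝 c) := by
  have hfper : Function.Periodic (ψ ∘ ofComplex) ((m : ℝ) : ℂ) := by
    intro w
    by_cases hw : 0 < w.im
    · have hw' : 0 < (w + ((m : ℝ) : ℂ)).im := by simpa using hw
      simp only [Function.comp_apply, ofComplex_apply_of_im_pos hw', ofComplex_apply_of_im_pos hw]
      rw [← hper ⟨w, hw⟩]
      congr 1
      ext
      simp [add_comm]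
    · have hw' : (w + ((m : ℝ) : ℂ)).im ≤ 0 := by simpa using not_lt.mp hw
      simp only [Function.comp_apply]
      rw [ofComplex_apply_of_im_nonpos hw', ofComplex_apply_of_im_nonpos (not_lt.mp hw)]
  have hh : (0 : ℝ) < m := by exact_mod_cast hm
  refine ⟨cuspFunction m ψ 0, ?_⟩
  have han := analyticAt_cuspFunction_zero hh hfper hol hb
  have hcomp : (cuspFunction (m : ℝ) ψ ∘ fun τ : ℍ ↦ Function.Periodic.qParam m τ) = ψ := by
    funext τ
    simpa using eq_cuspFunction τ hh.ne' hfper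
  simpa [hcomp] using han.continuousAt.tendsto.comp (qParam_tendsto_atImInfty hh)

theorem tr_vadd_nat {k : ℤ} {f : ℍ → ℂ} (hf : ∀ γ ∈ Γ, f ∣[k] γ = f) (m : ℕ)
    (q : SL(2, ℤ) ⧸ Γ) (z : ℍ) :
    tr k f q ((m : ℝ) +ᵥ z) = tr k f ((ModularGroup.T⁻¹) ^ m • q) z := by
  induction m generalizing q with
  | zero => simp
  | succ m ih =>
    have h2 : (((m + 1 : ℕ) : ℝ)) +ᵥ z = (1 : ℝ) +ᵥ ((m : ℝ) +ᵥ z) := by
      rw [vadd_vadd]; push_cast; rw [add_comm]
    rw [h2, tr_vadd_one hf, ih, smul_smul, ← pow_succ]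

theorem exists_pow_T_smul [Γ.FiniteIndex] :
    ∃ m : ℕ, 0 < m ∧ ∀ q : SL(2, ℤ) ⧸ Γ, (ModularGroup.T⁻¹) ^ m • q = q := by
  let σ : Equiv.Perm (SL(2, ℤ) ⧸ Γ) := MulAction.toPermHom _ _ (ModularGroup.T⁻¹)
  refine ⟨orderOf σ, orderOf_pos σ, fun q => ?_⟩
  have h := congrArg (fun s : Equiv.Perm (SL(2, ℤ) ⧸ Γ) => s q) (pow_orderOf_eq_one σ)
  rw [← map_pow] at h
  exact h

/-- Every conjugate of a modular form has a limit at `i∞`. -/
theorem tr_tendsto [Γ.FiniteIndex] {k : ℤ} {f : ℍ → ℂ} (hf : IsMF Γ k f)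
    (q : SL(2, ℤ) ⧸ Γ) : Tendsto (tr k f q) atImInfty (𝓝 (valueAtInfty (tr k f q))) := by
  obtain ⟨m, hm, hT⟩ := exists_pow_T_smul (Γ := Γ)
  obtain ⟨c, hc⟩ := tendsto_of_nat_periodic_of_bounded (hf.tr_mdiff q) hm
    (fun z => by rw [tr_vadd_nat hf.2.1, hT]) (hf.tr_bdd q)
  have : valueAtInfty (tr k f q) = c := hc.limUnder_eq
  rwa [this]

/-- The linear map sending a modular form to the vector of the values at `i∞` of its
conjugates. -/
noncomputable def cuspVals (Γ : Subgroup SL(2, ℤ)) [Γ.FiniteIndex] (k : ℤ) :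
    MF Γ k →ₗ[ℂ] ((SL(2, ℤ) ⧸ Γ) → ℂ) where
  toFun f q := valueAtInfty (tr k (f : ℍ → ℂ) q)
  map_add' f g := by
    funext q
    have h := ((tr_tendsto f.2 q).add (tr_tendsto g.2 q)).limUnder_eq
    simp only [Submodule.coe_add, Pi.add_apply, tr_add]
    exact h
  map_smul' c f := by
    funext q
    have h := ((tr_tendsto f.2 q).const_smul c).limUnder_eq
    simp only [Submodule.coe_smul, Pi.smul_apply, tr_smul, RingHom.id_apply]
    exact h

theorem cuspVals_apply [Γ.FiniteIndex] {k : ℤ} (f : MF Γ k) (q : SL(2, ℤ) ⧸ Γ) :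
    cuspVals Γ k f q = valueAtInfty (tr k (f : ℍ → ℂ) q) := rfl

theorem tendsto_cuspVals [Γ.FiniteIndex] {k : ℤ} (f : MF Γ k) (q : SL(2, ℤ) ⧸ Γ) :
    Tendsto (tr k (f : ℍ → ℂ) q) atImInfty (𝓝 (cuspVals Γ k f q)) :=
  tr_tendsto f.2 q

theorem ker_cuspVals [Γ.FiniteIndex] (k : ℤ) :
    LinearMap.ker (cuspVals Γ k) = Submodule.comap (MF Γ k).subtype (CF Γ k) := by
  ext f
  simp only [LinearMap.mem_ker, Submodule.mem_comap, Submodule.subtype_apply, mem_CF]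
  constructor
  · intro h
    refine isCF_of_tr f.2.1 f.2.2.1 fun q => ?_
    have := tendsto_cuspVals f q
    rw [h] at this
    exact this
  · intro h
    funext q
    exact (h.tr_zero_at q).valueAtInfty_eq_zero

theorem tendsto_one_vadd_atImInfty :
    Tendsto (fun z : ℍ => (1 : ℝ) +ᵥ z) atImInfty atImInfty := by
  rw [atImInfty, tendsto_comap_iff]
  have : (im ∘ fun z : ℍ => (1 : ℝ) +ᵥ z) = im := by
    funext z
    simp
  rw [this]
  exact tendsto_comap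

theorem cuspVals_mem_permInv [Γ.FiniteIndex] {k : ℤ} (f : MF Γ k) :
    cuspVals Γ k f ∈ permInv (MulAction.toPerm ModularGroup.T : Equiv.Perm (SL(2, ℤ) ⧸ Γ)) := by
  intro q
  have h1 := (tendsto_cuspVals f (ModularGroup.T • q)).comp tendsto_one_vadd_atImInfty
  have h2 : (tr k (f : ℍ → ℂ) (ModularGroup.T • q) ∘ fun z : ℍ => (1 : ℝ) +ᵥ z)
      = tr k (f : ℍ → ℂ) q := by
    funext z
    simp only [Function.comp_apply]
    rw [tr_vadd_one f.2.2.1, inv_smul_smul]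
  rw [h2] at h1
  exact tendsto_nhds_unique h1 (tendsto_cuspVals f q)

/-- The trace of a modular form to level one. -/
theorem isMF_sum_tr [Γ.FiniteIndex] {k : ℤ} {f : ℍ → ℂ} (hf : IsMF Γ k f) :
    IsMF ⊤ k (∑ q : SL(2, ℤ) ⧸ Γ, tr k f q) := by
  have hinv : ∀ γ : SL(2, ℤ), (∑ q : SL(2, ℤ) ⧸ Γ, tr k f q) ∣[k] γ
      = ∑ q : SL(2, ℤ) ⧸ Γ, tr k f q := by
    intro γ
    rw [SlashAction.sum_slash]
    simp only [tr_slash hf.2.1]
    exact Equiv.sum_comp (MulAction.toPerm γ⁻¹ : Equiv.Perm (SL(2, ℤ) ⧸ Γ)) (fun q => tr k f q)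
  refine ⟨?_, fun γ _ => hinv γ, fun γ => ?_⟩
  · exact MDifferentiable.sum fun q _ => hf.tr_mdiff q
  · rw [hinv]
    exact (Filter.boundedFilterSubmodule ℂ atImInfty).sum_mem fun q _ => hf.tr_bdd q

theorem sum_cuspVals_two [Γ.FiniteIndex] (f : MF Γ 2) : ∑ q, cuspVals Γ 2 f q = 0 := by
  have h0 := levelOne_weight_two (isMF_sum_tr f.2)
  have h1 : Tendsto (fun z => ∑ q : SL(2, ℤ) ⧸ Γ, tr 2 (f : ℍ → ℂ) q z) atImInfty
      (𝓝 (∑ q, cuspVals Γ 2 f q)) :=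
    tendsto_finsetSum _ fun q _ => tendsto_cuspVals f q
  have h2 : (fun z => ∑ q : SL(2, ℤ) ⧸ Γ, tr 2 (f : ℍ → ℂ) q z) = fun _ => 0 := by
    funext z
    have := congrFun h0 z
    simpa using this
  rw [h2] at h1
  exact tendsto_nhds_unique h1 tendsto_const_nhds

end Count

open Fermat.Agent.ES.Count in
/-- A9. The map `M_2(Γ) → (X → ℂ)`, `f ↦ (lim_{i∞} tr 2 f x)_x` has kernel `S_2(Γ)` and image in
`permInv T ∩ {∑ = 0}` (since `∑_x tr 2 f x ∈ M_2(SL(2,ℤ)) = 0`), of dimension `d0 T - 1`. -/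
theorem finrank_CF_two_ge (hΓ : Good Γ) :
    Module.finrank ℂ (MF Γ 2) + 1 ≤ Module.finrank ℂ (CF Γ 2) + d0 Γ ModularGroup.T := by
  classical
  have := hΓ.finiteIndex
  have hfin : Module.Finite ℂ (MF Γ 2) := (hΓ.sturm 2 (MF Γ 2) (fun f hf => hf)).1
  set P := permInv (MulAction.toPerm ModularGroup.T : Equiv.Perm (SL(2, ℤ) ⧸ Γ)) with hP
  let φ : ((SL(2, ℤ) ⧸ Γ) → ℂ) →ₗ[ℂ] ℂ := ∑ q, LinearMap.proj q
  have hφ : ∀ v, φ v = ∑ q, v q := fun v => by simp [φ]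
  have hrange : LinearMap.range (cuspVals Γ 2) ≤ P ⊓ LinearMap.ker φ := by
    rintro _ ⟨f, rfl⟩
    refine ⟨cuspVals_mem_permInv f, ?_⟩
    rw [SetLike.mem_coe, LinearMap.mem_ker, hφ]
    exact sum_cuspVals_two f
  have hlt : P ⊓ LinearMap.ker φ < P := by
    refine lt_of_le_of_ne inf_le_left fun heq => ?_
    have h1 : (fun _ => 1 : (SL(2, ℤ) ⧸ Γ) → ℂ) ∈ P := fun _ => rfl
    rw [← heq] at h1
    have h2 := h1.2
    rw [SetLike.mem_coe, LinearMap.mem_ker, hφ] at h2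
    simp only [Finset.sum_const, Finset.card_univ, nsmul_eq_mul, mul_one, Nat.cast_eq_zero] at h2
    exact Fintype.card_ne_zero h2
  have h1 := Submodule.finrank_lt_finrank_of_lt hlt
  have h2 := Submodule.finrank_mono hrange
  have h3 := LinearMap.finrank_range_add_finrank_ker (cuspVals Γ 2)
  have h4 : Module.finrank ℂ (LinearMap.ker (cuspVals Γ 2)) = Module.finrank ℂ (CF Γ 2) := by
    rw [ker_cuspVals]
    exact (Submodule.comapSubtypeEquivOfLe CF_le_MF).finrank_eq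
  have h5 : d0 Γ ModularGroup.T = Module.finrank ℂ P := rfl
  omega

end Fermat.Agent.ES
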