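import Fermat.Agent.ES.Defs

/-!
# Task LA: linear algebra of permutation operators on `X → ℂ` (pure linear algebra, no analysis).
`(P_σ v) x = v (σ x)`.
-/

set_option autoImplicit false

namespace Fermat.Agent.ES

open scoped ComplexConjugate

variable {X : Type} [Fintype X]

theorem permInv_inv (σ : Equiv.Perm X) : permInv σ⁻¹ = permInv σ := by
  ext v
  simp only [mem_permInv]
  constructor
  · intro h x
    have := h (σ x)
    simp at this
    exact this.symm
  · intro h x
    have := h (σ⁻¹ x)
    simp at this
    exact this.symm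

/-- The permutation operator `(P_σ v) x = v (σ x)`. -/
noncomputable def permOp (σ : Equiv.Perm X) : Module.End ℂ (X → ℂ) :=
  LinearMap.funLeft ℂ ℂ σ

@[simp] theorem permOp_apply (σ : Equiv.Perm X) (v : X → ℂ) (x : X) :
    permOp σ v x = v (σ x) := rfl

/-- The `ζ`-eigenspace of the permutation operator, concretely. -/
def permEigen (σ : Equiv.Perm X) (ζ : ℂ) : Submodule ℂ (X → ℂ) where
  carrier := {v | ∀ x, v (σ x) = ζ * v x}
  zero_mem' := fun _ => by simp
  add_mem' := by
    intro a b ha hb x
    simp only [Pi.add_apply, ha x, hb x, mul_add]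
  smul_mem' := by
    intro c a ha x
    simp only [Pi.smul_apply, ha x, smul_eq_mul]
    ring

theorem mem_permEigen {σ : Equiv.Perm X} {ζ : ℂ} {v : X → ℂ} :
    v ∈ permEigen σ ζ ↔ ∀ x, v (σ x) = ζ * v x := Iff.rfl

theorem permEigen_one (σ : Equiv.Perm X) : permEigen σ 1 = permInv σ := by
  ext v
  simp [mem_permEigen, mem_permInv]

theorem permEigen_eq_eigenspace (σ : Equiv.Perm X) (ζ : ℂ) :
    permEigen σ ζ = (permOp σ).eigenspace ζ := by
  ext v
  rw [Module.End.mem_eigenspace_iff, mem_permEigen, funext_iff]
  rfl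

/-- General fact: `#{j | c j = ζ} = dim ker (P_σ - ζ)`. -/
theorem card_eigen (σ : Equiv.Perm X) {J : Type} [Fintype J] (b : J → X → ℂ)
    (hb : LinearIndependent ℂ b) (hcard : Fintype.card J = Fintype.card X) (c : J → ℂ)
    (hc : ∀ j x, b j (σ x) = c j * b j x) (ζ : ℂ) :
    Nat.card {j // c j = ζ} = Module.finrank ℂ (permEigen σ ζ) := by
  classical
  have hspan : Submodule.span ℂ (Set.range b) = ⊤ := by
    apply hb.span_eq_top_of_card_eq_finrank'
    rw [hcard, Module.finrank_fintype_fun_eq_card]
  let B : Module.Basis J ℂ (X → ℂ) := Module.Basis.mk hb hspan.ge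
  have hB : ∀ j, B j = b j := fun j => by simp [B]
  have hE : permEigen σ ζ = Submodule.span ℂ (Set.range fun j : {j // c j = ζ} => b j) := by
    apply le_antisymm
    · intro v hv
      have h1 : v = ∑ j, B.repr v j • b j := by
        conv_lhs => rw [← B.sum_repr v]
        simp only [hB]
      have h2 : ∑ j, (B.repr v j * (c j - ζ)) • b j = 0 := by
        funext x
        have h3 := hv x
        rw [h1] at h3
        simp only [Finset.sum_apply, Pi.smul_apply, smul_eq_mul, hc, Finset.mul_sum] at h3
        simp only [Finset.sum_apply, Pi.smul_apply, smul_eq_mul, Pi.zero_apply]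
        rw [← sub_eq_zero, ← Finset.sum_sub_distrib] at h3
        rw [← h3]
        apply Finset.sum_congr rfl
        intro j _
        ring
      have h4 := (Fintype.linearIndependent_iff.mp hb) _ h2
      rw [h1]
      apply Submodule.sum_mem
      intro j _
      by_cases hj : c j = ζ
      · exact Submodule.smul_mem _ _ (Submodule.subset_span ⟨⟨j, hj⟩, rfl⟩)
      · have : B.repr v j = 0 := by
          rcases mul_eq_zero.mp (h4 j) with h | h
          · exact h
          · exact absurd (sub_eq_zero.mp h) hj
        rw [this, zero_smul]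
        exact Submodule.zero_mem _
    · rw [Submodule.span_le]
      rintro _ ⟨⟨j, hj⟩, rfl⟩
      intro x
      simp only [hc, hj]
  have hli : LinearIndependent ℂ (fun j : {j // c j = ζ} => b j) :=
    hb.comp _ Subtype.val_injective
  rw [hE, finrank_span_eq_card hli, Nat.card_eq_fintype_card]

/-- If a basis of `X → ℂ` consists of eigenvectors of `P_σ`, the number of basis vectors with
eigenvalue `1` is `dim (permInv σ)`.
(General fact: `#{j | c j = ζ} = dim ker (P_σ - ζ)`: `≤` by independence inside the eigenspace,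
and equality since eigenspaces are independent and the total is `card X`.) -/
theorem card_eigen_one (σ : Equiv.Perm X) {J : Type} [Fintype J] (b : J → X → ℂ)
    (hb : LinearIndependent ℂ b) (hcard : Fintype.card J = Fintype.card X) (c : J → ℂ)
    (hc : ∀ j x, b j (σ x) = c j * b j x) :
    Nat.card {j // c j = 1} = Module.finrank ℂ (permInv σ) := by
  rw [card_eigen σ b hb hcard c hc 1, permEigen_one]

/-- Complex conjugation exchanges the eigenspaces for `ζ` and `conj ζ`. -/
theorem finrank_permEigen_conj (σ : Equiv.Perm X) (ζ : ℂ) :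
    Module.finrank ℂ (permEigen σ (conj ζ)) = Module.finrank ℂ (permEigen σ ζ) := by
  have key : ∀ ξ : ℂ, ∀ v ∈ permEigen σ ξ, (fun x => conj (v x)) ∈ permEigen σ (conj ξ) := by
    intro ξ v hv x
    simp only [hv x, map_mul]
  let j : permEigen σ (conj ζ) ≃+ permEigen σ ζ :=
    { toFun := fun v => ⟨fun x => conj (v.1 x), by simpa using key _ v.1 v.2⟩
      invFun := fun v => ⟨fun x => conj (v.1 x), key _ v.1 v.2⟩
      left_inv := fun v => by ext x; simp
      right_inv := fun v => by ext x; simp
      map_add' := fun v w => by ext x; simp }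
  have h := rank_eq_of_equiv_equiv (R := ℂ) (R' := ℂ) (starRingEnd ℂ) j
    (starRingAut (R := ℂ)).bijective (fun r m => by ext x; simp [j])
  unfold Module.finrank
  rw [h]

/-- Conjugation symmetry of the eigenvalue multiplicities (`P_σ` is a real matrix). -/
theorem card_eigen_conj (σ : Equiv.Perm X) {J : Type} [Fintype J] (b : J → X → ℂ)
    (hb : LinearIndependent ℂ b) (hcard : Fintype.card J = Fintype.card X) (c : J → ℂ)
    (hc : ∀ j x, b j (σ x) = c j * b j x) (ζ : ℂ) :
    Nat.card {j // c j = ζ} = Nat.card {j // c j = conj ζ} := by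
  rw [card_eigen σ b hb hcard c hc ζ, card_eigen σ b hb hcard c hc (conj ζ),
    finrank_permEigen_conj]

theorem permOp_pow (σ : Equiv.Perm X) (n : ℕ) : permOp σ ^ n = permOp (σ ^ n) := by
  induction n with
  | zero =>
    ext v x
    simp
  | succ n ih =>
    rw [pow_succ, ih]
    apply LinearMap.ext
    intro v
    funext x
    rw [Module.End.mul_apply, permOp_apply, permOp_apply, permOp_apply, pow_succ',
      Equiv.Perm.mul_apply]

/-- Arithmetic of symmetric multiplicities. -/
theorem sum_mul_symm (m : ℕ) (n : ℕ → ℕ) (hsym : ∀ r, r ≤ m → n (m - r) = n r) :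
    2 * ∑ r ∈ Finset.range m, r * n r + m * n 0 = m * ∑ r ∈ Finset.range m, n r := by
  have h0 : n m = n 0 := by simpa using hsym 0 (Nat.zero_le m)
  have h1 : ∑ j ∈ Finset.range (m + 1), (m - j) * n j = ∑ j ∈ Finset.range (m + 1), j * n j := by
    rw [← Finset.sum_range_reflect (fun j => j * n j) (m + 1)]
    apply Finset.sum_congr rfl
    intro j hj
    have hj' : j ≤ m := Nat.lt_succ_iff.mp (Finset.mem_range.mp hj)
    simp only [Nat.add_sub_cancel]
    rw [hsym j hj']
  have h2 : ∑ j ∈ Finset.range (m + 1), (m - j) * n j + ∑ j ∈ Finset.range (m + 1), j * n j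
      = m * ∑ j ∈ Finset.range (m + 1), n j := by
    rw [← Finset.sum_add_distrib, Finset.mul_sum]
    apply Finset.sum_congr rfl
    intro j hj
    have hj' : j ≤ m := Nat.lt_succ_iff.mp (Finset.mem_range.mp hj)
    rw [← add_mul, Nat.sub_add_cancel hj']
  rw [h1, Finset.sum_range_succ, Finset.sum_range_succ, h0] at h2
  nlinarith [h2]

/-- Existence of an eigenbasis for a permutation with `σ ^ m = 1`, with control of the sum of
the exponents: `2 ∑ r_i = m (card X - dim permInv σ)` (pair `r ↔ m - r`). -/
theorem exists_eigenbasis (σ : Equiv.Perm X) (m : ℕ) (hm : 0 < m) (hσ : σ ^ m = 1) :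
    ∃ (b : X → X → ℂ) (r : X → ℕ), LinearIndependent ℂ b ∧ (∀ i, r i < m) ∧
      (∀ i x, b i (σ x) = Complex.exp (2 * Real.pi * Complex.I * (r i : ℂ) / (m : ℂ)) * b i x) ∧
      2 * ∑ i, r i + m * Module.finrank ℂ (permInv σ) = m * Fintype.card X := by
  classical
  have : NeZero m := ⟨hm.ne'⟩
  set ζ : ℂ := Complex.exp (2 * Real.pi * Complex.I / m) with hζdef
  have hζ : IsPrimitiveRoot ζ m := Complex.isPrimitiveRoot_exp m hm.ne'
  have hexp : ∀ r : ℕ, Complex.exp (2 * Real.pi * Complex.I * (r : ℂ) / (m : ℂ)) = ζ ^ r := by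
    intro r
    rw [hζdef, ← Complex.exp_nat_mul]
    congr 1
    ring
  set P := permOp σ with hP
  have hPm : P ^ m = 1 := by
    rw [hP, permOp_pow, hσ]
    ext v x
    simp
  have hss : P.IsSemisimple := by
    apply Module.End.isSemisimple_of_squarefree_aeval_eq_zero (p := Polynomial.X ^ m - 1)
    · apply Polynomial.Separable.squarefree
      rw [Polynomial.X_pow_sub_one_separable_iff]
      exact_mod_cast hm.ne'
    · simp [hPm]
  let E : Fin m → Submodule ℂ (X → ℂ) := fun r => P.eigenspace (ζ ^ (r : ℕ))
  have hinj : Function.Injective (fun r : Fin m => ζ ^ (r : ℕ)) := by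
    intro a b hab
    exact Fin.ext (hζ.pow_inj a.2 b.2 hab)
  have hind : iSupIndep E := P.eigenspaces_iSupIndep.comp hinj
  have htop : iSup E = ⊤ := by
    rw [eq_top_iff, ← hss.iSup_eigenspace_eq_top]
    apply iSup_le
    intro μ
    by_cases hμ : P.eigenspace μ = ⊥
    · rw [hμ]; exact bot_le
    · obtain ⟨v, hv, hv0⟩ := (Submodule.ne_bot_iff _).mp hμ
      have hev : P.HasEigenvector μ v := ⟨hv, hv0⟩
      have h1 := hev.pow_apply m
      rw [hPm, Module.End.one_apply] at h1
      have h2 : μ ^ m = 1 := by
        have h3 : (μ ^ m - 1) • v = 0 := by rw [sub_smul, one_smul, ← h1, sub_self]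
        rcases smul_eq_zero.mp h3 with h | h
        · exact sub_eq_zero.mp h
        · exact absurd h hv0
      obtain ⟨i, hi, rfl⟩ := hζ.eq_pow_of_pow_eq_one h2
      exact le_iSup E ⟨i, hi⟩
  have hint : DirectSum.IsInternal E :=
    DirectSum.isInternal_submodule_of_iSupIndep_of_iSup_eq_top hind htop
  let B := hint.collectedBasis (fun r => Module.finBasis ℂ (E r))
  have hcardB : Fintype.card X = Fintype.card (Σ r : Fin m, Fin (Module.finrank ℂ (E r))) := by
    rw [← Module.finrank_eq_card_basis B, Module.finrank_fintype_fun_eq_card]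
  let e : X ≃ Σ r : Fin m, Fin (Module.finrank ℂ (E r)) := Fintype.equivOfCardEq hcardB
  refine ⟨fun i => B (e i), fun i => ((e i).1 : ℕ), ?_, fun i => (e i).1.2, ?_, ?_⟩
  · exact B.linearIndependent.comp _ e.injective
  · intro i x
    have hmem : B (e i) ∈ E (e i).1 := hint.collectedBasis_mem _ _
    rw [hexp]
    have := Module.End.mem_eigenspace_iff.mp hmem
    exact congrFun this x
  · let n : ℕ → ℕ := fun r => Module.finrank ℂ (permEigen σ (ζ ^ r))
    have hn : ∀ r : Fin m, Module.finrank ℂ (E r) = n r := by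
      intro r
      change Module.finrank ℂ (P.eigenspace (ζ ^ (r : ℕ))) = Module.finrank ℂ (permEigen σ (ζ ^ (r : ℕ)))
      rw [permEigen_eq_eigenspace]
    have hsym : ∀ r, r ≤ m → n (m - r) = n r := by
      intro r hr
      have hc : conj (ζ ^ r) = ζ ^ (m - r) := by
        have hnorm : ‖ζ ^ r‖ = 1 := by
          apply Complex.norm_eq_one_of_pow_eq_one (n := m) _ hm.ne'
          rw [← pow_mul, mul_comm, pow_mul, hζ.pow_eq_one, one_pow]
        rw [← Complex.inv_eq_conj hnorm]
        symm
        apply eq_inv_of_mul_eq_one_left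
        rw [pow_sub_mul_pow _ hr, hζ.pow_eq_one]
      simp only [n]
      rw [← hc, finrank_permEigen_conj]
    have hs1 : ∑ i, ((e i).1 : ℕ) = ∑ r ∈ Finset.range m, r * n r := by
      rw [Equiv.sum_comp e (fun a => (a.1 : ℕ)), Fintype.sum_sigma,
        ← Fin.sum_univ_eq_sum_range (fun r => r * n r)]
      apply Finset.sum_congr rfl
      intro r _
      simp [hn, mul_comm]
    have hs2 : Fintype.card X = ∑ r ∈ Finset.range m, n r := by
      rw [hcardB, Fintype.card_sigma, ← Fin.sum_univ_eq_sum_range n]
      apply Finset.sum_congr rfl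
      intro r _
      simp [hn]
    have hs3 : Module.finrank ℂ (permInv σ) = n 0 := by
      change _ = Module.finrank ℂ (permEigen σ (ζ ^ 0))
      rw [pow_zero, permEigen_one]
    rw [hs1, hs2, hs3]
    exact sum_mul_symm m n hsym

/-- `dim ker (1 + P_σ) = card X - dim permInv σ` if `σ^2 = 1`. -/
theorem finrank_ker_one_add (σ : Equiv.Perm X) (hσ : σ ^ 2 = 1) (W : Submodule ℂ (X → ℂ))
    (hW : ∀ v, v ∈ W ↔ ∀ x, v x + v (σ x) = 0) :
    Module.finrank ℂ W + Module.finrank ℂ (permInv σ) = Fintype.card X := by
  have hσ2 : ∀ x, σ (σ x) = x := fun x => by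
    have := congrArg (fun τ : Equiv.Perm X => τ x) hσ
    simpa [pow_two] using this
  let L : Module.End ℂ (X → ℂ) := 1 + permOp σ
  have hker : LinearMap.ker L = W := by
    ext v
    rw [LinearMap.mem_ker, hW, funext_iff]
    rfl
  have hrange : LinearMap.range L = permInv σ := by
    ext v
    rw [LinearMap.mem_range, mem_permInv]
    constructor
    · rintro ⟨w, rfl⟩ x
      simp only [L, LinearMap.add_apply, Module.End.one_apply, Pi.add_apply, permOp_apply, hσ2]
      ring
    · intro h
      refine ⟨(1 / 2 : ℂ) • v, ?_⟩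
      funext x
      simp only [L, LinearMap.add_apply, Module.End.one_apply, Pi.add_apply, permOp_apply,
        Pi.smul_apply, smul_eq_mul, h]
      ring
  have := LinearMap.finrank_range_add_finrank_ker L
  rw [hker, hrange, Module.finrank_fintype_fun_eq_card] at this
  omega

/-- `dim ker (1 + P_σ + P_σ^2) = card X - dim permInv σ` if `σ^3 = 1`. -/
theorem finrank_ker_one_add_add (σ : Equiv.Perm X) (hσ : σ ^ 3 = 1) (W : Submodule ℂ (X → ℂ))
    (hW : ∀ v, v ∈ W ↔ ∀ x, v x + v (σ x) + v (σ (σ x)) = 0) :
    Module.finrank ℂ W + Module.finrank ℂ (permInv σ) = Fintype.card X := by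
  have hσ3 : ∀ x, σ (σ (σ x)) = x := fun x => by
    have := congrArg (fun τ : Equiv.Perm X => τ x) hσ
    simpa [pow_succ] using this
  let L : Module.End ℂ (X → ℂ) := 1 + permOp σ + permOp σ * permOp σ
  have hker : LinearMap.ker L = W := by
    ext v
    rw [LinearMap.mem_ker, hW, funext_iff]
    rfl
  have hrange : LinearMap.range L = permInv σ := by
    ext v
    rw [LinearMap.mem_range, mem_permInv]
    constructor
    · rintro ⟨w, rfl⟩ x
      simp only [L, LinearMap.add_apply, Module.End.one_apply, Pi.add_apply, permOp_apply,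
        Module.End.mul_apply, hσ3]
      ring
    · intro h
      refine ⟨(1 / 3 : ℂ) • v, ?_⟩
      funext x
      simp only [L, LinearMap.add_apply, Module.End.one_apply, Pi.add_apply, permOp_apply,
        Module.End.mul_apply, Pi.smul_apply, smul_eq_mul, h]
      ring
  have := LinearMap.finrank_range_add_finrank_ker L
  rw [hker, hrange, Module.finrank_fintype_fun_eq_card] at this
  omega

/-- `ker (1 + P_σ) = im (P_σ - 1)` if `σ^2 = 1`. -/
theorem exists_sub_of_one_add (σ : Equiv.Perm X) (hσ : σ ^ 2 = 1) (v : X → ℂ)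
    (hv : ∀ x, v x + v (σ x) = 0) : ∃ w : X → ℂ, ∀ x, v x = w (σ x) - w x := by
  refine ⟨fun x => -(v x) / 2, fun x => ?_⟩
  linear_combination (1 / 2 : ℂ) * hv x

/-- `ker (1 + P_σ + P_σ^2) = im (P_σ - 1)` if `σ^3 = 1`. -/
theorem exists_sub_of_one_add_add (σ : Equiv.Perm X) (hσ : σ ^ 3 = 1) (v : X → ℂ)
    (hv : ∀ x, v x + v (σ x) + v (σ (σ x)) = 0) : ∃ w : X → ℂ, ∀ x, v x = w (σ x) - w x := by
  refine ⟨fun x => -(2 * v x + v (σ x)) / 3, fun x => ?_⟩
  linear_combination (1 / 3 : ℂ) * hv x

/-- `dim permInv σ` is the number of orbits (needed only for S20). -/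
theorem finrank_permInv (σ : Equiv.Perm X) :
    Module.finrank ℂ (permInv σ)
      = Nat.card (MulAction.orbitRel.Quotient (Subgroup.zpowers σ) X) := by
  classical
  have hinv : ∀ v ∈ permInv σ, ∀ g : Subgroup.zpowers σ, ∀ x, v (g • x) = v x := by
    intro v hv
    let H : Subgroup (Equiv.Perm X) :=
      { carrier := {τ | ∀ x, v (τ x) = v x}
        one_mem' := fun x => rfl
        mul_mem' := fun {a b} ha hb x => by
          rw [Equiv.Perm.mul_apply, ha, hb]
        inv_mem' := fun {a} ha x => by
          have := ha (a⁻¹ x)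
          simp at this
          exact this.symm }
    have hle : Subgroup.zpowers σ ≤ H := by
      rw [Subgroup.zpowers_le]
      exact hv
    intro g x
    exact hle g.2 x
  let e : permInv σ ≃ₗ[ℂ] (MulAction.orbitRel.Quotient (Subgroup.zpowers σ) X → ℂ) :=
    { toFun := fun v => fun q => Quotient.liftOn' q v.1 (by
        rintro a b ⟨g, rfl⟩
        exact hinv v.1 v.2 g b)
      map_add' := fun v w => by
        funext q
        induction q using Quotient.inductionOn' with
        | h a => rfl
      map_smul' := fun c v => by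
        funext q
        induction q using Quotient.inductionOn' with
        | h a => rfl
      invFun := fun f => ⟨fun x => f (Quotient.mk'' x), fun x => by
        have : (Quotient.mk'' (σ x) : MulAction.orbitRel.Quotient (Subgroup.zpowers σ) X)
            = Quotient.mk'' x := by
          apply Quotient.sound'
          exact ⟨⟨σ, Subgroup.mem_zpowers σ⟩, rfl⟩
        simp only [this]⟩
      left_inv := fun v => by
        ext x
        rfl
      right_inv := fun f => by
        funext q
        induction q using Quotient.inductionOn' with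
        | h a => rfl }
  have : Fintype (MulAction.orbitRel.Quotient (Subgroup.zpowers σ) X) := Fintype.ofFinite _
  rw [e.finrank_eq, Module.finrank_fintype_fun_eq_card, Nat.card_eq_fintype_card]

end Fermat.Agent.ES
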