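import Fermat.Agent.ES.DetODE
import Fermat.Agent.ES.PermLA

/-!
# Task A7: evaluation at the elliptic points `i` and `ρ`.
-/

set_option autoImplicit false

namespace Fermat.Agent.ES

open UpperHalfPlane ModularForm Filter Topology
open scoped MatrixGroups Manifold ModularForm ComplexConjugate

variable {Γ : Subgroup SL(2, ℤ)}

namespace Elliptic

/-- Value of the conjugates at a fixed point of `h`. -/
theorem tr_inv_smul_of_fixed {k : ℤ} {f : ℍ → ℂ} (hf : ∀ γ ∈ Γ, f ∣[k] γ = f) (h : SL(2, ℤ))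
    (z : ℍ) (hz : h • z = z) (q : SL(2, ℤ) ⧸ Γ) :
    tr k f (h⁻¹ • q) z = denom (h : GL (Fin 2) ℝ) z ^ (-k) * tr k f q z := by
  rw [← tr_slash hf, SL_slash_apply, hz, mul_comm]

/-- The vectors of conjugates at a fixed point of `h` are eigenvectors of the permutation. -/
theorem vec_toPerm_inv_of_fixed {J : Type} {wt : J → ℤ} {f : J → ℍ → ℂ}
    (hf : ∀ j, IsMF Γ (wt j) (f j)) (h : SL(2, ℤ)) (z : ℍ) (hz : h • z = z) (j : J)
    (x : SL(2, ℤ) ⧸ Γ) :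
    vec wt f z j ((MulAction.toPerm h⁻¹ : Equiv.Perm (SL(2, ℤ) ⧸ Γ)) x)
      = denom (h : GL (Fin 2) ℝ) z ^ (-wt j) * vec wt f z j x :=
  tr_inv_smul_of_fixed (hf j).2.1 h z hz x

theorem card_quot_eq_index [Γ.FiniteIndex] : Fintype.card (SL(2, ℤ) ⧸ Γ) = Γ.index := by
  rw [Subgroup.index, Nat.card_eq_fintype_card]

theorem finrank_permInv_toPerm_inv [Γ.FiniteIndex] (h : SL(2, ℤ)) :
    Module.finrank ℂ (permInv (MulAction.toPerm h⁻¹ : Equiv.Perm (SL(2, ℤ) ⧸ Γ))) = d0 Γ h := by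
  have : (MulAction.toPerm h⁻¹ : Equiv.Perm (SL(2, ℤ) ⧸ Γ))
      = (MulAction.toPerm h : Equiv.Perm (SL(2, ℤ) ⧸ Γ))⁻¹ := by
    ext x; simp
  rw [this, permInv_inv]; rfl

/-- General statement at a fixed point `z` of `h` such that `denom h z` is a primitive
`n`-th root of unity. -/
theorem card_dvd_of_fixed (hΓ : Good Γ) {J : Type} [Fintype J] {wt : J → ℤ}
    {f : J → ℍ → ℂ} (hb : IsFreeBasis Γ wt f) (h : SL(2, ℤ)) (z : ℍ) (hz : h • z = z) (n : ℕ)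
    (hn : IsPrimitiveRoot (denom (h : GL (Fin 2) ℝ) z) n) :
    Nat.card {j // (n : ℤ) ∣ wt j} = d0 Γ h := by
  have := hΓ.finiteIndex
  have key := card_eigen_one (MulAction.toPerm h⁻¹ : Equiv.Perm (SL(2, ℤ) ⧸ Γ))
    (vec (Γ := Γ) wt f z) (hb.linearIndependent_vec hΓ z)
    ((hb.card_eq hΓ).trans card_quot_eq_index.symm)
    (fun j => denom (h : GL (Fin 2) ℝ) z ^ (-wt j))
    (fun j x => vec_toPerm_inv_of_fixed hb.mem h z hz j x)
  rw [finrank_permInv_toPerm_inv] at key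
  rw [← key]
  refine Nat.card_congr (Equiv.subtypeEquivRight fun j => ?_)
  rw [hn.zpow_eq_one_iff_dvd, dvd_neg]

/-- Conjugation symmetry at a fixed point. -/
theorem card_conj_of_fixed (hΓ : Good Γ) {J : Type} [Fintype J] {wt : J → ℤ}
    {f : J → ℍ → ℂ} (hb : IsFreeBasis Γ wt f) (h : SL(2, ℤ)) (z : ℍ) (hz : h • z = z) (ζ : ℂ) :
    Nat.card {j // denom (h : GL (Fin 2) ℝ) z ^ (-wt j) = ζ}
      = Nat.card {j // denom (h : GL (Fin 2) ℝ) z ^ (-wt j) = conj ζ} := by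
  have := hΓ.finiteIndex
  exact card_eigen_conj (MulAction.toPerm h⁻¹ : Equiv.Perm (SL(2, ℤ) ⧸ Γ))
    (vec (Γ := Γ) wt f z) (hb.linearIndependent_vec hΓ z)
    ((hb.card_eq hΓ).trans card_quot_eq_index.symm)
    (fun j => denom (h : GL (Fin 2) ℝ) z ^ (-wt j))
    (fun j x => vec_toPerm_inv_of_fixed hb.mem h z hz j x) ζ

theorem S_smul_I : ModularGroup.S • (I : ℍ) = I := by
  rw [UpperHalfPlane.ext_iff, modular_S_smul, UpperHalfPlane.coe_mk]
  simp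

theorem ST_smul_rho : (ModularGroup.S * ModularGroup.T) • ρ = ρ := by
  rw [mul_smul, UpperHalfPlane.ext_iff, modular_S_smul, modular_T_smul, UpperHalfPlane.coe_mk,
    coe_vadd]
  have h1 : (ρ : ℂ) ^ 2 = -ρ - 1 := ρ_sq
  rw [inv_eq_iff_eq_inv]
  apply eq_inv_of_mul_eq_one_left
  push_cast
  linear_combination -h1

theorem denom_S_I : denom ((ModularGroup.S : SL(2, ℤ)) : GL (Fin 2) ℝ) I = Complex.I := by
  rw [ModularGroup.denom_S]; rfl

theorem denom_ST_rho :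
    denom ((ModularGroup.S * ModularGroup.T : SL(2, ℤ)) : GL (Fin 2) ℝ) ρ = (ρ : ℂ) + 1 := by
  rw [ModularGroup.denom_apply]
  simp [ModularGroup.coe_S, ModularGroup.coe_T, Matrix.SpecialLinearGroup.coe_mul]

theorem isPrimitiveRoot_rho_add_one : IsPrimitiveRoot ((ρ : ℂ) + 1) 6 := by
  have h1 : (ρ : ℂ) ^ 2 = -ρ - 1 := ρ_sq
  have hne : (ρ : ℂ) ≠ 0 := ρ.ne_zero
  have him : (ρ : ℂ).im ≠ 0 := ρ.im_ne_zero
  have h2 : ((ρ : ℂ) + 1) ^ 2 = ρ := by linear_combination h1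
  have h3 : ((ρ : ℂ) + 1) ^ 3 = -1 := by linear_combination ((ρ : ℂ) + 2) * h1
  refine IsPrimitiveRoot.mk_of_lt _ (by norm_num)
    (by linear_combination (((ρ : ℂ) + 1) ^ 3 - 1) * h3) ?_
  intro l hl hl6 h
  interval_cases l
  · have : (ρ : ℂ) = 0 := by linear_combination h
    exact absurd this hne
  · apply him
    rw [h2] at h
    rw [h]; simp
  · rw [h3] at h; norm_num at h
  · apply him
    have : (ρ : ℂ) = -2 := by linear_combination (-1 : ℂ) * h + ((ρ : ℂ) + 1) * h3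
    rw [this]; simp
  · apply him
    have : (ρ : ℂ) = -1 := by
      linear_combination (-1 : ℂ) * h + ((ρ : ℂ) + 1) ^ 2 * h3 - h2
    rw [this]; simp

theorem zpow_eq_zpow_iff_of_primitive {ζ : ℂ} {n : ℕ} (hn : n ≠ 0) (hζ : IsPrimitiveRoot ζ n)
    (a b : ℤ) : ζ ^ a = ζ ^ b ↔ (n : ℤ) ∣ a - b := by
  have h0 : ζ ≠ 0 := hζ.ne_zero hn
  rw [← hζ.zpow_eq_one_iff_dvd, zpow_sub₀ h0, div_eq_one_iff_eq (zpow_ne_zero _ h0)]

theorem conj_zpow_of_primitive {ζ : ℂ} {n : ℕ} (hn : n ≠ 0) (hζ : IsPrimitiveRoot ζ n)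
    (a : ℤ) : conj (ζ ^ a) = ζ ^ (-a) := by
  have h1 : ‖ζ‖ = 1 := Complex.norm_eq_one_of_pow_eq_one hζ.pow_eq_one hn
  rw [map_zpow₀, ← Complex.inv_eq_conj h1, inv_zpow, zpow_neg]

end Elliptic

open Elliptic

/-- `vec wt f I j` is an eigenvector of the permutation `S⁻¹` with eigenvalue `i^{-wt j}`
(`tr_slash`, `S • I = I`, `denom S I = I`); apply `linearIndependent_vec` and `card_eigen_one`. -/
theorem IsFreeBasis.card_four_dvd (hΓ : Good Γ) {J : Type} [Fintype J] {wt : J → ℤ}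
    {f : J → ℍ → ℂ} (h : IsFreeBasis Γ wt f) :
    Nat.card {j // (4 : ℤ) ∣ wt j} = d0 Γ ModularGroup.S :=
  card_dvd_of_fixed hΓ h ModularGroup.S I S_smul_I 4 (by
    rw [denom_S_I]; exact Complex.isPrimitiveRoot_I)

/-- Same at `ρ = exp(2π i/3)`, fixed by `S * T = !![0,-1;1,1]`, `denom = ρ + 1 = exp(π i/3)`. -/
theorem IsFreeBasis.card_six_dvd (hΓ : Good Γ) {J : Type} [Fintype J] {wt : J → ℤ}
    {f : J → ℍ → ℂ} (h : IsFreeBasis Γ wt f) :
    Nat.card {j // (6 : ℤ) ∣ wt j} = d0 Γ (ModularGroup.S * ModularGroup.T) :=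
  card_dvd_of_fixed hΓ h (ModularGroup.S * ModularGroup.T) ρ ST_smul_rho 6 (by
    rw [denom_ST_rho]; exact isPrimitiveRoot_rho_add_one)

/-- `card_eigen_conj` at `ρ`. -/
theorem IsFreeBasis.card_mod_six (hΓ : Good Γ) {J : Type} [Fintype J] {wt : J → ℤ}
    {f : J → ℍ → ℂ} (h : IsFreeBasis Γ wt f) :
    Nat.card {j // wt j % 6 = 2} = Nat.card {j // wt j % 6 = 4} := by
  have hζ := isPrimitiveRoot_rho_add_one
  have key := card_conj_of_fixed hΓ h (ModularGroup.S * ModularGroup.T) ρ ST_smul_rho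
    (((ρ : ℂ) + 1) ^ (-2 : ℤ))
  rw [denom_ST_rho, conj_zpow_of_primitive (by norm_num) hζ] at key
  have e1 : Nat.card {j // wt j % 6 = 2}
      = Nat.card {j // ((ρ : ℂ) + 1) ^ (-wt j) = ((ρ : ℂ) + 1) ^ (-2 : ℤ)} := by
    refine Nat.card_congr (Equiv.subtypeEquivRight fun j => ?_)
    rw [zpow_eq_zpow_iff_of_primitive (by norm_num) hζ]
    push_cast
    omega
  have e2 : Nat.card {j // wt j % 6 = 4}
      = Nat.card {j // ((ρ : ℂ) + 1) ^ (-wt j) = ((ρ : ℂ) + 1) ^ (-(-2) : ℤ)} := by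
    refine Nat.card_congr (Equiv.subtypeEquivRight fun j => ?_)
    rw [zpow_eq_zpow_iff_of_primitive (by norm_num) hζ]
    push_cast
    omega
  rw [e1, e2, key]

end Fermat.Agent.ES
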