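import Mathlib

/-!
# Task A8a: the pointwise weight inequality (independent leaf).
-/

set_option autoImplicit false

namespace Fermat.Agent.ES

/-- Pointwise inequality, for even `k ≥ 0`:
`12 [k = 2] ≥ 12 - 6 [4 ∣ k] - 6 [6 ∣ k] - k + 2 [k % 6 = 2] - 2 [k % 6 = 4]`. -/
theorem weight_ineq (k : ℤ) (hk : 0 ≤ k) (he : Even k) :
    12 - 6 * (if (4 : ℤ) ∣ k then 1 else 0) - 6 * (if (6 : ℤ) ∣ k then 1 else 0) - k
      + 2 * (if k % 6 = 2 then 1 else 0) - 2 * (if k % 6 = 4 then 1 else 0)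
      ≤ 12 * (if k = 2 then (1 : ℤ) else 0) := by
  obtain ⟨m, rfl⟩ := he
  split_ifs <;> omega

end Fermat.Agent.ES
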