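import Fermat.Agent.ES.Infinity
import Fermat.Agent.ES.Elliptic
import Fermat.Agent.ES.Numerics
import Fermat.Agent.ES.CuspCodim

/-!
# Task A8 + A9: lower bounds for `dim M_2(Γ)` and `dim S_2(Γ)`.
-/

set_option autoImplicit false

namespace Fermat.Agent.ES

open UpperHalfPlane ModularForm Filter Topology
open scoped MatrixGroups Manifold ModularForm

variable {Γ : Subgroup SL(2, ℤ)}

namespace Count

/-- The members of weight `2` of a free basis are linearly independent in `M_2(Γ)`. -/
theorem card_wt_two_le (hΓ : Good Γ) {J : Type} [Fintype J] {wt : J → ℤ}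
    {f : J → ℍ → ℂ} (h : IsFreeBasis Γ wt f) :
    Nat.card {j // wt j = 2} ≤ Module.finrank ℂ (MF Γ 2) := by
  classical
  have hfin : Module.Finite ℂ (MF Γ 2) := (hΓ.sturm 2 (MF Γ 2) (fun f hf => hf)).1
  have hli : LinearIndependent ℂ
      (fun j : {j // wt j = 2} => (⟨f j, (h.mem j).cast j.2⟩ : MF Γ 2)) := by
    rw [Fintype.linearIndependent_iff]
    intro g hg i
    have hg' : ∑ i : {j // wt j = 2}, g i • f i = 0 := by
      have := congrArg (fun F : MF Γ 2 => (F : ℍ → ℂ)) hg
      simpa using this
    let a : J → ℍ → ℂ := fun j => if hj : wt j = 2 then (fun _ => g ⟨j, hj⟩) else 0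
    have ha : ∀ j, IsMF ⊤ (2 - wt j) (a j) := by
      intro j
      by_cases hj : wt j = 2
      · simp only [a, hj, dif_pos]
        exact (IsMF.const _).cast (by omega)
      · simp only [a, hj, dif_neg, not_false_eq_true]
        exact IsMF.zero
    have hsum : ∑ j, a j * f j = 0 := by
      have h1 : ∑ j, a j * f j = ∑ j ∈ Finset.univ.filter (fun j => wt j = 2), a j * f j := by
        rw [Finset.sum_filter]
        refine Finset.sum_congr rfl fun j _ => ?_
        split_ifs with hj
        · rfl
        · simp [a, hj]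
      rw [h1, Finset.sum_subtype (Finset.univ.filter fun j => wt j = 2)
        (p := fun j => wt j = 2) (by simp), ← hg']
      refine Finset.sum_congr rfl fun j _ => ?_
      funext z
      simp [a, j.2]
    have := h.indep 2 a ha hsum i
    have h2 := congrFun this UpperHalfPlane.I
    simpa [a, i.2] using h2
  have := hli.fintype_card_le_finrank
  rwa [Nat.card_eq_fintype_card]

end Count

/-- A8. Sum `weight_ineq` over the basis; the `f j` with `wt j = 2` are linearly independent
in `M_2(Γ)`. -/
theorem finrank_MF_two_ge (hΓ : Good Γ) :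
    (Γ.index : ℤ) + d0 Γ ModularGroup.T
      ≤ 2 * Module.finrank ℂ (MF Γ 2) + d0 Γ ModularGroup.S
        + d0 Γ (ModularGroup.S * ModularGroup.T) := by
  classical
  obtain ⟨n, wt, f, h⟩ := exists_freeBasis hΓ
  have hcard := h.card_eq hΓ
  have hsum := h.sum_wt hΓ
  have h4 := h.card_four_dvd hΓ
  have h6 := h.card_six_dvd hΓ
  have h24 := h.card_mod_six hΓ
  have h2 := Count.card_wt_two_le hΓ h
  have hnn := fun j => h.isIndepFamily.wt_nonneg hΓ j
  have hev := fun j => h.isIndepFamily.wt_even hΓ j
  have key := Finset.sum_le_sum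
    (fun j (_ : j ∈ Finset.univ) => weight_ineq (wt j) (hnn j) (hev j))
  simp only [Finset.sum_sub_distrib, Finset.sum_add_distrib, ← Finset.mul_sum,
    Finset.sum_boole, Finset.sum_const, Finset.card_univ, hsum, hcard] at key
  rw [Nat.card_eq_fintype_card, Fintype.card_subtype] at h4 h6 h2
  rw [Nat.card_eq_fintype_card, Fintype.card_subtype, Nat.card_eq_fintype_card,
    Fintype.card_subtype] at h24
  rw [h4, h6, h24] at key
  simp only [nsmul_eq_mul] at key
  have h2' : ((Finset.univ.filter fun j => wt j = 2).card : ℤ) ≤ Module.finrank ℂ (MF Γ 2) := by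
    exact_mod_cast h2
  linarith

/-- Block (A), final form. -/
theorem finrank_CF_two_ge' (hΓ : Good Γ) :
    (Γ.index : ℤ) + 2 ≤ 2 * Module.finrank ℂ (CF Γ 2) + d0 Γ ModularGroup.S
        + d0 Γ (ModularGroup.S * ModularGroup.T) + d0 Γ ModularGroup.T := by
  have h1 := finrank_MF_two_ge hΓ
  have h2 := finrank_CF_two_ge hΓ
  omega

end Fermat.Agent.ES
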