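import Fermat.Agent.ES.PermLA
import Fermat.Agent.Lib.Gamma0Count.Orbits
import Fermat.Prelude.Def_ModularCurve_GenusNumerics

/-!
# Task D (only for S20): counting on `SL(2,ℤ) ⧸ Γ₀(N) ≃ ℙ¹(ℤ/N)`.
`g Γ₀(N) ↦ first column of g mod N up to units`.
-/

set_option autoImplicit false

namespace Fermat.Agent.ES

open CongruenceSubgroup ModularCurve
open scoped MatrixGroups

variable (N : ℕ) [NeZero N]

theorem index_Gamma0 : (Gamma0 N).index = dedekindPsi N :=
  Fermat.Agent.Lib.Gamma0Count.index_eq N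

theorem d0_eq_card_orbits (g : SL(2, ℤ)) :
    d0 (Gamma0 N) g =
      Nat.card (MulAction.orbitRel.Quotient (Subgroup.zpowers g) (SL(2, ℤ) ⧸ Gamma0 N)) := by
  rw [d0, finrank_permInv]
  exact Fermat.Agent.Lib.Gamma0Count.card_orbits_toPerm g (fun _ _ => rfl)

theorem two_mul_d0_S : 2 * d0 (Gamma0 N) ModularGroup.S = dedekindPsi N + nuTwo N := by
  rw [d0_eq_card_orbits]
  exact Fermat.Agent.Lib.Gamma0Count.two_mul_card_orbits_S N

theorem three_mul_d0_ST :
    3 * d0 (Gamma0 N) (ModularGroup.S * ModularGroup.T) = dedekindPsi N + 2 * nuThree N := by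
  rw [d0_eq_card_orbits]
  exact Fermat.Agent.Lib.Gamma0Count.three_mul_card_orbits_ST N

theorem d0_T : d0 (Gamma0 N) ModularGroup.T = cuspCount N := by
  rw [d0_eq_card_orbits]
  exact Fermat.Agent.Lib.Gamma0Count.card_orbits_T N

end Fermat.Agent.ES
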