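import Mathlib

/-!
# Eichler-Shimura / dimension project (S20, S21): basic definitions

Everything is phrased with plain functions `ℍ → ℂ` and predicates, to avoid casts between
the dependent types `ModularForm Γ k`.
-/

set_option autoImplicit false

namespace Fermat.Agent.ES

open UpperHalfPlane ModularForm
open scoped MatrixGroups Manifold ModularForm

/-- Concrete predicate: `f` is a modular form of weight `k` for `Γ ≤ SL(2,ℤ)`. -/
def IsMF (Γ : Subgroup SL(2, ℤ)) (k : ℤ) (f : ℍ → ℂ) : Prop :=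
  MDiff f ∧ (∀ γ ∈ Γ, f ∣[k] γ = f) ∧ ∀ γ : SL(2, ℤ), IsBoundedAtImInfty (f ∣[k] γ)

/-- Concrete predicate: `f` is a cusp form of weight `k` for `Γ ≤ SL(2,ℤ)`. -/
def IsCF (Γ : Subgroup SL(2, ℤ)) (k : ℤ) (f : ℍ → ℂ) : Prop :=
  MDiff f ∧ (∀ γ ∈ Γ, f ∣[k] γ = f) ∧ ∀ γ : SL(2, ℤ), IsZeroAtImInfty (f ∣[k] γ)

/-- The conjugate `f ∣[k] g⁻¹` attached to a left coset `q = gΓ` (via a chosen representative). -/
noncomputable def tr {Γ : Subgroup SL(2, ℤ)} (k : ℤ) (f : ℍ → ℂ) (q : SL(2, ℤ) ⧸ Γ) : ℍ → ℂ :=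
  f ∣[k] (q.out⁻¹ : SL(2, ℤ))

noncomputable instance instFintypeQuot (Γ : Subgroup SL(2, ℤ)) [Γ.FiniteIndex] :
    Fintype (SL(2, ℤ) ⧸ Γ) :=
  Subgroup.fintypeQuotientOfFiniteIndex

/-- Functions on `X` invariant under a permutation. -/
def permInv {X : Type*} (σ : Equiv.Perm X) : Submodule ℂ (X → ℂ) where
  carrier := {v | ∀ x, v (σ x) = v x}
  zero_mem' := fun _ => rfl
  add_mem' := by
    intro a b ha hb x
    simp only [Pi.add_apply, ha x, hb x]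
  smul_mem' := by
    intro c a ha x
    simp only [Pi.smul_apply, ha x]

theorem mem_permInv {X : Type*} {σ : Equiv.Perm X} {v : X → ℂ} :
    v ∈ permInv σ ↔ ∀ x, v (σ x) = v x := Iff.rfl

/-- `d0 Γ g` = dimension of the space of functions on `SL(2,ℤ) ⧸ Γ` invariant under `g`
(= number of orbits of `g`). -/
noncomputable def d0 (Γ : Subgroup SL(2, ℤ)) (g : SL(2, ℤ)) : ℕ :=
  Module.finrank ℂ (permInv (MulAction.toPerm g : Equiv.Perm (SL(2, ℤ) ⧸ Γ)))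

/-- A finite homogeneous family which is a free basis of `⨁ₖ M_k(Γ)` over `⨁ₖ M_k(SL(2,ℤ))`. -/
structure IsFreeBasis (Γ : Subgroup SL(2, ℤ)) {J : Type} [Fintype J] (wt : J → ℤ)
    (f : J → ℍ → ℂ) : Prop where
  mem : ∀ j, IsMF Γ (wt j) (f j)
  span : ∀ (k : ℤ) (g : ℍ → ℂ), IsMF Γ k g →
    ∃ a : J → ℍ → ℂ, (∀ j, IsMF ⊤ (k - wt j) (a j)) ∧ g = ∑ j, a j * f j
  indep : ∀ (k : ℤ) (a : J → ℍ → ℂ), (∀ j, IsMF ⊤ (k - wt j) (a j)) →
    ∑ j, a j * f j = 0 → ∀ j, a j = 0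

/-- The vector of values at `z` of all conjugates of the `j`-th basis element. -/
noncomputable def vec {Γ : Subgroup SL(2, ℤ)} {J : Type} (wt : J → ℤ) (f : J → ℍ → ℂ) (z : ℍ)
    (j : J) : (SL(2, ℤ) ⧸ Γ) → ℂ :=
  fun x => tr (wt j) (f j) x z

/-- Hypothesis package on `Γ` used by block (A). It holds for `Γ₀(N)`. -/
structure Good (Γ : Subgroup SL(2, ℤ)) : Prop where
  finiteIndex : Γ.FiniteIndex
  neg_one_mem : -1 ∈ Γ
  sep : ∃ (t : ℍ → ℂ) (k₀ : ℤ), IsMF Γ k₀ t ∧ ∀ γ : SL(2, ℤ), t ∣[k₀] γ = t → γ ∈ Γ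
  sturm : ∀ (k : ℕ) (s : Submodule ℂ (ℍ → ℂ)), (∀ f ∈ s, IsMF Γ k f) →
    Module.Finite ℂ s ∧ Module.finrank ℂ s ≤ k * Γ.index / 12 + 1

end Fermat.Agent.ES
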