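import Fermat.Agent.ES.Defs

/-!
# Task J: Jacobi's formula for the derivative of a determinant (independent leaf).
-/

set_option autoImplicit false

namespace Fermat.Agent.ES

open UpperHalfPlane Derivative
open scoped Manifold

/-- Jacobi's formula (column version) for functions of one complex variable. -/
theorem hasDerivAt_det {n : Type} [Fintype n] [DecidableEq n] (A : n → n → ℂ → ℂ)
    (A' : n → n → ℂ) (x : ℂ) (hA : ∀ i j, HasDerivAt (A i j) (A' i j) x) :
    HasDerivAt (fun w => Matrix.det (Matrix.of fun i j => A i j w))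
      (∑ j₀, Matrix.det (Matrix.of fun i j => if j = j₀ then A' i j else A i j x)) x := by
  simp only [Matrix.det_apply', Matrix.of_apply]
  have h1 : ∀ σ : Equiv.Perm n, HasDerivAt (fun w => ∏ i, A (σ i) i w)
      (∑ i, (∏ j ∈ Finset.univ.erase i, A (σ j) j x) • A' (σ i) i) x :=
    fun σ => HasDerivAt.fun_finsetProd (fun i _ => hA (σ i) i)
  have h2 := HasDerivAt.fun_sum (u := Finset.univ)
    (fun σ _ => (h1 σ).const_mul (((Equiv.Perm.sign σ : ℤˣ) : ℤ) : ℂ))
  refine h2.congr_deriv ?_
  symm
  rw [Finset.sum_comm]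
  refine Finset.sum_congr rfl fun σ _ => ?_
  rw [Finset.mul_sum]
  refine Finset.sum_congr rfl fun j₀ _ => ?_
  congr 1
  rw [← Finset.mul_prod_erase _ _ (Finset.mem_univ j₀)]
  simp only [if_true, smul_eq_mul]
  rw [mul_comm]; congr 1
  refine Finset.prod_congr rfl fun j hj => ?_
  simp [Finset.ne_of_mem_erase hj]

/-- Jacobi's formula, column version, for the normalised derivative. -/
theorem D_det {n : Type} [Fintype n] [DecidableEq n] (M : n → n → ℍ → ℂ)
    (hM : ∀ i j, MDiff (M i j)) :
    normalizedDerivOfComplex (fun z => Matrix.det (Matrix.of fun i j => M i j z))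
      = fun z => ∑ j₀, Matrix.det (Matrix.of fun i j =>
          if j = j₀ then normalizedDerivOfComplex (M i j) z else M i j z) := by
  funext z
  have h := hasDerivAt_det (fun i j => M i j ∘ ofComplex)
    (fun i j => deriv (M i j ∘ ofComplex) z) z
    (fun i j => (UpperHalfPlane.mdifferentiableAt_iff.mp (hM i j z)).hasDerivAt)
  unfold normalizedDerivOfComplex
  have h2 : ((fun z => Matrix.det (Matrix.of fun i j => M i j z)) ∘ ofComplex)
      = fun w => Matrix.det (Matrix.of fun i j => (M i j ∘ ofComplex) w) := rfl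
  rw [h2, h.deriv, Finset.mul_sum]
  refine Finset.sum_congr rfl fun j₀ _ => ?_
  have h3 : (Matrix.of fun i j => if j = j₀ then
        (2 * (Real.pi : ℂ) * Complex.I)⁻¹ * deriv (M i j ∘ ofComplex) z else M i j z)
      = Matrix.updateCol (Matrix.of fun i j => if j = j₀ then deriv (M i j ∘ ofComplex) z
          else (M i j ∘ ofComplex) z) j₀
        ((2 * (Real.pi : ℂ) * Complex.I)⁻¹ • fun i => deriv (M i j₀ ∘ ofComplex) z) := by
    ext i j
    by_cases hj : j = j₀
    · subst hj; simp
    · simp [hj]
  rw [h3, Matrix.det_updateCol_smul]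
  congr 2
  ext i j
  by_cases hj : j = j₀
  · subst hj; simp
  · simp [hj]

end Fermat.Agent.ES
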