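import Fermat.Agent.ES.LevelOne

/-!
# Task A5a: the Serre derivative preserves modular forms; `D Δ = E₂ Δ`.
-/

set_option autoImplicit false

namespace Fermat.Agent.ES

open UpperHalfPlane ModularForm Filter Topology Derivative
open scoped MatrixGroups Manifold ModularForm

variable {Γ : Subgroup SL(2, ℤ)} {k : ℤ} {f : ℍ → ℂ}

/-- Cauchy estimate: the derivative of a holomorphic function bounded at `i∞` is bounded
at `i∞`. -/
theorem isBoundedAtImInfty_D (hf : MDiff f) (hb : IsBoundedAtImInfty f) :
    IsBoundedAtImInfty (normalizedDerivOfComplex f) := by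
  rw [UpperHalfPlane.isBoundedAtImInfty_iff] at hb ⊢
  obtain ⟨M, A, hM⟩ := hb
  rw [UpperHalfPlane.mdifferentiable_iff] at hf
  refine ⟨‖(2 * Real.pi * Complex.I : ℂ)⁻¹‖ * (M / 1), max A 0 + 2, fun z hz => ?_⟩
  have hsub : Metric.closedBall (z : ℂ) 1 ⊆ {w : ℂ | max A 0 + 1 ≤ w.im} := by
    intro w hw
    have h1 : |(w - z).im| ≤ ‖w - z‖ := Complex.abs_im_le_norm _
    have h2 : ‖w - z‖ ≤ 1 := by simpa [dist_eq_norm] using hw
    have h3 := abs_le.mp (h1.trans h2)
    have h4 : (w - z).im = w.im - z.im := by simp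
    simp only [Set.mem_ofPred_eq]
    rw [h4] at h3
    linarith [h3.1]
  have hsub' : Metric.closedBall (z : ℂ) 1 ⊆ upperHalfPlaneSet := by
    intro w hw
    have := hsub hw
    simp only [Set.mem_ofPred_eq] at this
    have h0 : (0 : ℝ) ≤ max A 0 := le_max_right _ _
    show 0 < w.im
    linarith
  have hd : DiffContOnCl ℂ (f ∘ ofComplex) (Metric.ball (z : ℂ) 1) := by
    apply DifferentiableOn.diffContOnCl
    rw [closure_ball _ one_ne_zero]
    exact hf.mono hsub'
  have hC : ∀ w ∈ Metric.sphere (z : ℂ) 1, ‖(f ∘ ofComplex) w‖ ≤ M := by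
    intro w hw
    have hw' := Metric.sphere_subset_closedBall hw
    have him : 0 < w.im := hsub' hw'
    have h1 := hsub hw'
    simp only [Set.mem_ofPred_eq] at h1
    rw [Function.comp_apply, ofComplex_apply_of_im_pos him]
    apply hM
    have : A ≤ max A 0 := le_max_left _ _
    show A ≤ w.im
    linarith
  have := Complex.norm_deriv_le_of_forall_mem_sphere_norm_le one_pos hd hC
  unfold normalizedDerivOfComplex
  rw [norm_mul]
  exact mul_le_mul_of_nonneg_left this (norm_nonneg _)

/-- The Serre derivative of a holomorphic function bounded at `i∞` is bounded at `i∞`. -/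
theorem isBoundedAtImInfty_serre (c : ℂ) (hf : MDiff f) (hb : IsBoundedAtImInfty f) :
    IsBoundedAtImInfty (serreDerivative c f) := by
  have h1 := isBoundedAtImInfty_D hf hb
  have h2 : IsBoundedAtImInfty (fun z => c * 12⁻¹ * EisensteinSeries.E2 z * f z) := by
    have h3 : IsBoundedAtImInfty ((fun _ : ℍ => c * 12⁻¹) * EisensteinSeries.E2 * f) :=
      ((Filter.const_boundedAtFilter _ (c * 12⁻¹)).mul
        EisensteinSeries.isBoundedAtImInfty_E2).mul hb
    exact h3
  exact h1.sub h2

/-- Uses `serreDerivative_slash_equivariant`, `serreDerivative_mdifferentiable`,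
`EisensteinSeries.isBoundedAtImInfty_E2`. -/
theorem IsMF.serre (hf : IsMF Γ k f) : IsMF Γ (k + 2) (serreDerivative k f) := by
  refine ⟨serreDerivative_mdifferentiable _ hf.1,
    fun γ hγ => serreDerivative_slash_invariant hf.1 (hf.slash_eq hγ), fun γ => ?_⟩
  rw [serreDerivative_slash_equivariant hf.1]
  refine isBoundedAtImInfty_serre _ ?_ (hf.bdd γ)
  rw [SL_slash]
  exact hf.1.slash k _

theorem tr_serre (hf : IsMF Γ k f) (q : SL(2, ℤ) ⧸ Γ) :
    tr (k + 2) (serreDerivative k f) q = serreDerivative k (tr k f q) :=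
  serreDerivative_slash_equivariant hf.1

/-- From `logDeriv_eta_eq_E2` and `Δ = η^24`. -/
theorem D_discriminant :
    normalizedDerivOfComplex ModularForm.discriminant
      = EisensteinSeries.E2 * ModularForm.discriminant := by
  funext z
  have hη : DifferentiableAt ℂ ModularForm.eta (z : ℂ) :=
    ModularForm.differentiableAt_eta_of_mem_upperHalfPlaneSet z.2
  have hne : ModularForm.eta (z : ℂ) ≠ 0 := ModularForm.eta_ne_zero z.2
  have hlog := ModularForm.logDeriv_eta_eq_E2 z
  rw [logDeriv_apply, div_eq_iff hne] at hlog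
  have hev : (ModularForm.discriminant ∘ ofComplex) =ᶠ[𝓝 (z : ℂ)]
      fun w => (ModularForm.eta w) ^ 24 := by
    filter_upwards [isOpen_upperHalfPlaneSet.mem_nhds z.2] with w hw
    simp [ModularForm.discriminant, ofComplex_apply_of_im_pos hw]
  have hder : deriv (ModularForm.discriminant ∘ ofComplex) (z : ℂ)
      = 24 * ModularForm.eta (z : ℂ) ^ 23 * deriv ModularForm.eta (z : ℂ) := by
    rw [hev.deriv_eq]
    have := (hη.hasDerivAt.pow 24).deriv
    rw [show (fun w => ModularForm.eta w ^ 24) = ModularForm.eta ^ 24 from rfl, this]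
    norm_num
  have hpi : (2 * (Real.pi : ℂ) * Complex.I) ≠ 0 := by
    simp [Real.pi_ne_zero]
  simp only [normalizedDerivOfComplex, Pi.mul_apply, ModularForm.discriminant]
  rw [hder, hlog]
  field_simp
  ring

/-- A holomorphic function on `ℍ` with `D φ = 0` is constant. -/
theorem eq_const_of_D_eq_zero {φ : ℍ → ℂ} (hφ : MDiff φ) (h : normalizedDerivOfComplex φ = 0) :
    ∃ c : ℂ, φ = fun _ => c := by
  rw [UpperHalfPlane.mdifferentiable_iff] at hφ
  have hpi : (2 * (Real.pi : ℂ) * Complex.I) ≠ 0 := by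
    simp [Real.pi_ne_zero]
  have hconv : Convex ℝ upperHalfPlaneSet := by
    have : upperHalfPlaneSet = {w : ℂ | 0 < w.im} := rfl
    rw [this]
    exact convex_halfSpace_im_gt 0
  have hd : upperHalfPlaneSet.EqOn (deriv (φ ∘ ofComplex)) 0 := by
    intro w hw
    have := congrFun h ⟨w, hw⟩
    simp only [normalizedDerivOfComplex, Pi.zero_apply] at this
    rcases mul_eq_zero.mp this with h1 | h1
    · exact absurd (inv_eq_zero.mp h1) hpi
    · exact h1
  obtain ⟨a, ha⟩ := isOpen_upperHalfPlaneSet.exists_is_const_of_deriv_eq_zero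
    hconv.isPreconnected hφ hd
  refine ⟨a, funext fun z => ?_⟩
  have := ha (z : ℂ) z.2
  simpa using this

end Fermat.Agent.ES
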