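import Fermat.Agent.ES.Rank
import Fermat.Agent.ES.Serre
import Fermat.Agent.ES.Jacobi

/-!
# Task A5b: the determinant of the matrix of conjugates of a free basis.
-/

set_option autoImplicit false

namespace Fermat.Agent.ES

open UpperHalfPlane ModularForm Filter Topology Derivative
open scoped MatrixGroups Manifold ModularForm

variable {Γ : Subgroup SL(2, ℤ)}

/-- The determinant of a matrix of holomorphic functions is holomorphic. -/
theorem mdiff_det_of_entries {n : Type} [Fintype n] [DecidableEq n] (M : n → n → ℍ → ℂ)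
    (hM : ∀ i j, MDiff (M i j)) :
    MDiff (fun z => Matrix.det (Matrix.of fun i j => M i j z)) := by
  have h : (fun z => Matrix.det (Matrix.of fun i j => M i j z))
      = ∑ σ : Equiv.Perm n, (fun _ : ℍ => (((Equiv.Perm.sign σ : ℤˣ) : ℤ) : ℂ)) * ∏ i, M (σ i) i := by
    funext z
    simp [Matrix.det_apply']
  rw [h]
  exact MDifferentiable.sum fun σ _ =>
    mdifferentiable_const.mul (MDifferentiable.prod fun i _ => hM (σ i) i)

/-- The matrix of conjugates, made square through a bijection `e`. -/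
noncomputable def Fmat {J : Type} (wt : J → ℤ) (f : J → ℍ → ℂ) (e : J ≃ SL(2, ℤ) ⧸ Γ) (z : ℍ) :
    Matrix J J ℂ :=
  Matrix.of fun i j => tr (wt j) (f j) (e i) z

/-- Two solutions of the same first order linear ODE `D G = E G`, one of them nowhere zero,
are proportional. -/
theorem eq_const_mul_of_D {G H E : ℍ → ℂ} (hG : MDiff G) (hH : MDiff H) (hH0 : ∀ z, H z ≠ 0)
    (hDG : ∀ z, normalizedDerivOfComplex G z = E z * G z)
    (hDH : ∀ z, normalizedDerivOfComplex H z = E z * H z) : ∃ c : ℂ, ∀ z, G z = c * H z := by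
  have hφ : MDiff (G / H) := hG.div hH hH0
  have hmul : (G / H) * H = G := by
    funext z
    simp only [Pi.mul_apply, Pi.div_apply]
    exact div_mul_cancel₀ _ (hH0 z)
  have hD : normalizedDerivOfComplex (G / H) = 0 := by
    funext z
    have h1 := congrFun (normalizedDerivOfComplex_mul (G / H) H hφ hH) z
    rw [hmul] at h1
    simp only [Pi.add_apply, Pi.mul_apply, Pi.div_apply, hDG, hDH] at h1
    have h2 : normalizedDerivOfComplex (G / H) z * H z = 0 := by
      have h3 : G z / H z * (E z * H z) = E z * G z := by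
        field_simp [hH0 z]
      linear_combination -h1 - h3
    simpa [hH0 z] using h2
  obtain ⟨c, hc⟩ := eq_const_of_D_eq_zero hφ hD
  refine ⟨c, fun z => ?_⟩
  have h1 := congrFun hc z
  simp only [Pi.div_apply] at h1
  rw [← h1, div_mul_cancel₀ _ (hH0 z)]

/-- The first order system satisfied by the conjugates of a free basis. -/
theorem IsFreeBasis.exists_serre_coeff {J : Type} [Fintype J] {wt : J → ℤ}
    {f : J → ℍ → ℂ} (h : IsFreeBasis Γ wt f) (j : J) :
    ∃ a : J → ℍ → ℂ, a j = 0 ∧ ∀ (q : SL(2, ℤ) ⧸ Γ) (z : ℍ),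
      normalizedDerivOfComplex (tr (wt j) (f j) q) z =
        (wt j : ℂ) * 12⁻¹ * EisensteinSeries.E2 z * tr (wt j) (f j) q z
          + ∑ l, a l z * tr (wt l) (f l) q z := by
  obtain ⟨a, ha, hsum⟩ := h.span (wt j + 2) _ (h.mem j).serre
  refine ⟨a, levelOne_weight_two ((ha j).cast (by ring)), fun q z => ?_⟩
  have h1 := tr_serre (h.mem j) q
  rw [hsum, tr_sum] at h1
  have h2 : ∀ l, tr (wt j + 2) (a l * f l) q = a l * tr (wt l) (f l) q := by
    intro l
    have h3 := tr_mul (k₁ := wt j + 2 - wt l) (k₂ := wt l) (f := a l) (g := f l) q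
    rw [tr_levelOne (ha l)] at h3
    rw [← h3]
    congr 1
    ring
  simp only [h2] at h1
  have h3 := congrFun h1 z
  simp only [Finset.sum_apply, Pi.mul_apply, serreDerivative_apply] at h3
  linear_combination -h3

/-- `D det F = (K / 12) E₂ det F`. -/
theorem IsFreeBasis.D_det_Fmat {J : Type} [Fintype J] [DecidableEq J] {wt : J → ℤ}
    {f : J → ℍ → ℂ} (h : IsFreeBasis Γ wt f) (e : J ≃ SL(2, ℤ) ⧸ Γ) (z : ℍ) :
    normalizedDerivOfComplex (fun z => (Fmat wt f e z).det) z
      = ((∑ j, wt j : ℤ) : ℂ) * 12⁻¹ * EisensteinSeries.E2 z * (Fmat wt f e z).det := by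
  have h1 := congrFun (D_det (fun i j => tr (wt j) (f j) (e i))
    (fun i j => (h.mem j).tr_mdiff _)) z
  have h0 : (fun z => (Fmat wt f e z).det)
      = fun z => Matrix.det (Matrix.of fun i j => tr (wt j) (f j) (e i) z) := rfl
  rw [h0, h1]
  choose a ha0 ha using fun j => h.exists_serre_coeff j
  have h2 : ∀ j₀, Matrix.det (Matrix.of fun i j =>
        if j = j₀ then normalizedDerivOfComplex (tr (wt j) (f j) (e i)) z
          else tr (wt j) (f j) (e i) z)
      = (wt j₀ : ℂ) * 12⁻¹ * EisensteinSeries.E2 z * (Fmat wt f e z).det := by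
    intro j₀
    have h3 := Matrix.det_updateCol_sum (Fmat wt f e z) j₀
      (fun l => a j₀ l z + if l = j₀ then (wt j₀ : ℂ) * 12⁻¹ * EisensteinSeries.E2 z else 0)
    simp only [ha0, Pi.zero_apply, if_true, zero_add, smul_eq_mul] at h3
    rw [← h3]
    congr 1
    ext i j
    by_cases hj : j = j₀
    · subst hj
      simp only [Matrix.of_apply, if_true, Matrix.updateCol_self, ha, Fmat, add_mul,
        Finset.sum_add_distrib, ite_mul, zero_mul, Finset.sum_ite_eq', Finset.mem_univ]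
      ring
    · simp [hj, Fmat]
  simp only [h2]
  rw [← Finset.sum_mul, ← Finset.sum_mul, ← Finset.sum_mul]
  push_cast
  rfl

/-- Spanning columns give a nonzero determinant. -/
theorem det_Fmat_ne_zero_of_span {J : Type} [Fintype J] [DecidableEq J] {wt : J → ℤ}
    {f : J → ℍ → ℂ} (e : J ≃ SL(2, ℤ) ⧸ Γ) {z : ℍ}
    (hz : Submodule.span ℂ (Set.range (vec (Γ := Γ) wt f z)) = ⊤) :
    (Fmat wt f e z).det ≠ 0 := by
  intro hdet
  obtain ⟨v, hv0, hv⟩ := Matrix.exists_vecMul_eq_zero_iff.mpr hdet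
  let φ : ((SL(2, ℤ) ⧸ Γ) → ℂ) →ₗ[ℂ] ℂ :=
    ∑ i, v i • (LinearMap.proj (e i) : ((SL(2, ℤ) ⧸ Γ) → ℂ) →ₗ[ℂ] ℂ)
  have hφ : ∀ w, φ w = ∑ i, v i * w (e i) := by
    intro w
    simp [φ, LinearMap.sum_apply]
  have h1 : ∀ w ∈ Submodule.span ℂ (Set.range (vec (Γ := Γ) wt f z)), φ w = 0 := by
    intro w hw
    induction hw using Submodule.span_induction with
    | mem x hx =>
      obtain ⟨j, rfl⟩ := hx
      have := congrFun hv j
      rw [hφ]
      simpa [Matrix.vecMul, dotProduct, Fmat, vec] using this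
    | zero => simp
    | add x y _ _ hx hy => rw [map_add, hx, hy, add_zero]
    | smul c x _ hx => rw [map_smul, hx, smul_zero]
  apply hv0
  funext i
  classical
  have h2 := h1 (Pi.single (e i) 1) (by rw [hz]; trivial)
  rw [hφ] at h2
  simpa [Pi.single_apply, e.injective.eq_iff] using h2

/-- Main statement. With `ϑ f_j = ∑_l a_{l j} f_l`, `a_{j j} ∈ M_2(SL(2,ℤ)) = 0`:
`D det F = (K/12) E₂ det F`, `K = ∑ wt`, hence `(det F)^12 = c Δ^K`; `c ≠ 0` by
`IsFreeBasis.span_vec_eq_top`. -/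
theorem IsFreeBasis.det_pow_eq (hΓ : Good Γ) {J : Type} [Fintype J] [DecidableEq J] {wt : J → ℤ}
    {f : J → ℍ → ℂ} (h : IsFreeBasis Γ wt f) (e : J ≃ SL(2, ℤ) ⧸ Γ) :
    ∃ c : ℂ, c ≠ 0 ∧ ∀ z : ℍ,
      (Fmat wt f e z).det ^ 12 = c * ModularForm.discriminant z ^ (∑ j, wt j) := by
  obtain ⟨n, hn⟩ : ∃ n : ℕ, ∑ j, wt j = n :=
    Int.eq_ofNat_of_zero_le (Finset.sum_nonneg fun j _ => h.isIndepFamily.wt_nonneg hΓ j)
  have hdet : MDiff (fun z => (Fmat wt f e z).det) :=
    mdiff_det_of_entries (fun i j => tr (wt j) (f j) (e i)) (fun i j => (h.mem j).tr_mdiff _)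
  have hΔ : MDiff ModularForm.discriminant := isCF_discriminant.mdiff
  obtain ⟨c, hc⟩ := eq_const_mul_of_D (G := (fun z => (Fmat wt f e z).det) ^ 12)
    (H := ModularForm.discriminant ^ n) (E := fun z => (n : ℂ) * EisensteinSeries.E2 z)
    (hdet.pow 12) (hΔ.pow n) (fun z => pow_ne_zero _ (discriminant_ne_zero z))
    (fun z => by
      rw [normalizedDerivOfComplex_pow _ _ hdet]
      simp only [Pi.mul_apply, Pi.pow_apply, h.D_det_Fmat e z, hn]
      simp only [Pi.natCast_apply]
      push_cast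
      ring)
    (fun z => by
      rw [normalizedDerivOfComplex_pow _ _ hΔ, D_discriminant]
      simp only [Pi.mul_apply, Pi.pow_apply, Pi.natCast_apply]
      rcases n with _ | n
      · simp
      · simp only [Nat.add_sub_cancel]
        ring)
  simp only [Pi.pow_apply] at hc
  refine ⟨c, ?_, fun z => by rw [hn, zpow_natCast]; exact hc z⟩
  rintro rfl
  obtain ⟨z, hz⟩ := h.span_vec_eq_top hΓ
  have := hc z
  rw [zero_mul] at this
  exact det_Fmat_ne_zero_of_span e hz (pow_eq_zero_iff (by norm_num) |>.mp this)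

/-- Consequence: the vectors of conjugates form a basis of `X → ℂ` at EVERY point. -/
theorem IsFreeBasis.linearIndependent_vec (hΓ : Good Γ) {J : Type} [Fintype J] {wt : J → ℤ}
    {f : J → ℍ → ℂ} (h : IsFreeBasis Γ wt f) (z : ℍ) :
    LinearIndependent ℂ (vec (Γ := Γ) wt f z) := by
  classical
  have := hΓ.finiteIndex
  have hcard : Fintype.card J = Fintype.card (SL(2, ℤ) ⧸ Γ) := by
    rw [h.card_eq hΓ, Subgroup.index, Nat.card_eq_fintype_card]
  let e : J ≃ SL(2, ℤ) ⧸ Γ := Fintype.equivOfCardEq hcard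
  obtain ⟨c, hc0, hc⟩ := h.det_pow_eq hΓ e
  have hdet : (Fmat wt f e z).det ≠ 0 := by
    intro h0
    have h1 := hc z
    rw [h0, zero_pow (by norm_num)] at h1
    exact mul_ne_zero hc0 (zpow_ne_zero _ (discriminant_ne_zero z)) h1.symm
  have hli := Matrix.linearIndependent_cols_of_det_ne_zero hdet
  exact LinearIndependent.of_comp (LinearMap.funLeft ℂ ℂ e) hli

end Fermat.Agent.ES
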