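import Mathlib

set_option autoImplicit false

open UpperHalfPlane ModularForm ModularGroup
open scoped MatrixGroups

namespace Fermat.Agent.ES

section Abstract

variable {J X : Type*} [Fintype J] [Fintype X] [DecidableEq J] [DecidableEq X]

/-- If the rows of an invertible matrix are eigenvectors of a permutation operator, the sum of the
eigenvalues is the number of fixed points. -/
theorem sum_eigenvalue_eq_card_fixed (A : Matrix J X ℂ) (B : Matrix X J ℂ)
    (hAB : A * B = 1) (hBA : B * A = 1) (π : Equiv.Perm X) (lam : J → ℂ)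
    (h : ∀ j x, A j (π x) = lam j * A j x) :
    ∑ j, lam j = (Fintype.card {x // π x = x} : ℂ) := by
  classical
  let P : Matrix X X ℂ := Matrix.of fun y x => if y = π x then 1 else 0
  have hPa : ∀ y x, P y x = if y = π x then 1 else 0 := fun _ _ => rfl
  have hAP : A * P = Matrix.diagonal lam * A := by
    ext j x
    rw [Matrix.mul_apply, Matrix.diagonal_mul]
    simp only [hPa, mul_ite, mul_one, mul_zero, Finset.sum_ite_eq', Finset.mem_univ, if_true]
    exact h j x
  have hP : P = B * (Matrix.diagonal lam * A) := by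
    rw [← hAP, ← Matrix.mul_assoc, hBA, Matrix.one_mul]
  have htr : P.trace = ∑ j, lam j := by
    rw [hP, Matrix.trace_mul_comm, Matrix.mul_assoc, hAB, Matrix.mul_one, Matrix.trace_diagonal]
  rw [← htr, Matrix.trace]
  simp only [Matrix.diag_apply, hPa]
  rw [Finset.sum_boole, Fintype.card_subtype]
  congr 2
  ext x
  simp [eq_comm]

end Abstract

section Points

theorem S_smul_I : (S : SL(2, ℤ)) • (I : ℍ) = I := by
  rw [ModularGroup.stabilizer_I]; simp

theorem ST_smul_rho : (S * T : SL(2, ℤ)) • (ρ : ℍ) = ρ := by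
  rw [ModularGroup.stabilizer_ρ]; simp

theorem denom_S_I : denom (S : SL(2, ℤ)) (I : ℍ) = Complex.I := by
  rw [ModularGroup.denom_S]; rfl

theorem denom_ST_rho : denom (S * T : SL(2, ℤ)) (ρ : ℍ) = (ρ : ℂ) + 1 := by
  rw [ModularGroup.denom_apply]
  simp [ModularGroup.coe_S, ModularGroup.coe_T, Matrix.SpecialLinearGroup.coe_mul]

theorem I_zpow_neg_of_four_dvd {k : ℤ} (h : 4 ∣ k) : Complex.I ^ (-k) = 1 := by
  obtain ⟨m, rfl⟩ := h
  rw [zpow_neg, zpow_mul, show (4 : ℤ) = ((4 : ℕ) : ℤ) by norm_num, zpow_natCast,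
    Complex.I_pow_four]
  simp

theorem I_zpow_neg_of_not_four_dvd {k : ℤ} (h2 : Even k) (h : ¬ 4 ∣ k) :
    Complex.I ^ (-k) = -1 := by
  obtain ⟨m, hm⟩ : ∃ m, k = 4 * m + 2 := ⟨k / 4, by obtain ⟨r, rfl⟩ := h2; omega⟩
  subst hm
  rw [zpow_neg, zpow_add₀ Complex.I_ne_zero, zpow_mul,
    show (4 : ℤ) = ((4 : ℕ) : ℤ) by norm_num, zpow_natCast, Complex.I_pow_four,
    show (2 : ℤ) = ((2 : ℕ) : ℤ) by norm_num, zpow_natCast, Complex.I_sq]
  simp

theorem rho_add_one_sq : ((ρ : ℂ) + 1) ^ 2 = ρ := by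
  have := ρ_sq
  linear_combination this

theorem rho_cube : (ρ : ℂ) ^ 3 = 1 := by
  have := ρ_sq
  linear_combination ((ρ : ℂ) - 1) * this

theorem rho_add_one_pow_six : ((ρ : ℂ) + 1) ^ 6 = 1 := by
  calc ((ρ : ℂ) + 1) ^ 6 = (((ρ : ℂ) + 1) ^ 2) ^ 3 := by ring
    _ = 1 := by rw [rho_add_one_sq, rho_cube]

theorem rho_add_one_ne_zero : (ρ : ℂ) + 1 ≠ 0 := by
  intro h
  have := rho_add_one_pow_six
  rw [h] at this
  norm_num at this

theorem rho_zpow_neg_zero {k : ℤ} (h : k % 6 = 0) : ((ρ : ℂ) + 1) ^ (-k) = 1 := by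
  obtain ⟨m, rfl⟩ : ∃ m, k = 6 * m := ⟨k / 6, by omega⟩
  rw [zpow_neg, zpow_mul, show (6 : ℤ) = ((6 : ℕ) : ℤ) by norm_num, zpow_natCast,
    rho_add_one_pow_six]
  simp

theorem rho_zpow_neg_two {k : ℤ} (h : k % 6 = 2) : ((ρ : ℂ) + 1) ^ (-k) = (ρ : ℂ) ^ 2 := by
  obtain ⟨m, rfl⟩ : ∃ m, k = 6 * m + 2 := ⟨k / 6, by omega⟩
  rw [zpow_neg, zpow_add₀ rho_add_one_ne_zero, zpow_mul,
    show (6 : ℤ) = ((6 : ℕ) : ℤ) by norm_num, zpow_natCast, rho_add_one_pow_six,
    show (2 : ℤ) = ((2 : ℕ) : ℤ) by norm_num, zpow_natCast, rho_add_one_sq, one_zpow, one_mul]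
  refine inv_eq_of_mul_eq_one_right ?_
  linear_combination rho_cube

theorem rho_zpow_neg_four {k : ℤ} (h : k % 6 = 4) : ((ρ : ℂ) + 1) ^ (-k) = (ρ : ℂ) := by
  obtain ⟨m, rfl⟩ : ∃ m, k = 6 * m + 4 := ⟨k / 6, by omega⟩
  rw [zpow_neg, zpow_add₀ rho_add_one_ne_zero, zpow_mul,
    show (6 : ℤ) = ((6 : ℕ) : ℤ) by norm_num, zpow_natCast, rho_add_one_pow_six,
    show (4 : ℤ) = ((4 : ℕ) : ℤ) by norm_num, zpow_natCast, one_zpow, one_mul,
    show ((ρ : ℂ) + 1) ^ 4 = (((ρ : ℂ) + 1) ^ 2) ^ 2 by ring, rho_add_one_sq]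
  refine inv_eq_of_mul_eq_one_right ?_
  linear_combination rho_cube

end Points

section Main

variable {J X : Type*} [Fintype J] [Fintype X] [DecidableEq J] [DecidableEq X]

theorem card_eq_of_two_sided_inverse (A : Matrix J X ℂ) (B : Matrix X J ℂ)
    (hAB : A * B = 1) (hBA : B * A = 1) : Fintype.card J = Fintype.card X := by
  have h1 : (A * B).trace = (Fintype.card J : ℂ) := by rw [hAB, Matrix.trace_one]
  have h2 : (B * A).trace = (Fintype.card X : ℂ) := by rw [hBA, Matrix.trace_one]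
  rw [Matrix.trace_mul_comm, h2] at h1
  exact_mod_cast h1.symm

/-- A rectangular matrix which becomes a square matrix of non-zero determinant after reindexing has
a two-sided inverse. -/
theorem exists_two_sided_inverse_of_det_ne_zero (A : Matrix J X ℂ) (e : J ≃ X)
    (h : (A.submatrix id e).det ≠ 0) : ∃ B : Matrix X J ℂ, A * B = 1 ∧ B * A = 1 := by
  set M : Matrix J J ℂ := A.submatrix id e with hM
  have hu : IsUnit M.det := isUnit_iff_ne_zero.mpr h
  have hA : A = M.submatrix id e.symm := by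
    ext j x; simp [hM]
  refine ⟨(M⁻¹).submatrix e.symm id, ?_, ?_⟩
  · rw [hA, Matrix.submatrix_mul_equiv, Matrix.mul_nonsing_inv _ hu]
    simp
  · rw [hA]
    have : (M⁻¹).submatrix e.symm id * M.submatrix id e.symm
        = (M⁻¹ * M).submatrix e.symm e.symm := by
      rw [Matrix.submatrix_mul _ _ e.symm id e.symm Function.bijective_id]
    rw [this, Matrix.nonsing_inv_mul _ hu, Matrix.submatrix_one_equiv]

variable (k : J → ℤ) (Φ : J → X → ℍ → ℂ)

omit [Fintype J] [Fintype X] [DecidableEq J] [DecidableEq X] in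
theorem eval_perm_of_fixed {g : SL(2, ℤ)} {z : ℍ} (hz : g • z = z) (π : Equiv.Perm X)
    (hg : ∀ j x, Φ j x ∣[k j] g = Φ j (π x)) (j : J) (x : X) :
    Φ j (π x) z = denom g z ^ (-k j) * Φ j x z := by
  rw [← hg j x, SL_slash_apply, hz, mul_comm]

/-- Trace formula at `i`. -/
theorem elliptic_S (hk : ∀ j, Even (k j)) (π : Equiv.Perm X)
    (hS : ∀ j x, Φ j x ∣[k j] (S : SL(2, ℤ)) = Φ j (π x))
    (B : Matrix X J ℂ) (hAB : (Matrix.of fun j x => Φ j x I) * B = 1)
    (hBA : B * (Matrix.of fun j x => Φ j x I) = 1) :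
    ((Finset.univ.filter fun j => 4 ∣ k j).card : ℤ) - (Finset.univ.filter fun j => ¬ 4 ∣ k j).card
      = Fintype.card {x // π x = x} := by
  have h := sum_eigenvalue_eq_card_fixed (Matrix.of fun j x => Φ j x I) B hAB hBA π
    (fun j => denom (S : SL(2, ℤ)) I ^ (-k j))
    (fun j x => eval_perm_of_fixed k Φ S_smul_I π hS j x)
  have h2 : ∀ j, denom (S : SL(2, ℤ)) I ^ (-k j) = if 4 ∣ k j then (1 : ℂ) else -1 := by
    intro j
    rw [denom_S_I]
    split_ifs with h4
    · exact I_zpow_neg_of_four_dvd h4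
    · exact I_zpow_neg_of_not_four_dvd (hk j) h4
  simp only [h2] at h
  rw [Finset.sum_ite, Finset.sum_const, Finset.sum_const] at h
  simp only [nsmul_eq_mul, mul_one, mul_neg] at h
  have h3 : (((Finset.univ.filter fun j => 4 ∣ k j).card : ℤ)
      - (Finset.univ.filter fun j => ¬ 4 ∣ k j).card : ℂ)
      = ((Fintype.card {x // π x = x} : ℤ) : ℂ) := by
    push_cast
    linear_combination h
  exact_mod_cast h3

theorem two_mul_card_four_dvd (hk : ∀ j, Even (k j)) (π : Equiv.Perm X)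
    (hS : ∀ j x, Φ j x ∣[k j] (S : SL(2, ℤ)) = Φ j (π x))
    (B : Matrix X J ℂ) (hAB : (Matrix.of fun j x => Φ j x I) * B = 1)
    (hBA : B * (Matrix.of fun j x => Φ j x I) = 1) :
    2 * (Finset.univ.filter fun j => 4 ∣ k j).card
      = Fintype.card X + Fintype.card {x // π x = x} := by
  have h1 := elliptic_S k Φ hk π hS B hAB hBA
  have h2 := card_eq_of_two_sided_inverse _ B hAB hBA
  have h3 := Finset.card_filter_add_card_filter_not (s := (Finset.univ : Finset J))
    (fun j => 4 ∣ k j)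
  rw [Finset.card_univ] at h3
  omega

theorem rho_re : (ρ : ℂ).re = -1 / 2 := rfl

theorem rho_im : (ρ : ℂ).im = Real.sqrt 3 / 2 := rfl

theorem rho_sq_re : ((ρ : ℂ) ^ 2).re = -1 / 2 := by
  rw [ρ_sq, Complex.sub_re, Complex.neg_re, rho_re, Complex.one_re]; norm_num

theorem rho_sq_im : ((ρ : ℂ) ^ 2).im = -(Real.sqrt 3 / 2) := by
  rw [ρ_sq, Complex.sub_im, Complex.neg_im, rho_im, Complex.one_im]; norm_num

/-- Trace formula at `ρ`. -/
theorem elliptic_ST (hk : ∀ j, Even (k j)) (π : Equiv.Perm X)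
    (hU : ∀ j x, Φ j x ∣[k j] (S * T : SL(2, ℤ)) = Φ j (π x))
    (B : Matrix X J ℂ) (hAB : (Matrix.of fun j x => Φ j x ρ) * B = 1)
    (hBA : B * (Matrix.of fun j x => Φ j x ρ) = 1) :
    (Finset.univ.filter fun j => k j % 6 = 2).card = (Finset.univ.filter fun j => k j % 6 = 4).card
    ∧ 3 * (Finset.univ.filter fun j => k j % 6 = 0).card
      = Fintype.card X + 2 * Fintype.card {x // π x = x} := by
  have h := sum_eigenvalue_eq_card_fixed (Matrix.of fun j x => Φ j x ρ) B hAB hBA π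
    (fun j => denom (S * T : SL(2, ℤ)) ρ ^ (-k j))
    (fun j x => eval_perm_of_fixed k Φ ST_smul_rho π hU j x)
  have h2 : ∀ j, denom (S * T : SL(2, ℤ)) ρ ^ (-k j)
      = (if k j % 6 = 0 then (1 : ℂ) else 0) + (if k j % 6 = 2 then (ρ : ℂ) ^ 2 else 0)
        + (if k j % 6 = 4 then (ρ : ℂ) else 0) := by
    intro j
    rw [denom_ST_rho]
    have h6 : k j % 6 = 0 ∨ k j % 6 = 2 ∨ k j % 6 = 4 := by
      obtain ⟨r, hr⟩ := hk j
      omega
    rcases h6 with h6 | h6 | h6
    · rw [rho_zpow_neg_zero h6]; simp [h6]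
    · rw [rho_zpow_neg_two h6]; simp [h6]
    · rw [rho_zpow_neg_four h6]; simp [h6]
  simp only [h2] at h
  rw [Finset.sum_add_distrib, Finset.sum_add_distrib, ← Finset.sum_filter, ← Finset.sum_filter,
    ← Finset.sum_filter, Finset.sum_const, Finset.sum_const, Finset.sum_const] at h
  simp only [nsmul_eq_mul, mul_one] at h
  set n0 := (Finset.univ.filter fun j => k j % 6 = 0).card
  set n2 := (Finset.univ.filter fun j => k j % 6 = 2).card
  set n4 := (Finset.univ.filter fun j => k j % 6 = 4).card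
  have him := congrArg Complex.im h
  have hre := congrArg Complex.re h
  simp only [Complex.add_im, Complex.add_re, Complex.natCast_im, Complex.natCast_re,
    Complex.mul_im, Complex.mul_re, rho_re, rho_im, rho_sq_re, rho_sq_im, zero_mul, sub_zero,
    add_zero, zero_add] at him hre
  have hs3 : (0 : ℝ) < Real.sqrt 3 := by positivity
  have h24 : (n2 : ℝ) = n4 := by
    have : (Real.sqrt 3 / 2) * ((n4 : ℝ) - n2) = 0 := by linear_combination him
    rcases mul_eq_zero.mp this with h0 | h0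
    · exfalso; linarith
    · linarith
  have h24' : n2 = n4 := by exact_mod_cast h24
  refine ⟨h24', ?_⟩
  have hcard := card_eq_of_two_sided_inverse _ B hAB hBA
  have htot : n0 + n2 + n4 = Fintype.card J := by
    have e1 : ∀ j : J, (1 : ℕ) = (if k j % 6 = 0 then 1 else 0) + (if k j % 6 = 2 then 1 else 0)
        + (if k j % 6 = 4 then 1 else 0) := by
      intro j
      have h6 : k j % 6 = 0 ∨ k j % 6 = 2 ∨ k j % 6 = 4 := by
        obtain ⟨r, hr⟩ := hk j
        omega
      rcases h6 with h6 | h6 | h6 <;> simp [h6]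
    have e2 : Fintype.card J = ∑ j : J, (1 : ℕ) := by simp
    rw [e2, Finset.sum_congr rfl (fun j _ => e1 j), Finset.sum_add_distrib,
      Finset.sum_add_distrib, Finset.sum_boole, Finset.sum_boole, Finset.sum_boole]
    simp [n0, n2, n4]
  have hre' : (2 : ℝ) * n0 - n2 - n4 = 2 * (Fintype.card {x // π x = x} : ℝ) := by
    linear_combination 2 * hre
  have hre'' : (2 * n0 : ℤ) - n2 - n4 = 2 * (Fintype.card {x // π x = x} : ℤ) := by
    exact_mod_cast hre'
  omega

end Main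

end Fermat.Agent.ES
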