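import Fermat.Agent.ES.LevelOne

/-!
# Task A4a: independent families and rank `≤ μ`.
-/

set_option autoImplicit false

namespace Fermat.Agent.ES

open UpperHalfPlane ModularForm Filter Topology
open scoped MatrixGroups Manifold ModularForm

variable {Γ : Subgroup SL(2, ℤ)}

/-- A homogeneous family, independent over `M_*(SL(2,ℤ))`. -/
structure IsIndepFamily (Γ : Subgroup SL(2, ℤ)) {J : Type} [Fintype J] (wt : J → ℤ)
    (f : J → ℍ → ℂ) : Prop where
  mem : ∀ j, IsMF Γ (wt j) (f j)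
  indep : ∀ (k : ℤ) (a : J → ℍ → ℂ), (∀ j, IsMF ⊤ (k - wt j) (a j)) →
    ∑ j, a j * f j = 0 → ∀ j, a j = 0

theorem IsFreeBasis.isIndepFamily {J : Type} [Fintype J] {wt : J → ℤ} {f : J → ℍ → ℂ}
    (h : IsFreeBasis Γ wt f) : IsIndepFamily Γ wt f := ⟨h.mem, h.indep⟩

theorem IsIndepFamily.ne_zero {J : Type} [Fintype J] {wt : J → ℤ} {f : J → ℍ → ℂ}
    (h : IsIndepFamily Γ wt f) (j : J) : f j ≠ 0 := by
  classical
  intro hj
  have h1 := h.indep (wt j) (fun i => if i = j then (fun _ => (1 : ℂ)) else 0) (by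
    intro i
    by_cases hi : i = j
    · subst hi
      simp only [if_true, sub_self]
      exact IsMF.const 1
    · simp only [hi, if_false]
      exact IsMF.zero) (by
    apply Finset.sum_eq_zero
    intro i _
    by_cases hi : i = j
    · subst hi
      rw [hj, mul_zero]
    · simp only [hi, if_false, zero_mul]) j
  simp only [if_true] at h1
  have := congrFun h1 UpperHalfPlane.I
  simp at this

theorem IsIndepFamily.wt_nonneg (hΓ : Good Γ) {J : Type} [Fintype J] {wt : J → ℤ}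
    {f : J → ℍ → ℂ} (h : IsIndepFamily Γ wt f) (j : J) : 0 ≤ wt j := by
  have := hΓ.finiteIndex
  by_contra hneg
  exact h.ne_zero j ((h.mem j).eq_zero_of_neg (not_le.1 hneg))

theorem IsIndepFamily.wt_even (hΓ : Good Γ) {J : Type} [Fintype J] {wt : J → ℤ}
    {f : J → ℍ → ℂ} (h : IsIndepFamily Γ wt f) (j : J) : Even (wt j) := by
  by_contra hodd
  exact h.ne_zero j ((h.mem j).eq_zero_of_odd hΓ.neg_one_mem (Int.not_even_iff_odd.1 hodd))

/-- Rank `≤ μ`: `⨁_j M_{12 s - wt j}(SL(2,ℤ)) ↪ M_{12 s}(Γ)`, so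
`∑_j (12 s - wt j)/12 ≤ dim M_{12 s}(Γ) ≤ s μ + 1` for all large `s`. -/
theorem IsIndepFamily.card_le (hΓ : Good Γ) {J : Type} [Fintype J] {wt : J → ℤ}
    {f : J → ℍ → ℂ} (h : IsIndepFamily Γ wt f) : Fintype.card J ≤ Γ.index := by
  classical
  by_contra hcon
  push Not at hcon
  set w : J → ℕ := fun j => (wt j).toNat with hw
  have hwj : ∀ j, (w j : ℤ) = wt j := fun j => Int.toNat_of_nonneg (h.wt_nonneg hΓ j)
  set s : ℕ := 2 + ∑ j, w j with hs
  set K : ℕ := 12 * s with hK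
  have hwle : ∀ j, w j ≤ s := fun j => by
    have := Finset.single_le_sum (f := w) (fun i _ => Nat.zero_le _) (Finset.mem_univ j)
    omega
  have hcast : ∀ j, ((K - w j : ℕ) : ℤ) = (K : ℤ) - wt j := fun j => by
    rw [Nat.cast_sub (by have := hwle j; omega), hwj]
  let Φ : (∀ j, MF ⊤ ((K : ℤ) - wt j)) →ₗ[ℂ] (ℍ → ℂ) :=
    ∑ j, (LinearMap.mulRight ℂ (f j)).comp ((MF ⊤ ((K : ℤ) - wt j)).subtype.comp
      (LinearMap.proj j))
  have hΦ : ∀ a, Φ a = ∑ j, (a j : ℍ → ℂ) * f j := by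
    intro a
    simp [Φ, LinearMap.sum_apply]
  have hinj : Function.Injective Φ := by
    rw [← LinearMap.ker_eq_bot, LinearMap.ker_eq_bot']
    intro a ha
    rw [hΦ] at ha
    funext j
    exact Subtype.ext (h.indep K (fun j => (a j : ℍ → ℂ)) (fun j => (a j).2) ha j)
  have hrange : ∀ g ∈ LinearMap.range Φ, IsMF Γ (K : ℕ) g := by
    rintro _ ⟨a, rfl⟩
    rw [hΦ]
    refine IsMF.sum _ fun j _ => ?_
    exact (((a j).2 : IsMF ⊤ _ _).of_top.mul (h.mem j)).cast (by ring)
  obtain ⟨hfin, hle⟩ := hΓ.sturm K (LinearMap.range Φ) hrange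
  have := fun j => finite_MF_top ((K : ℤ) - wt j)
  rw [LinearMap.finrank_range_of_inj hinj, Module.finrank_pi_fintype] at hle
  have hge : ∀ j, s - w j ≤ Module.finrank ℂ (MF ⊤ ((K : ℤ) - wt j)) := by
    intro j
    have hev : Even (K - w j) := by
      have h1 : Even ((K - w j : ℕ) : ℤ) := by
        rw [hcast]
        exact (by exact ⟨6 * s, by rw [hK]; push_cast; ring⟩ : Even (K : ℤ)).sub (h.wt_even hΓ j)
      exact_mod_cast h1
    have h2 := finrank_MF_top_ge (K - w j) hev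
    rw [hcast] at h2
    refine le_trans ?_ h2
    have := hwle j
    omega
  have hsum : ∑ j, (s - w j) ≤ K * Γ.index / 12 + 1 :=
    (Finset.sum_le_sum fun j _ => hge j).trans hle
  have hK12 : K * Γ.index / 12 = s * Γ.index := by
    rw [hK, mul_assoc, Nat.mul_div_cancel_left _ (by norm_num)]
  rw [hK12] at hsum
  have hsum2 : ∑ j, (s - w j) + ∑ j, w j = Fintype.card J * s := by
    rw [← Finset.sum_add_distrib]
    rw [Finset.sum_congr rfl (fun j _ => Nat.sub_add_cancel (hwle j))]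
    simp
  have h3 : (Γ.index + 1) * s ≤ Fintype.card J * s := Nat.mul_le_mul_right s hcon
  nlinarith


end Fermat.Agent.ES
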