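import Fermat.Agent.ES.Regular
import Fermat.Agent.ES.IndepFamily

/-!
# Task A4: existence of a free basis of `M_*(Γ)` over `M_*(SL(2,ℤ)) = ℂ[E₄,E₆]`, and rank `≤ μ`.
-/

set_option autoImplicit false

namespace Fermat.Agent.ES

open UpperHalfPlane ModularForm Filter Topology
open scoped MatrixGroups Manifold ModularForm

variable {Γ : Subgroup SL(2, ℤ)}

/-- The weight `k` part of `(E₄, E₆) M_*(Γ)`. -/
def Iid (Γ : Subgroup SL(2, ℤ)) (k : ℤ) : Submodule ℂ (ℍ → ℂ) where
  carrier := {g | ∃ a b : ℍ → ℂ, IsMF Γ (k - 4) a ∧ IsMF Γ (k - 6) b ∧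
    g = (E₄ : ℍ → ℂ) * a + (E₆ : ℍ → ℂ) * b}
  zero_mem' := ⟨0, 0, IsMF.zero, IsMF.zero, by simp⟩
  add_mem' := by
    rintro _ _ ⟨a, b, ha, hb, rfl⟩ ⟨a', b', ha', hb', rfl⟩
    exact ⟨a + a', b + b', ha.add ha', hb.add hb', by ring⟩
  smul_mem' := by
    rintro c _ ⟨a, b, ha, hb, rfl⟩
    exact ⟨c • a, c • b, ha.smul c, hb.smul c, by
      rw [smul_add, mul_smul_comm, mul_smul_comm]⟩

theorem mem_Iid {k : ℤ} {g : ℍ → ℂ} : g ∈ Iid Γ k ↔ ∃ a b : ℍ → ℂ, IsMF Γ (k - 4) a ∧
    IsMF Γ (k - 6) b ∧ g = (E₄ : ℍ → ℂ) * a + (E₆ : ℍ → ℂ) * b := Iff.rfl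

theorem Iid_le_MF (k : ℤ) : Iid Γ k ≤ MF Γ k := by
  rintro _ ⟨a, b, ha, hb, rfl⟩
  exact ((isMF_E₄.of_top.mul ha).cast (by ring)).add ((isMF_E₆.of_top.mul hb).cast (by ring))

theorem finite_MF (hΓ : Good Γ) (k : ℤ) : Module.Finite ℂ (MF Γ k) := by
  have := hΓ.finiteIndex
  rcases lt_or_ge k 0 with hk | hk
  · have : MF Γ k = ⊥ := by
      rw [eq_bot_iff]
      intro f hf
      exact (Submodule.mem_bot ℂ).2 (IsMF.eq_zero_of_neg hk hf)
    rw [this]
    infer_instance
  · obtain ⟨n, rfl⟩ := Int.eq_ofNat_of_zero_le hk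
    exact (hΓ.sturm n (MF Γ n) fun f hf => hf).1

/-- Linear algebra: a finite family in `V` which is a basis of `V` modulo `W`. -/
theorem exists_basis_mod {E : Type*} [AddCommGroup E] [Module ℂ E] (V W : Submodule ℂ E)
    [Module.Finite ℂ V] :
    ∃ (m : ℕ) (v : Fin m → E), (∀ i, v i ∈ V) ∧
      (∀ c : Fin m → ℂ, ∑ i, c i • v i ∈ W → ∀ i, c i = 0) ∧
      ∀ g ∈ V, ∃ c : Fin m → ℂ, g - ∑ i, c i • v i ∈ W := by
  obtain ⟨C, hC⟩ := Submodule.exists_isCompl (W.comap V.subtype)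
  let b := Module.finBasis ℂ C
  refine ⟨_, fun i => ((b i : V) : E), fun i => (b i : V).2, ?_, ?_⟩
  · intro c hc
    have h1 : ((∑ i, c i • b i : C) : V) ∈ W.comap V.subtype := by
      rw [Submodule.mem_comap]
      simpa using hc
    have h2 : ((∑ i, c i • b i : C) : V) ∈ W.comap V.subtype ⊓ C :=
      ⟨h1, (∑ i, c i • b i : C).2⟩
    rw [hC.inf_eq_bot, Submodule.mem_bot] at h2
    have h3 : (∑ i, c i • b i : C) = 0 := Subtype.ext h2
    exact fun i => (Fintype.linearIndependent_iff.1 b.linearIndependent c h3 i)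
  · intro g hg
    have htop : (⟨g, hg⟩ : V) ∈ W.comap V.subtype ⊔ C := by rw [hC.sup_eq_top]; trivial
    obtain ⟨x, hx, y, hy, hxy⟩ := Submodule.mem_sup.1 htop
    refine ⟨fun i => b.repr ⟨y, hy⟩ i, ?_⟩
    have h4 : (∑ i, b.repr ⟨y, hy⟩ i • b i : C) = ⟨y, hy⟩ := b.sum_repr _
    have h5 : ∑ i, b.repr ⟨y, hy⟩ i • ((b i : V) : E) = (y : E) := by
      have h7 : (((∑ i, b.repr ⟨y, hy⟩ i • b i : C) : V) : E) = (y : E) := by rw [h4]
      rw [← h7]
      simp only [Submodule.coe_sum, Submodule.coe_smul]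
    rw [h5]
    have h6 : g = (x : E) + (y : E) := by
      have := congrArg (fun z : V => (z : E)) hxy
      simpa using this.symm
    rw [h6, add_sub_cancel_right]
    exact hx

/-- A finite homogeneous family of weights `≤ B`, minimal modulo `(E₄, E₆)`, generating
`M_k(Γ)` for all `k ≤ B`. -/
structure IsComplete (Γ : Subgroup SL(2, ℤ)) {J : Type} [Fintype J] (wt : J → ℤ)
    (f : J → ℍ → ℂ) (B : ℤ) : Prop where
  mem : ∀ j, IsMF Γ (wt j) (f j)
  le : ∀ j, wt j ≤ B
  min : ∀ (k : ℤ) (c : J → ℂ), (∀ j, wt j ≠ k → c j = 0) → ∑ j, c j • f j ∈ Iid Γ k →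
    ∀ j, c j = 0
  gen : ∀ k ≤ B, ∀ g : ℍ → ℂ, IsMF Γ k g →
    ∃ a : J → ℍ → ℂ, (∀ j, IsMF ⊤ (k - wt j) (a j)) ∧ g = ∑ j, a j * f j

theorem IsComplete.ne_zero {J : Type} [Fintype J] {wt : J → ℤ} {f : J → ℍ → ℂ} {B : ℤ}
    (h : IsComplete Γ wt f B) (j : J) : f j ≠ 0 := by
  classical
  intro hj
  have h1 := h.min (wt j) (fun i => if i = j then 1 else 0) (by
    intro i hi
    have : i ≠ j := fun h' => hi (h' ▸ rfl)
    simp [this]) (by
    have : ∑ i, (if i = j then (1 : ℂ) else 0) • f i = 0 := by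
      apply Finset.sum_eq_zero
      intro i _
      by_cases hi : i = j
      · subst hi; rw [hj, smul_zero]
      · simp [hi]
    rw [this]
    exact Submodule.zero_mem _) j
  simp at h1

theorem IsComplete.wt_nonneg (hΓ : Good Γ) {J : Type} [Fintype J] {wt : J → ℤ}
    {f : J → ℍ → ℂ} {B : ℤ} (h : IsComplete Γ wt f B) (j : J) : 0 ≤ wt j := by
  have := hΓ.finiteIndex
  by_contra hneg
  exact h.ne_zero j ((h.mem j).eq_zero_of_neg (not_le.1 hneg))

/-- Relations of weight `≤ B` in a family complete up to `B` are trivial. -/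
theorem IsComplete.indep_le (hΓ : Good Γ) {J : Type} [Fintype J] {wt : J → ℤ}
    {f : J → ℍ → ℂ} {B : ℤ} (h : IsComplete Γ wt f B) :
    ∀ (n : ℕ) (k : ℤ), k < n → k ≤ B → ∀ a : J → ℍ → ℂ, (∀ j, IsMF ⊤ (k - wt j) (a j)) →
      ∑ j, a j * f j = 0 → ∀ j, a j = 0 := by
  intro n
  induction n with
  | zero =>
    intro k hk _ a ha _ j
    have := h.wt_nonneg hΓ j
    exact (ha j).eq_zero_of_neg (by push_cast at hk; omega)
  | succ n ih =>
    intro k hk hkB a ha hrel
    have hdec : ∀ j, ∃ (c : ℂ) (a' a'' : ℍ → ℂ), (wt j ≠ k → c = 0) ∧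
        IsMF ⊤ (k - 4 - wt j) a' ∧ IsMF ⊤ (k - 6 - wt j) a'' ∧
        a j = (fun _ => c) + (E₄ : ℍ → ℂ) * a' + (E₆ : ℍ → ℂ) * a'' := by
      intro j
      by_cases hj : wt j = k
      · obtain ⟨c, hc⟩ := ((ha j).cast (by omega : k - wt j = 0)).const_of_weight_zero
        exact ⟨c, 0, 0, fun h' => absurd hj h', IsMF.zero, IsMF.zero, by rw [hc]; simp⟩
      · obtain ⟨a', a'', h1, h2, h3⟩ := levelOne_decomp (by omega : k - wt j ≠ 0) (ha j)
        refine ⟨0, a', a'', fun _ => rfl, h1.cast (by ring), h2.cast (by ring), ?_⟩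
        rw [h3]
        funext z
        simp
    choose c a' a'' hc ha' ha'' hdec using hdec
    set A : ℍ → ℂ := ∑ j, a' j * f j with hAdef
    set Bq : ℍ → ℂ := ∑ j, a'' j * f j with hBdef
    have hA : IsMF Γ (k - 4) A :=
      IsMF.sum _ fun j _ => ((ha' j).of_top.mul (h.mem j)).cast (by ring)
    have hB : IsMF Γ (k - 6) Bq :=
      IsMF.sum _ fun j _ => ((ha'' j).of_top.mul (h.mem j)).cast (by ring)
    have hsum : ∑ j, c j • f j + (E₄ : ℍ → ℂ) * A + (E₆ : ℍ → ℂ) * Bq = 0 := by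
      rw [← hrel, hAdef, hBdef, Finset.mul_sum, Finset.mul_sum, ← Finset.sum_add_distrib,
        ← Finset.sum_add_distrib]
      refine Finset.sum_congr rfl fun j _ => ?_
      rw [hdec j]
      funext z
      simp only [Pi.add_apply, Pi.mul_apply, Pi.smul_apply, smul_eq_mul]
      ring
    have hcI : ∑ j, c j • f j ∈ Iid Γ k :=
      ⟨-A, -Bq, hA.neg, hB.neg, by linear_combination hsum⟩
    have hc0 := h.min k c hc hcI
    have hreg : (E₄ : ℍ → ℂ) * A + (E₆ : ℍ → ℂ) * Bq = 0 := by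
      have : ∑ j, c j • f j = 0 := Finset.sum_eq_zero fun j _ => by rw [hc0 j, zero_smul]
      rw [this, zero_add] at hsum
      exact hsum
    obtain ⟨hh, hhMF, hA', hB'⟩ := regular hA hB hreg
    obtain ⟨b, hb, hhb⟩ := h.gen (k - 10) (by omega) hh hhMF
    have h1 := ih (k - 4) (by push_cast at hk; omega) (by omega)
      (fun j => a' j - (E₆ : ℍ → ℂ) * b j)
      (fun j => (ha' j).sub ((isMF_E₆.mul (hb j)).cast (by ring))) (by
        have : ∑ j, (a' j - (E₆ : ℍ → ℂ) * b j) * f j = A - (E₆ : ℍ → ℂ) * hh := by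
          rw [hAdef, hhb, Finset.mul_sum, ← Finset.sum_sub_distrib]
          exact Finset.sum_congr rfl fun j _ => by ring
        rw [this, hA', sub_self])
    have h2 := ih (k - 6) (by push_cast at hk; omega) (by omega)
      (fun j => a'' j + (E₄ : ℍ → ℂ) * b j)
      (fun j => (ha'' j).add ((isMF_E₄.mul (hb j)).cast (by ring))) (by
        have : ∑ j, (a'' j + (E₄ : ℍ → ℂ) * b j) * f j = Bq + (E₄ : ℍ → ℂ) * hh := by
          rw [hBdef, hhb, Finset.mul_sum, ← Finset.sum_add_distrib]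
          exact Finset.sum_congr rfl fun j _ => by ring
        rw [this, hB', neg_add_cancel])
    intro j
    have h1j : a' j = (E₆ : ℍ → ℂ) * b j := sub_eq_zero.1 (h1 j)
    have h2j : a'' j = -((E₄ : ℍ → ℂ) * b j) := eq_neg_of_add_eq_zero_left (h2 j)
    rw [hdec j, hc0 j, h1j, h2j]
    funext z
    simp only [Pi.add_apply, Pi.mul_apply, Pi.neg_apply, Pi.zero_apply]
    ring

/-- The family `(wt', f')` extends `(wt, f)` along `ι`. -/
def IsExt {J J' : Type} (wt : J → ℤ) (f : J → ℍ → ℂ) (wt' : J' → ℤ) (f' : J' → ℍ → ℂ)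
    (ι : J → J') : Prop :=
  Function.Injective ι ∧ (∀ j, wt' (ι j) = wt j) ∧ ∀ j, f' (ι j) = f j

theorem IsComplete.ext_succ (hΓ : Good Γ) {J : Type} [Fintype J] {wt : J → ℤ}
    {f : J → ℍ → ℂ} {B : ℤ} (h : IsComplete Γ wt f B) :
    ∃ (J' : Type) (_ : Fintype J') (wt' : J' → ℤ) (f' : J' → ℍ → ℂ) (ι : J → J'),
      IsExt wt f wt' f' ι ∧ IsComplete Γ wt' f' (B + 1) := by
  have := finite_MF hΓ (B + 1)
  obtain ⟨m, v, hvV, hvLI, hvspan⟩ := exists_basis_mod (MF Γ (B + 1)) (Iid Γ (B + 1))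
  refine ⟨J ⊕ Fin m, inferInstance, Sum.elim wt (fun _ => B + 1), Sum.elim f v, Sum.inl,
    ⟨Sum.inl_injective, fun _ => rfl, fun _ => rfl⟩, ?_⟩
  constructor
  · rintro (j | i)
    · exact h.mem j
    · exact hvV i
  · rintro (j | i)
    · have := h.le j
      simp only [Sum.elim_inl]
      omega
    · simp
  · intro k c hc hsum
    rw [Fintype.sum_sum_type] at hsum
    simp only [Sum.elim_inl, Sum.elim_inr] at hsum
    by_cases hk : k = B + 1
    · subst hk
      have hl : ∀ j, c (Sum.inl j) = 0 := fun j => hc (Sum.inl j) (by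
        have := h.le j
        simp only [Sum.elim_inl]
        omega)
      have h0 : ∑ j, c (Sum.inl j) • f j = 0 :=
        Finset.sum_eq_zero fun j _ => by rw [hl j, zero_smul]
      rw [h0, zero_add] at hsum
      have hr := hvLI (fun i => c (Sum.inr i)) hsum
      rintro (j | i)
      · exact hl j
      · exact hr i
    · have hr : ∀ i, c (Sum.inr i) = 0 := fun i => hc (Sum.inr i) (by
        simp only [Sum.elim_inr]
        exact fun h' => hk h'.symm)
      have h0 : ∑ i, c (Sum.inr i) • v i = 0 :=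
        Finset.sum_eq_zero fun i _ => by rw [hr i, zero_smul]
      rw [h0, add_zero] at hsum
      have hl := h.min k (fun j => c (Sum.inl j)) (fun j hj => hc (Sum.inl j) hj) hsum
      rintro (j | i)
      · exact hl j
      · exact hr i
  · intro k hk g hg
    rcases lt_or_eq_of_le hk with hk | rfl
    · obtain ⟨a, ha, hga⟩ := h.gen k (by omega) g hg
      refine ⟨Sum.elim a (fun _ => 0), ?_, ?_⟩
      · rintro (j | i)
        · exact ha j
        · exact IsMF.zero
      · rw [Fintype.sum_sum_type]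
        simp only [Sum.elim_inl, Sum.elim_inr, zero_mul, Finset.sum_const_zero, add_zero]
        exact hga
    · obtain ⟨c, hc⟩ := hvspan g hg
      obtain ⟨x, y, hx, hy, hxy⟩ := mem_Iid.1 hc
      obtain ⟨ax, hax, hxa⟩ := h.gen (B + 1 - 4) (by omega) x hx
      obtain ⟨ay, hay, hya⟩ := h.gen (B + 1 - 6) (by omega) y hy
      refine ⟨Sum.elim (fun j => (E₄ : ℍ → ℂ) * ax j + (E₆ : ℍ → ℂ) * ay j)
        (fun i => fun _ => c i), ?_, ?_⟩
      · rintro (j | i)
        · exact ((isMF_E₄.mul (hax j)).cast (by simp only [Sum.elim_inl]; ring)).add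
            ((isMF_E₆.mul (hay j)).cast (by simp only [Sum.elim_inl]; ring))
        · exact (IsMF.const (c i)).cast (by simp)
      · rw [Fintype.sum_sum_type]
        simp only [Sum.elim_inl, Sum.elim_inr]
        have h1 : ∑ j, ((E₄ : ℍ → ℂ) * ax j + (E₆ : ℍ → ℂ) * ay j) * f j
            = (E₄ : ℍ → ℂ) * x + (E₆ : ℍ → ℂ) * y := by
          rw [hxa, hya, Finset.mul_sum, Finset.mul_sum, ← Finset.sum_add_distrib]
          exact Finset.sum_congr rfl fun j _ => by ring
        have h2 : ∑ i, (fun _ : ℍ => c i) * v i = ∑ i, c i • v i :=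
          Finset.sum_congr rfl fun i _ => by
            funext z
            simp
        rw [h1, h2, ← hxy]
        ring

theorem IsComplete.ext_add (hΓ : Good Γ) {J : Type} [Fintype J] {wt : J → ℤ}
    {f : J → ℍ → ℂ} {B : ℤ} (h : IsComplete Γ wt f B) (n : ℕ) :
    ∃ (J' : Type) (_ : Fintype J') (wt' : J' → ℤ) (f' : J' → ℍ → ℂ) (ι : J → J'),
      IsExt wt f wt' f' ι ∧ IsComplete Γ wt' f' (B + n) := by
  induction n with
  | zero =>
    exact ⟨J, inferInstance, wt, f, id, ⟨Function.injective_id, fun _ => rfl, fun _ => rfl⟩,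
      by simpa using h⟩
  | succ n ih =>
    obtain ⟨J₁, _, wt₁, f₁, ι₁, ⟨hi₁, hw₁, hf₁⟩, hc₁⟩ := ih
    obtain ⟨J₂, i₂, wt₂, f₂, ι₂, ⟨hi₂, hw₂, hf₂⟩, hc₂⟩ := hc₁.ext_succ hΓ
    refine ⟨J₂, i₂, wt₂, f₂, ι₂ ∘ ι₁, ⟨hi₂.comp hi₁, fun j => ?_, fun j => ?_⟩, ?_⟩
    · rw [Function.comp_apply, hw₂, hw₁]
    · rw [Function.comp_apply, hf₂, hf₁]
    · have : B + ((n + 1 : ℕ) : ℤ) = B + n + 1 := by push_cast; ring
      rw [this]
      exact hc₂

theorem IsComplete.isIndepFamily (hΓ : Good Γ) {J : Type} [Fintype J] {wt : J → ℤ}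
    {f : J → ℍ → ℂ} {B : ℤ} (h : IsComplete Γ wt f B) : IsIndepFamily Γ wt f := by
  refine ⟨h.mem, fun k a ha hrel => ?_⟩
  obtain ⟨J', _, wt', f', ι, ⟨hι, hw, hf⟩, hc⟩ := h.ext_add hΓ (k - B).toNat
  have hex : ∀ j, Function.extend ι a (fun _ => (0 : ℍ → ℂ)) (ι j) = a j := fun j => hι.extend_apply a (fun _ => (0 : ℍ → ℂ)) j
  have hex' : ∀ j' ∉ Set.range ι, Function.extend ι a (fun _ => (0 : ℍ → ℂ)) j' = 0 := fun j' hj' =>
    Function.extend_apply' a (fun _ => (0 : ℍ → ℂ)) j' (by simpa using hj')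
  have h1 := hc.indep_le hΓ (k.toNat + 1) k (by push_cast; omega) (by omega)
    (Function.extend ι a (fun _ => (0 : ℍ → ℂ))) (by
      intro j'
      by_cases hj' : j' ∈ Set.range ι
      · obtain ⟨j, rfl⟩ := hj'
        rw [hex, hw]
        exact ha j
      · rw [hex' j' hj']
        exact IsMF.zero) (by
      refine Eq.trans ?_ hrel
      symm
      apply Fintype.sum_of_injective ι hι
      · intro j' hj'
        rw [hex' j' hj', zero_mul]
      · intro j
        rw [hex, hf])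
  intro j
  rw [← hex j, h1]

theorem IsFreeBasis.reindex {J J' : Type} [Fintype J] [Fintype J'] {wt : J → ℤ}
    {f : J → ℍ → ℂ} (h : IsFreeBasis Γ wt f) (e : J' ≃ J) :
    IsFreeBasis Γ (wt ∘ e) (f ∘ e) := by
  constructor
  · exact fun j => h.mem (e j)
  · intro k g hg
    obtain ⟨a, ha, hga⟩ := h.span k g hg
    refine ⟨a ∘ e, fun j => ha (e j), ?_⟩
    rw [hga]
    exact (Equiv.sum_comp e (fun j => a j * f j)).symm
  · intro k a ha hrel j
    have h1 := h.indep k (a ∘ e.symm) (fun j => by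
      have := ha (e.symm j)
      simpa using this) (by
      rw [← hrel]
      rw [← Equiv.sum_comp e]
      simp) (e j)
    simpa using h1

theorem exists_freeBasis_aux (hΓ : Good Γ) (d : ℕ) :
    ∀ (J : Type) [Fintype J] (wt : J → ℤ) (f : J → ℍ → ℂ) (B : ℤ), IsComplete Γ wt f B →
      Γ.index - Fintype.card J ≤ d →
      ∃ (n : ℕ) (wt : Fin n → ℤ) (f : Fin n → ℍ → ℂ), IsFreeBasis Γ wt f := by
  induction d with
  | zero =>
    intro J _ wt f B h hd
    by_cases hgen : ∀ (k : ℤ) (g : ℍ → ℂ), IsMF Γ k g →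
        ∃ a : J → ℍ → ℂ, (∀ j, IsMF ⊤ (k - wt j) (a j)) ∧ g = ∑ j, a j * f j
    · have hfb : IsFreeBasis Γ wt f := ⟨h.mem, hgen, (h.isIndepFamily hΓ).indep⟩
      exact ⟨_, _, _, hfb.reindex (Fintype.equivFin J).symm⟩
    · exfalso
      push Not at hgen
      obtain ⟨k, g, hg, hng⟩ := hgen
      obtain ⟨J', _, wt', f', ι, ⟨hι, hw, hf⟩, hc⟩ := h.ext_add hΓ (k - B).toNat
      have hns : ¬ Function.Surjective ι := by
        intro hs
        obtain ⟨a', ha', hga'⟩ := hc.gen k (by omega) g hg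
        apply hng (a' ∘ ι) (fun j => by
          have := ha' (ι j)
          rwa [hw] at this)
        rw [hga']
        symm
        apply Fintype.sum_bijective ι ⟨hι, hs⟩
        intro j
        rw [Function.comp_apply, hf]
      have h1 := Fintype.card_lt_of_injective_not_surjective ι hι hns
      have h2 := (hc.isIndepFamily hΓ).card_le hΓ
      omega
  | succ d ih =>
    intro J _ wt f B h hd
    by_cases hgen : ∀ (k : ℤ) (g : ℍ → ℂ), IsMF Γ k g →
        ∃ a : J → ℍ → ℂ, (∀ j, IsMF ⊤ (k - wt j) (a j)) ∧ g = ∑ j, a j * f j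
    · have hfb : IsFreeBasis Γ wt f := ⟨h.mem, hgen, (h.isIndepFamily hΓ).indep⟩
      exact ⟨_, _, _, hfb.reindex (Fintype.equivFin J).symm⟩
    · push Not at hgen
      obtain ⟨k, g, hg, hng⟩ := hgen
      obtain ⟨J', _, wt', f', ι, ⟨hι, hw, hf⟩, hc⟩ := h.ext_add hΓ (k - B).toNat
      have hns : ¬ Function.Surjective ι := by
        intro hs
        obtain ⟨a', ha', hga'⟩ := hc.gen k (by omega) g hg
        apply hng (a' ∘ ι) (fun j => by
          have := ha' (ι j)
          rwa [hw] at this)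
        rw [hga']
        symm
        apply Fintype.sum_bijective ι ⟨hι, hs⟩
        intro j
        rw [Function.comp_apply, hf]
      have h1 := Fintype.card_lt_of_injective_not_surjective ι hι hns
      exact ih J' wt' f' _ hc (by omega)

/-- Existence of a free basis.
Sketch: `I_k := E₄ M_{k-4}(Γ) + E₆ M_{k-6}(Γ) ≤ M_k(Γ)`; choose a basis of a complement `C_k`.
The union over `k ≤ B` is an independent family (induction on the weight `k` of a relation, using
`levelOne_decomp`, `regular`, and generation in lower weight), hence has at most `μ` elements by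
`card_le`; so `C_k = 0` for `k` large; generation by induction on `k` (`M_k = 0` for `k < 0`). -/
theorem exists_freeBasis (hΓ : Good Γ) :
    ∃ (n : ℕ) (wt : Fin n → ℤ) (f : Fin n → ℍ → ℂ), IsFreeBasis Γ wt f := by
  have := hΓ.finiteIndex
  have h0 : IsComplete Γ (fun _ : Fin 0 => (0 : ℤ)) (fun _ => 0) (-1) := by
    constructor
    · exact fun j => j.elim0
    · exact fun j => j.elim0
    · exact fun _ _ _ _ j => j.elim0
    · intro k hk g hg
      exact ⟨fun j => j.elim0, fun j => j.elim0, by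
        rw [hg.eq_zero_of_neg (by omega)]; simp⟩
  exact exists_freeBasis_aux hΓ Γ.index (Fin 0) _ _ _ h0 (by omega)

end Fermat.Agent.ES
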