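import Fermat.Agent.ES.Basic

/-!
# A separating form for `Γ₀(N)` (part of ES task G)

`t = Δ ∣[12] diag(N, 1)` (a multiple of `z ↦ Δ(N z)`) is a modular form of weight `12` on `Γ₀(N)`
whose stabiliser in `SL(2, ℤ)` is exactly `Γ₀(N)`.

For `γ ∈ SL(2, ℤ)` write `diag(N,1) γ = δ [[A, B], [0, D]]` with `δ ∈ SL(2, ℤ)`, `A D = N`,
`A ∣ c`. Then `t ∣ γ = Δ ∣ [[A, B], [0, D]]`. As `t` has period `1 / N`, `t ∣ γ = t` forces `Δ` to
have period `1 / D ^ 2`, so `D = 1` by the product formula for `Δ`.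
-/

set_option autoImplicit false

namespace Fermat.Agent.ES.Sep

open UpperHalfPlane ModularForm Filter Topology CongruenceSubgroup
open scoped MatrixGroups Manifold ModularForm

/-- Upper triangular real matrix `[[a, b], [0, d]]`. -/
noncomputable def ut (a b d : ℝ) (h : a * d ≠ 0) : GL (Fin 2) ℝ :=
  Matrix.GeneralLinearGroup.mkOfDetNeZero !![a, b; 0, d] (by simpa [Matrix.det_fin_two] using h)

theorem ut_coe (a b d : ℝ) (h : a * d ≠ 0) :
    (ut a b d h : Matrix (Fin 2) (Fin 2) ℝ) = !![a, b; 0, d] := rfl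

theorem ut_mul (a b d a' b' d' : ℝ) (h : a * d ≠ 0) (h' : a' * d' ≠ 0)
    (h'' : (a * a') * (d * d') ≠ 0) :
    ut a b d h * ut a' b' d' h' = ut (a * a') (a * b' + b * d') (d * d') h'' := by
  apply Units.ext
  rw [Units.val_mul]
  ext i j
  fin_cases i <;> fin_cases j <;> simp [ut_coe, Matrix.mul_apply, Fin.sum_univ_two]

theorem ut_congr {a b d a' b' d' : ℝ} (h : a * d ≠ 0) (h' : a' * d' ≠ 0) (ha : a = a')
    (hb : b = b') (hd : d = d') : ut a b d h = ut a' b' d' h' := by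
  subst ha hb hd; rfl

theorem slash_ut_one (f : ℍ → ℂ) (k : ℤ) (s : ℝ) (z : ℍ) :
    (f ∣[k] ut 1 s 1 (by norm_num)) z = f (s +ᵥ z) := by
  have hdet : (ut 1 s 1 (by norm_num)).det.val = 1 := by
    simp [Matrix.GeneralLinearGroup.val_det_apply, ut_coe, Matrix.det_fin_two]
  have hden : denom (ut 1 s 1 (by norm_num)) z = 1 := by
    simp [denom, ut_coe]
  have hsm : ut 1 s 1 (by norm_num) • z = s +ᵥ z := by
    apply UpperHalfPlane.ext
    rw [coe_smul_of_det_pos (by rw [hdet]; norm_num), hden]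
    simp [num, ut_coe, add_comm]
  rw [slash_apply, hdet, hden, hsm]
  simp [σ, hdet]

theorem tendsto_vadd_atImInfty (s : ℝ) : Tendsto (fun z : ℍ => s +ᵥ z) atImInfty atImInfty := by
  rw [atImInfty, tendsto_comap_iff]
  have : (im ∘ fun z : ℍ => s +ᵥ z) = im := by
    funext z; simp
  rw [this]
  exact tendsto_comap

/-- A real period of `Δ` is an integer. -/
theorem period_discriminant (s : ℝ)
    (h : ∀ z : ℍ, ModularForm.discriminant (s +ᵥ z) = ModularForm.discriminant z) :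
    ∃ n : ℤ, s = n := by
  have h1 := tendsto_atImInfty_tprod_one_sub_eta_q_pow
  have h2 := h1.comp (tendsto_vadd_atImInfty s)
  have h3 : ∀ z : ℍ, Complex.exp (2 * Real.pi * Complex.I * s) *
      (∏' n, (1 - eta_q n (s +ᵥ z : ℍ)) ^ 24) = ∏' n, (1 - eta_q n z) ^ 24 := by
    intro z
    have := h z
    rw [discriminant_eq_q_prod, discriminant_eq_q_prod] at this
    have hq : Function.Periodic.qParam 1 ((s +ᵥ z : ℍ) : ℂ) =
        Function.Periodic.qParam 1 (z : ℂ) * Complex.exp (2 * Real.pi * Complex.I * s) := by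
      simp only [Function.Periodic.qParam, ← Complex.exp_add]
      congr 1
      simp
      ring
    rw [hq, mul_assoc] at this
    exact mul_left_cancel₀ (by simp [Function.Periodic.qParam]) this
  have h4 : Tendsto (fun z : ℍ => Complex.exp (2 * Real.pi * Complex.I * s) *
      (∏' n, (1 - eta_q n (s +ᵥ z : ℍ)) ^ 24)) atImInfty
      (𝓝 (Complex.exp (2 * Real.pi * Complex.I * s) * 1)) := h2.const_mul _
  simp_rw [h3] at h4
  have h5 := tendsto_nhds_unique h4 h1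
  rw [mul_one, Complex.exp_eq_one_iff] at h5
  obtain ⟨n, hn⟩ := h5
  refine ⟨n, ?_⟩
  have h6 : (2 * Real.pi * Complex.I : ℂ) ≠ 0 := by
    simp [Real.pi_ne_zero]
  have : (s : ℂ) = n := by
    apply mul_left_cancel₀ h6
    rw [hn]; ring
  exact_mod_cast this

theorem exists_decomp (N : ℕ) [NeZero N] (γ : SL(2, ℤ)) :
    ∃ (δ : SL(2, ℤ)) (A B D : ℤ), 0 < A ∧ 0 < D ∧ A * D = N ∧
      N * γ 0 0 = δ 0 0 * A ∧ N * γ 0 1 = δ 0 0 * B + δ 0 1 * D ∧
      γ 1 0 = δ 1 0 * A ∧ γ 1 1 = δ 1 0 * B + δ 1 1 * D := by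
  have hdet : γ 0 0 * γ 1 1 - γ 0 1 * γ 1 0 = 1 := by
    have := γ.det_coe
    rwa [Matrix.det_fin_two] at this
  have hN : (0 : ℤ) < N := by exact_mod_cast Nat.pos_of_ne_zero (NeZero.ne N)
  set a := γ 0 0
  set b := γ 0 1
  set c := γ 1 0
  set d := γ 1 1
  set A : ℤ := ((Int.gcd (N * a) c : ℕ) : ℤ) with hA
  have hA0 : 0 < A := by
    rw [hA]
    have : Int.gcd (N * a) c ≠ 0 := by
      intro h0
      rw [Int.gcd_eq_zero_iff] at h0
      obtain ⟨h1, h2⟩ := h0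
      have ha : a = 0 := by
        rcases mul_eq_zero.mp h1 with h | h
        · exact absurd h hN.ne'
        · exact h
      rw [ha, h2] at hdet
      simp at hdet
    exact_mod_cast Nat.pos_of_ne_zero this
  obtain ⟨p, hp⟩ : A ∣ N * a := Int.gcd_dvd_left _ _
  obtain ⟨r, hr⟩ : A ∣ c := Int.gcd_dvd_right _ _
  have hbez : A = N * a * Int.gcdA (N * a) c + c * Int.gcdB (N * a) c := Int.gcd_eq_gcd_ab _ _
  set u := Int.gcdA (N * a) c
  set v := Int.gcdB (N * a) c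
  have h1 : p * u + r * v = 1 := by
    apply mul_left_cancel₀ hA0.ne'
    calc A * (p * u + r * v) = (A * p) * u + (A * r) * v := by ring
      _ = A * 1 := by rw [← hp, ← hr, ← hbez, mul_one]
  have hAD : A * (p * d - r * (N * b)) = N := by
    calc A * (p * d - r * (N * b)) = (A * p) * d - (A * r) * (N * b) := by ring
      _ = N * (a * d - b * c) := by rw [← hp, ← hr]; ring
      _ = N := by rw [hdet, mul_one]
  refine ⟨⟨!![p, -v; r, u], by rw [Matrix.det_fin_two_of]; linarith⟩, A, u * (N * b) + v * d,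
    p * d - r * (N * b), hA0, ?_, hAD, ?_, ?_, ?_, ?_⟩
  · by_contra hD
    push Not at hD
    have := mul_nonpos_of_nonneg_of_nonpos hA0.le hD
    rw [hAD] at this
    exact absurd hN (not_lt.mpr this)
  · simp [hp, mul_comm]
  · simp
    linear_combination (-(N : ℤ) * b) * h1
  · simp [hr, mul_comm]
  · simp
    linear_combination (-d) * h1

theorem natCast_mul_one_ne_zero (N : ℕ) [NeZero N] : (N : ℝ) * 1 ≠ 0 := by
  simpa using NeZero.ne N

/-- `α = diag(N, 1)`. -/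
noncomputable def al (N : ℕ) [NeZero N] : GL (Fin 2) ℝ := ut N 0 1 (natCast_mul_one_ne_zero N)

theorem exists_decomp_GL (N : ℕ) [NeZero N] (γ : SL(2, ℤ)) :
    ∃ (δ : SL(2, ℤ)) (A B D : ℤ) (h : (A : ℝ) * D ≠ 0), 0 < A ∧ 0 < D ∧ A * D = N ∧ A ∣ γ 1 0 ∧
      al N * (γ : GL (Fin 2) ℝ) = (δ : GL (Fin 2) ℝ) * ut A B D h := by
  obtain ⟨δ, A, B, D, hA, hD, hAD, h1, h2, h3, h4⟩ := exists_decomp N γ
  have h : (A : ℝ) * D ≠ 0 := by
    have : (A : ℝ) * D = N := by exact_mod_cast hAD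
    rw [this]; simpa using NeZero.ne N
  refine ⟨δ, A, B, D, h, hA, hD, hAD, ⟨δ 1 0, by rw [h3, mul_comm]⟩, ?_⟩
  apply Units.ext
  rw [Units.val_mul, Units.val_mul]
  ext i j
  fin_cases i <;> fin_cases j <;>
    simp [al, ut_coe, Matrix.mul_apply, Fin.sum_univ_two]
  · exact_mod_cast h1
  · exact_mod_cast h2
  · exact_mod_cast h3
  · exact_mod_cast h4

local notation "Δ" => ModularForm.discriminant

theorem discriminant_slash (δ : SL(2, ℤ)) : Δ ∣[(12 : ℤ)] (δ : GL (Fin 2) ℝ) = Δ := by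
  have := (isCF_top_coe CuspForm.discriminant).slash_eq (Subgroup.mem_top δ)
  rw [SL_slash] at this
  exact this

/-- The separating form. -/
noncomputable def tt (N : ℕ) [NeZero N] : ℍ → ℂ := Δ ∣[(12 : ℤ)] al N

theorem tt_slash (N : ℕ) [NeZero N] (γ : SL(2, ℤ)) :
    ∃ (A B D : ℤ) (h : (A : ℝ) * D ≠ 0), 0 < A ∧ 0 < D ∧ A * D = N ∧ A ∣ γ 1 0 ∧
      tt N ∣[(12 : ℤ)] γ = Δ ∣[(12 : ℤ)] ut A B D h := by
  obtain ⟨δ, A, B, D, h, hA, hD, hAD, hdvd, heq⟩ := exists_decomp_GL N γ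
  refine ⟨A, B, D, h, hA, hD, hAD, hdvd, ?_⟩
  rw [tt, SL_slash, ← SlashAction.slash_mul, heq, SlashAction.slash_mul, discriminant_slash]

theorem discriminant_slash_ut_one_one : Δ ∣[(12 : ℤ)] ut 1 1 1 (by norm_num) = Δ := by
  funext z
  rw [slash_ut_one]
  have := congrFun discriminant_T_invariant z
  rw [SL_slash_apply, UpperHalfPlane.modular_T_smul] at this
  have hd : denom ((ModularGroup.T : SL(2, ℤ)) : GL (Fin 2) ℝ) z = 1 := by
    rw [ModularGroup.denom_apply]; simp [ModularGroup.T]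
  rw [hd] at this
  simpa using this

theorem tt_slash_ut (N : ℕ) [NeZero N] :
    tt N ∣[(12 : ℤ)] ut 1 (1 / N) 1 (by norm_num) = tt N := by
  have hN : (N : ℝ) ≠ 0 := by simpa using NeZero.ne N
  have h : al N * ut 1 (1 / N) 1 (by norm_num) = ut 1 1 1 (by norm_num) * al N := by
    rw [al, ut_mul _ _ _ _ _ _ _ _ (by simpa using hN), ut_mul _ _ _ _ _ _ _ _ (by simpa using hN)]
    apply ut_congr
    · ring
    · field_simp; ring
    · ring
  rw [tt, ← SlashAction.slash_mul, h, SlashAction.slash_mul, discriminant_slash_ut_one_one]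

theorem mem_Gamma0_of_tt_slash (N : ℕ) [NeZero N] (γ : SL(2, ℤ))
    (hγ : tt N ∣[(12 : ℤ)] γ = tt N) : γ ∈ Gamma0 N := by
  obtain ⟨A, B, D, h, hA, hD, hAD, hdvd, heq⟩ := tt_slash N γ
  have hN : (N : ℝ) ≠ 0 := by simpa using NeZero.ne N
  have hAR : (A : ℝ) ≠ 0 := left_ne_zero_of_mul h
  have hDR : (D : ℝ) ≠ 0 := right_ne_zero_of_mul h
  have hADR : (A : ℝ) * D = N := by exact_mod_cast hAD
  rw [hγ] at heq
  -- `Δ ∣ U ∣ τ(1/N) = Δ ∣ U`
  have h1 : (Δ ∣[(12 : ℤ)] ut A B D h) ∣[(12 : ℤ)] ut 1 (1 / N) 1 (by norm_num) =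
      Δ ∣[(12 : ℤ)] ut A B D h := by
    rw [← heq, tt_slash_ut]
  have h2 : ut A B D h * ut 1 (1 / N) 1 (by norm_num) =
      ut 1 (1 / (D : ℝ) ^ 2) 1 (by norm_num) * ut A B D h := by
    rw [ut_mul _ _ _ _ _ _ _ _ (by simpa using h), ut_mul _ _ _ _ _ _ _ _ (by simpa using h)]
    apply ut_congr
    · ring
    · rw [← hADR]; field_simp; ring
    · ring
  rw [← SlashAction.slash_mul, h2, SlashAction.slash_mul] at h1
  have h3 : Δ ∣[(12 : ℤ)] ut 1 (1 / (D : ℝ) ^ 2) 1 (by norm_num) = Δ := by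
    have := congrArg (fun f => f ∣[(12 : ℤ)] (ut A B D h)⁻¹) h1
    simpa [← SlashAction.slash_mul] using this
  obtain ⟨n, hn⟩ := period_discriminant (1 / (D : ℝ) ^ 2) (fun z => by
    rw [← slash_ut_one Δ 12, h3])
  have h4 : (n : ℝ) * (D : ℝ) ^ 2 = 1 := by
    rw [← hn]; field_simp
  have h5 : n * D ^ 2 = 1 := by exact_mod_cast h4
  have h6 : D ∣ 1 := ⟨n * D, by rw [← h5]; ring⟩
  have h7 : D = 1 := Int.eq_one_of_dvd_one hD.le h6
  rw [h7, mul_one] at hAD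
  rw [Gamma0_mem, ZMod.intCast_zmod_eq_zero_iff_dvd, ← hAD]
  exact hdvd

theorem tt_slash_of_mem (N : ℕ) [NeZero N] (γ : SL(2, ℤ)) (hγ : γ ∈ Gamma0 N) :
    tt N ∣[(12 : ℤ)] γ = tt N := by
  rw [Gamma0_mem, ZMod.intCast_zmod_eq_zero_iff_dvd] at hγ
  obtain ⟨c', hc'⟩ := hγ
  have hdet : γ 0 0 * γ 1 1 - γ 0 1 * γ 1 0 = 1 := by
    have := γ.det_coe
    rwa [Matrix.det_fin_two] at this
  obtain ⟨γ', h00, h01, h10, h11⟩ : ∃ γ' : SL(2, ℤ), γ' 0 0 = γ 0 0 ∧ γ' 0 1 = N * γ 0 1 ∧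
      γ' 1 0 = c' ∧ γ' 1 1 = γ 1 1 :=
    ⟨⟨!![γ 0 0, N * γ 0 1; c', γ 1 1], by
      rw [Matrix.det_fin_two_of]; linear_combination hdet + γ 0 1 * hc'⟩, rfl, rfl, rfl, rfl⟩
  have h : al N * (γ : GL (Fin 2) ℝ) = (γ' : GL (Fin 2) ℝ) * al N := by
    apply Units.ext
    rw [Units.val_mul, Units.val_mul]
    ext i j
    fin_cases i <;> fin_cases j <;>
      simp [al, ut_coe, Matrix.mul_apply, Fin.sum_univ_two, h00, h01, h10, h11, hc', mul_comm]
  rw [tt, SL_slash, ← SlashAction.slash_mul, h, SlashAction.slash_mul, discriminant_slash]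

theorem isMF_tt (N : ℕ) [NeZero N] : IsMF (Gamma0 N) 12 (tt N) := by
  refine ⟨?_, tt_slash_of_mem N, fun γ => ?_⟩
  · exact (isCF_top_coe CuspForm.discriminant).mdiff.slash 12 _
  · obtain ⟨A, B, D, h, -, -, -, -, heq⟩ := tt_slash N γ
    rw [heq]
    exact IsBoundedAtImInfty.slash 12 (by simp [ut_coe])
      (isCF_top_coe CuspForm.discriminant).isMF.bdd_self

end Fermat.Agent.ES.Sep

namespace Fermat.Agent.ES

open UpperHalfPlane ModularForm CongruenceSubgroup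
open scoped MatrixGroups ModularForm

/-- Same statement as `sep_Gamma0` of the blueprint file `ES/Gamma0.lean`. -/
theorem sep_Gamma0_aux (N : ℕ) [NeZero N] :
    ∃ (t : ℍ → ℂ) (k₀ : ℤ), IsMF (Gamma0 N) k₀ t ∧
      ∀ γ : SL(2, ℤ), t ∣[k₀] γ = t → γ ∈ Gamma0 N :=
  ⟨Sep.tt N, 12, Sep.isMF_tt N, Sep.mem_Gamma0_of_tt_slash N⟩

end Fermat.Agent.ES
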