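import Fermat.Agent.ES.DetODE
import Fermat.Agent.ES.PermLA
import Fermat.Agent.ES.Periodic

/-!
# Task A6: behaviour at `i∞`: `∑ wt = 6 (μ - d0 T)`.
-/

set_option autoImplicit false

namespace Fermat.Agent.ES

open UpperHalfPlane ModularForm Filter Topology Asymptotics
open scoped MatrixGroups Manifold ModularForm Real

variable {Γ : Subgroup SL(2, ℤ)}

open Infty

namespace Infty

/-! ### Auxiliary lemmas for the main statement -/

/-- If `exp(2π i s z)` has a finite nonzero limit at `i∞` then `s = 0`. -/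
theorem eq_zero_of_tendsto_eexp {s : ℝ} {ℓ : ℂ} (hℓ : ℓ ≠ 0)
    (h : Tendsto (eexp s) atImInfty (𝓝 ℓ)) : s = 0 := by
  by_contra hs
  have h1 : Tendsto (fun z : ℍ => Real.exp (-2 * π * s * z.im)) atImInfty (𝓝 ‖ℓ‖) := by
    refine h.norm.congr fun z => ?_
    rw [norm_eexp]
  have h2 : Tendsto (fun z : ℍ => -2 * π * s * z.im) atImInfty (𝓝 (Real.log ‖ℓ‖)) := by
    have := (Real.continuousAt_log (norm_ne_zero_iff.2 hℓ)).tendsto.comp h1
    refine this.congr fun z => ?_
    simp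
  have hc : -2 * π * s ≠ 0 := by
    have := Real.pi_pos.ne'
    simp [hs, this]
  have h3 : Tendsto (fun z : ℍ => z.im) atImInfty (𝓝 ((-2 * π * s)⁻¹ * Real.log ‖ℓ‖)) := by
    refine (h2.const_mul (-2 * π * s)⁻¹).congr fun z => ?_
    rw [← mul_assoc, inv_mul_cancel₀ hc, one_mul]
  have h4 : Tendsto (fun z : ℍ => z.im) atImInfty atTop := tendsto_comap
  exact not_tendsto_nhds_of_tendsto_atTop h4 _ h3

/-- Inverting a linearly independent system of linear combinations, for `O`-estimates. -/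
theorem isBigO_of_comb {X : Type} [Fintype X] {α : Type*} {l : Filter α} {G : α → ℝ}
    {b : X → X → ℂ} (hb : LinearIndependent ℂ b) {u : X → α → ℂ}
    (hu : ∀ i, (fun z => ∑ x, b i x * u x z) =O[l] G) (x : X) : u x =O[l] G := by
  classical
  have hB : IsUnit (Matrix.of b) := (Matrix.linearIndependent_rows_iff_isUnit).1 hb
  have hdet : IsUnit (Matrix.of b).det := (Matrix.isUnit_iff_isUnit_det _).1 hB
  have key : ∀ z, u x z = ∑ i, (Matrix.of b)⁻¹ x i * ∑ y, b i y * u y z := by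
    intro z
    have := congrFun (Matrix.mulVec_mulVec (fun y => u y z) (Matrix.of b)⁻¹ (Matrix.of b)) x
    rw [Matrix.nonsing_inv_mul _ hdet, Matrix.one_mulVec] at this
    rw [← this]
    simp [Matrix.mulVec, dotProduct]
  have h1 : (fun z => ∑ i, (Matrix.of b)⁻¹ x i * ∑ y, b i y * u y z) =O[l] G := by
    have := IsBigO.sum (s := Finset.univ) (g := G) (l := l)
      (A := fun i z => (Matrix.of b)⁻¹ x i * ∑ y, b i y * u y z)
      fun i _ => (hu i).const_mul_left _
    refine this.congr_left fun z => ?_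
    simp
  exact h1.congr_left fun z => (key z).symm

theorem tr_levelOne_mul {k k' : ℤ} {a f : ℍ → ℂ} (ha : IsMF ⊤ (k - k') a)
    (x : SL(2, ℤ) ⧸ Γ) : tr k (a * f) x = a * tr k' f x := by
  have h1 : k = (k - k') + k' := by ring
  conv_lhs => rw [h1]
  rw [tr_mul, tr_levelOne ha]

theorem vadd_one_of_top {k : ℤ} {a : ℍ → ℂ} (ha : IsMF ⊤ k a) (z : ℍ) :
    a ((1 : ℝ) +ᵥ z) = a z := by
  have h1 := tr_vadd_one (Γ := ⊤) (k := k) (f := a) ha.2.1 ((1 : SL(2, ℤ)) : SL(2, ℤ) ⧸ _) z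
  rwa [tr_levelOne ha, tr_levelOne ha] at h1

/-- If a combination `∑ v_j e_j f_j` (with `e_j` of level one and limit `1`) has all its
conjugates `O(exp(-2π Im z))` then `v = 0`. -/
theorem eq_zero_of_decay {J : Type} [Fintype J] {wt : J → ℤ} {f : J → ℍ → ℂ}
    (h : IsFreeBasis Γ wt f) {k₀ : ℤ} {ee : J → ℍ → ℂ}
    (hee : ∀ j, IsMF ⊤ (k₀ - wt j) (ee j)) (hlim : ∀ j, Tendsto (ee j) atImInfty (𝓝 1))
    (v : J → ℂ)
    (hdecay : ∀ q : SL(2, ℤ) ⧸ Γ, (tr k₀ (∑ j, (v j • ee j) * f j) q) =O[atImInfty]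
      (fun z : ℍ => Real.exp (-2 * π * z.im))) :
    v = 0 := by
  have hg : IsMF Γ k₀ (∑ j, (v j • ee j) * f j) := IsMF.sum _ fun j _ =>
    ((((hee j).smul (v j)).of_top).mul (h.mem j)).cast (by ring)
  obtain ⟨hh, hhMF, hgeq⟩ := div_discriminant hg hdecay
  obtain ⟨c, hc, hheq⟩ := h.span _ _ hhMF
  have hrel : ∑ j, (v j • ee j - ModularForm.discriminant * c j) * f j = 0 := by
    simp only [sub_mul, Finset.sum_sub_distrib]
    rw [hgeq, hheq, Finset.mul_sum]
    simp [mul_assoc]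
  have hz := h.indep k₀ _ (fun j => ((hee j).smul (v j)).sub
    ((isCF_discriminant.isMF.mul (hc j)).cast (by ring))) hrel
  funext j
  obtain ⟨cj, hcj⟩ := levelOne_tendsto (hc j)
  have h1 : Tendsto (v j • ee j) atImInfty (𝓝 (v j • 1)) := (hlim j).const_smul (v j)
  have h2 : Tendsto (ModularForm.discriminant * c j) atImInfty (𝓝 (0 * cj)) :=
    Tendsto.mul discriminant_isZeroAtImInfty hcj
  have h3 : v j • ee j = ModularForm.discriminant * c j := sub_eq_zero.1 (hz j)
  rw [h3] at h1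
  simpa using tendsto_nhds_unique h1 h2


/-! ### Twisted combinations of a family permuted by `z ↦ z + 1` -/

/-- A finite family of holomorphic functions, bounded at `i∞`, permuted by `z ↦ z + 1`. -/
structure IsTFamily {X : Type} (σ : Equiv.Perm X) (u : X → ℍ → ℂ) : Prop where
  mdiff : ∀ x, MDiff (u x)
  bdd : ∀ x, IsBoundedAtImInfty (u x)
  vadd : ∀ x z, u x ((1 : ℝ) +ᵥ z) = u (σ⁻¹ x) z

theorem isTFamily_tr {k : ℤ} {f : ℍ → ℂ} (hf : IsMF Γ k f) :
    IsTFamily (MulAction.toPerm ModularGroup.T : Equiv.Perm (SL(2, ℤ) ⧸ Γ)) (tr k f) where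
  mdiff := hf.tr_mdiff
  bdd := hf.tr_bdd
  vadd := fun x z => by
    rw [tr_vadd_one hf.2.1]
    rfl

/-- `exp(-2π i t z) ∑ₓ β(x) uₓ(z)`. -/
noncomputable def twist {X : Type} [Fintype X] (β : X → ℂ) (t : ℝ) (u : X → ℍ → ℂ) : ℍ → ℂ :=
  fun z => eexp (-t) z * ∑ x, β x * u x z

section twist

variable {X : Type} [Fintype X] {σ : Equiv.Perm X} {u : X → ℍ → ℂ} {β : X → ℂ} {t : ℝ}

theorem IsTFamily.comb_mdiff (hu : IsTFamily σ u) (β : X → ℂ) :
    MDiff (fun z => ∑ x, β x * u x z) := by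
  have h1 : MDiff (∑ x, β x • u x) := MDifferentiable.sum fun x _ => (hu.mdiff x).const_smul _
  have h2 : (∑ x, β x • u x) = fun z => ∑ x, β x * u x z := by
    funext z
    simp
  rwa [h2] at h1

theorem IsTFamily.comb_bdd (hu : IsTFamily σ u) (β : X → ℂ) :
    IsBoundedAtImInfty (fun z => ∑ x, β x * u x z) := by
  have h1 := IsBigO.sum (s := Finset.univ) (g := (1 : ℍ → ℝ)) (l := atImInfty)
      (A := fun x z => β x * u x z) fun x _ => (hu.bdd x).const_mul_left _
  refine h1.congr_left fun z => ?_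
  simp

theorem IsTFamily.comb_vadd (hu : IsTFamily σ u) {c : ℂ} (hβ : ∀ x, β (σ x) = c * β x) (z : ℍ) :
    ∑ x, β x * u x ((1 : ℝ) +ᵥ z) = c * ∑ x, β x * u x z := by
  rw [← Equiv.sum_comp σ, Finset.mul_sum]
  refine Finset.sum_congr rfl fun x _ => ?_
  rw [hu.vadd, hβ, Equiv.Perm.inv_def, Equiv.symm_apply_apply, mul_assoc]

theorem IsTFamily.twist_mdiff (hu : IsTFamily σ u) (β : X → ℂ) (t : ℝ) : MDiff (twist β t u) :=
  (mdiff_eexp (-t)).mul (hu.comb_mdiff β)

theorem IsTFamily.twist_vadd (hu : IsTFamily σ u)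
    (hβ : ∀ x, β (σ x) = Complex.exp (2 * π * Complex.I * t) * β x) (z : ℍ) :
    twist β t u ((1 : ℝ) +ᵥ z) = twist β t u z := by
  unfold twist
  rw [hu.comb_vadd hβ, eexp_vadd_one]
  have h1 : Complex.exp (2 * π * Complex.I * ((-t : ℝ) : ℂ)) * Complex.exp (2 * π * Complex.I * t)
      = 1 := by
    rw [← Complex.exp_add]
    simp
  linear_combination (eexp (-t) z * ∑ x, β x * u x z) * h1

theorem IsTFamily.twist_bdd (hu : IsTFamily σ u)
    (hβ : ∀ x, β (σ x) = Complex.exp (2 * π * Complex.I * t) * β x) (ht : t < 1) :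
    IsBoundedAtImInfty (twist β t u) := by
  refine isBoundedAtImInfty_of_periodic_of_growth (hu.twist_mdiff β t) (hu.twist_vadd hβ) ht ?_
  have hE : (eexp (-t)) =O[atImInfty] fun z : ℍ => Real.exp (-2 * π * (-t) * z.im) :=
    IsBigO.of_norm_left (by
      simp_rw [norm_eexp]
      exact isBigO_refl _ _)
  refine (hE.mul (hu.comb_bdd β)).congr_right fun z => ?_
  simp

theorem IsTFamily.twist_tendsto (hu : IsTFamily σ u)
    (hβ : ∀ x, β (σ x) = Complex.exp (2 * π * Complex.I * t) * β x) (ht : t < 1) :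
    ∃ c : ℂ, Tendsto (twist β t u) atImInfty (𝓝 c) :=
  tendsto_of_periodic_of_bounded (hu.twist_mdiff β t) (hu.twist_vadd hβ) (hu.twist_bdd hβ ht)

theorem eexp_mul_twist (β : X → ℂ) (t : ℝ) (u : X → ℍ → ℂ) (z : ℍ) :
    eexp t z * twist β t u z = ∑ x, β x * u x z := by
  unfold twist
  rw [← mul_assoc, mul_comm (eexp t z), eexp_neg_mul, one_mul]

end twist

/-- The determinant computation at `i∞`. -/
theorem weight_eq_of_det {J : Type} [Fintype J] [DecidableEq J] {F : ℍ → Matrix J J ℂ}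
    {B L : Matrix J J ℂ} (hB : B.det ≠ 0) (hL : L.det ≠ 0) {t : J → ℝ}
    (hlim : ∀ i j, Tendsto (fun z => eexp (-(t i)) z * ∑ l, B i l * F z l j) atImInfty (𝓝 (L i j)))
    {c : ℂ} (hc : c ≠ 0) {K : ℤ}
    (hdet : ∀ z : ℍ, (F z).det ^ 12 = c * ModularForm.discriminant z ^ K) :
    (K : ℝ) = 12 * ∑ i, t i := by
  set Ψ : ℍ → Matrix J J ℂ := fun z => Matrix.diagonal (fun i => eexp (-(t i)) z) * (B * F z)
    with hΨ
  have hΨlim : Tendsto Ψ atImInfty (𝓝 L) := by
    refine tendsto_pi_nhds.2 fun i => tendsto_pi_nhds.2 fun j => ?_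
    refine (hlim i j).congr fun z => ?_
    simp only [hΨ]
    rw [Matrix.diagonal_mul, Matrix.mul_apply]
  have hdetlim : Tendsto (fun z => (Ψ z).det ^ 12) atImInfty (𝓝 (L.det ^ 12)) :=
    (((continuous_id.matrix_det).tendsto L).comp hΨlim).pow 12
  set P : ℍ → ℂ := fun z => ∏' n, (1 - eta_q n z) ^ 24 with hP
  have hPlim : Tendsto P atImInfty (𝓝 1) := tendsto_atImInfty_tprod_one_sub_eta_q_pow
  have hΔ : ∀ z, ModularForm.discriminant z = eexp 1 z * P z := fun z => by
    rw [discriminant_eq_q_prod, eexp_one_eq]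
  have hPne : ∀ z, P z ≠ 0 := fun z hz => discriminant_ne_zero z (by rw [hΔ, hz, mul_zero])
  have hPK : Tendsto (fun z => B.det ^ 12 * c * P z ^ K) atImInfty (𝓝 (B.det ^ 12 * c * 1 ^ K)) :=
    (hPlim.zpow₀ K (Or.inl one_ne_zero)).const_mul _
  have hne : B.det ^ 12 * c * 1 ^ K ≠ 0 := by
    simp [hB, hc]
  have key : ∀ z, eexp ((K : ℝ) - 12 * ∑ i, t i) z = (Ψ z).det ^ 12 / (B.det ^ 12 * c * P z ^ K) := by
    intro z
    have h1 : (Ψ z).det = eexp (-∑ i, t i) z * (B.det * (F z).det) := by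
      simp only [hΨ, Matrix.det_mul, Matrix.det_diagonal]
      rw [← eexp_sum, Finset.sum_neg_distrib]
    have h2 : B.det ^ 12 * c * P z ^ K ≠ 0 :=
      mul_ne_zero (mul_ne_zero (pow_ne_zero _ hB) hc) (zpow_ne_zero _ (hPne z))
    rw [eq_div_iff h2, h1, mul_pow, mul_pow, hdet, hΔ, mul_zpow, eexp_zpow, eexp_pow,
      sub_eq_add_neg, eexp_add]
    have h3 : ((12 : ℕ) : ℝ) * -∑ i, t i = -(12 * ∑ i, t i) := by push_cast; ring
    rw [h3, mul_one]
    ring
  have hfin : Tendsto (eexp ((K : ℝ) - 12 * ∑ i, t i)) atImInfty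
      (𝓝 (L.det ^ 12 / (B.det ^ 12 * c * 1 ^ K))) :=
    (hdetlim.div hPK hne).congr fun z => (key z).symm
  have := eq_zero_of_tendsto_eexp (div_ne_zero (pow_ne_zero _ hL) hne) hfin
  linarith


end Infty

/-- Main statement of A6.
Let `σ = toPerm T` on `X`, `m = orderOf σ`, `(b_i, r_i)` from `exists_eigenbasis`.
`φ_{i j}(z) = ∑_x b_i(x) tr (f j) x z` satisfies `φ_{ij}(z+1) = ζ^{r_i} φ_{ij}(z)`
(`tr_vadd_one`), so `ψ_{ij} = exp(-2π i r_i z / m) φ_{ij}` is `1`-periodic, bounded, with a limit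
`L_{ij}`. `det ψ = const * det F * exp(-2π i z ∑ r_i / m)` and `(det F)^12 = c Δ^K`, `Δ ~ q`.
(1) `det L ≠ 0`: otherwise `L v = 0`, `v ≠ 0`; `g = ∑_j v_j e_j f_j` (`e_j` level one of weight
`k₀ - wt j`, limit `1`) has all conjugates `O(exp(-2π Im z))`, so `g = Δ h` by `div_discriminant`,
`h = ∑ h_j f_j`, and `indep` gives `v_j e_j = Δ h_j`, so `v_j = 0` (limits).
(2) hence `q^{K - 12 ∑ r_i / m}` has a finite nonzero limit, so `K = 12 ∑ r_i/m = 6 (μ - d0 T)`. -/
theorem IsFreeBasis.sum_wt (hΓ : Good Γ) {J : Type} [Fintype J] {wt : J → ℤ}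
    {f : J → ℍ → ℂ} (h : IsFreeBasis Γ wt f) :
    ∑ j, wt j = 6 * ((Γ.index : ℤ) - d0 Γ ModularGroup.T) := by
  classical
  have := hΓ.finiteIndex
  have hcard : Fintype.card J = Fintype.card (SL(2, ℤ) ⧸ Γ) := by
    rw [h.card_eq hΓ, Subgroup.index_eq_card, Nat.card_eq_fintype_card]
  let e : J ≃ SL(2, ℤ) ⧸ Γ := Fintype.equivOfCardEq hcard
  set σ : Equiv.Perm (SL(2, ℤ) ⧸ Γ) := MulAction.toPerm ModularGroup.T with hσ
  have hm : 0 < orderOf σ := orderOf_pos σ
  obtain ⟨b, r, hb, hr, hbσ, hsum⟩ := exists_eigenbasis σ (orderOf σ) hm (pow_orderOf_eq_one σ)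
  set m := orderOf σ with hmdef
  have hmR : (0 : ℝ) < m := by exact_mod_cast hm
  set t : (SL(2, ℤ) ⧸ Γ) → ℝ := fun i => (r i : ℝ) / m with ht
  have ht1 : ∀ i, t i < 1 := fun i => by
    simp only [ht]
    rw [div_lt_one hmR]
    exact_mod_cast hr i
  have ht0 : ∀ i, 0 ≤ t i := fun i => by
    simp only [ht]
    positivity
  have hbt : ∀ i x, b i (σ x) = Complex.exp (2 * π * Complex.I * (t i : ℂ)) * b i x := by
    intro i x
    rw [hbσ]
    congr 2
    simp only [ht]
    push_cast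
    ring
  have hfam : ∀ j, IsTFamily σ (tr (wt j) (f j)) := fun j => isTFamily_tr (h.mem j)
  choose L hL using fun (i : SL(2, ℤ) ⧸ Γ) (j : J) => (hfam j).twist_tendsto (hbt i) (ht1 i)
  -- Step 1: the limit matrix is injective
  have hinj : ∀ v : J → ℂ, (∀ i, ∑ j, L i j * v j = 0) → v = 0 := by
    intro v hv
    have hwt0 : ∀ j, 0 ≤ wt j := h.isIndepFamily.wt_nonneg hΓ
    have hwte : ∀ j, Even (wt j) := h.isIndepFamily.wt_even hΓ
    set k₀ : ℤ := ∑ j, wt j + 4 with hk₀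
    have hk1 : ∀ j, Even (k₀ - wt j) := fun j => by
      have h1 : Even (∑ j, wt j) := Finset.even_sum _ fun j _ => hwte j
      exact (h1.add (by decide)).sub (hwte j)
    have hk2 : ∀ j, 4 ≤ k₀ - wt j := fun j => by
      have := Finset.single_le_sum (fun i _ => hwt0 i) (Finset.mem_univ j)
      omega
    choose ee hee hlim using fun j => exists_levelOne_tendsto_one (hk1 j) (hk2 j)
    refine eq_zero_of_decay h hee hlim v ?_
    refine isBigO_of_comb hb fun i => ?_
    set χ : ℍ → ℂ := ∑ j, (v j • ee j) * twist (b i) (t i) (tr (wt j) (f j)) with hχ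
    have hχapp : ∀ z, χ z = ∑ j, (v j * ee j z) * twist (b i) (t i) (tr (wt j) (f j)) z := by
      intro z
      simp [hχ, Finset.sum_apply, mul_assoc]
    have hχeq : ∀ z, ∑ x, b i x * tr k₀ (∑ j, (v j • ee j) * f j) x z = eexp (t i) z * χ z := by
      intro z
      have h1 : ∀ x : SL(2, ℤ) ⧸ Γ, tr k₀ (∑ j, (v j • ee j) * f j) x z
          = ∑ j, (v j * ee j z) * tr (wt j) (f j) x z := by
        intro x
        rw [tr_sum, Finset.sum_apply]
        refine Finset.sum_congr rfl fun j _ => ?_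
        rw [tr_levelOne_mul ((hee j).smul (v j))]
        simp
      simp only [hχapp, h1, Finset.mul_sum]
      rw [Finset.sum_comm]
      refine Finset.sum_congr rfl fun j _ => ?_
      rw [mul_left_comm, eexp_mul_twist, Finset.mul_sum]
      refine Finset.sum_congr rfl fun x _ => ?_
      ring
    have hχmd : MDiff χ := MDifferentiable.sum fun j _ =>
      ((hee j).mdiff.const_smul (v j)).mul ((hfam j).twist_mdiff _ _)
    have hχper : ∀ z : ℍ, χ ((1 : ℝ) +ᵥ z) = χ z := by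
      intro z
      rw [hχapp, hχapp]
      refine Finset.sum_congr rfl fun j _ => ?_
      rw [vadd_one_of_top (hee j), (hfam j).twist_vadd (hbt i)]
    have hχlim : Tendsto χ atImInfty (𝓝 0) := by
      have h1 : Tendsto (fun z => ∑ j, (v j * ee j z) * twist (b i) (t i) (tr (wt j) (f j)) z)
          atImInfty (𝓝 (∑ j, (v j * 1) * L i j)) :=
        tendsto_finsetSum _ fun j _ => ((hlim j).const_mul (v j)).mul (hL i j)
      have h2 : ∑ j, (v j * 1) * L i j = 0 := by
        rw [← hv i]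
        refine Finset.sum_congr rfl fun j _ => ?_
        ring
      rw [h2] at h1
      exact h1.congr fun z => (hχapp z).symm
    have hχO := isBigO_exp_of_periodic_of_tendsto_zero hχmd hχper hχlim
    have hE : (eexp (t i)) =O[atImInfty] (fun _ : ℍ => (1 : ℝ)) := by
      refine IsBigO.of_bound 1 (Eventually.of_forall fun z => ?_)
      rw [norm_eexp]
      simp only [norm_one, mul_one, Real.exp_le_one_iff]
      have := ht0 i
      have := z.im_pos
      have := Real.pi_pos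
      have : 0 ≤ 2 * π * t i * z.im := by positivity
      linarith
    exact (hE.mul hχO).congr (fun z => (hχeq z).symm) (fun z => by simp)
  have hdetL : (Matrix.of fun i j : J => L (e i) j).det ≠ 0 := by
    intro h0
    obtain ⟨v, hv, hv0⟩ := Matrix.exists_mulVec_eq_zero_iff.2 h0
    refine hv (hinj v fun i => ?_)
    have := congrFun hv0 (e.symm i)
    simpa [Matrix.mulVec, dotProduct] using this
  have hdetB : (Matrix.of fun i l : J => b (e i) (e l)).det ≠ 0 := by
    have hB : IsUnit (Matrix.of b) := (Matrix.linearIndependent_rows_iff_isUnit).1 hb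
    have hdet : IsUnit (Matrix.of b).det := (Matrix.isUnit_iff_isUnit_det _).1 hB
    have h1 : (Matrix.of fun i l : J => b (e i) (e l)) = (Matrix.of b).submatrix e e := rfl
    rw [h1, Matrix.det_submatrix_equiv_self]
    exact hdet.ne_zero
  obtain ⟨c, hc, hdet⟩ := h.det_pow_eq hΓ e
  have hK := weight_eq_of_det (F := Fmat wt f e) hdetB hdetL (t := fun i => t (e i))
    (fun i j => by
      refine (hL (e i) j).congr fun z => ?_
      unfold twist
      rw [← Equiv.sum_comp e]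
      rfl) hc hdet
  rw [Equiv.sum_comp e t] at hK
  simp only [ht] at hK
  rw [← Finset.sum_div] at hK
  have hsumR : 2 * (∑ i, (r i : ℝ)) + m * (d0 Γ ModularGroup.T : ℝ) = m * (Γ.index : ℝ) := by
    have h1 : Γ.index = Fintype.card (SL(2, ℤ) ⧸ Γ) := by
      rw [Subgroup.index_eq_card, Nat.card_eq_fintype_card]
    rw [h1]
    unfold d0
    exact_mod_cast hsum
  have hfinal : ((∑ j, wt j : ℤ) : ℝ) = 6 * ((Γ.index : ℝ) - (d0 Γ ModularGroup.T : ℝ)) := by
    rw [hK]
    field_simp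
    linarith
  exact_mod_cast hfinal

end Fermat.Agent.ES
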