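import Fermat.Agent.ES.LevelOne

/-!
# End-game lemma for task A6: comparison of `Δ ^ K` with an exponential at `i∞`.
-/

set_option autoImplicit false

namespace Fermat.Agent.ES

open UpperHalfPlane ModularForm Filter Topology Asymptotics
open scoped MatrixGroups Manifold ModularForm Real

theorem tendsto_im_atImInfty : Tendsto (fun z : ℍ => z.im) atImInfty atTop :=
  tendsto_comap

/-- `exp (a * Im z)` has a positive finite limit at `i∞` only if `a = 0`. -/
theorem eq_zero_of_tendsto_exp_mul_im {a l : ℝ} (hl : 0 < l)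
    (h : Tendsto (fun z : ℍ => Real.exp (a * z.im)) atImInfty (𝓝 l)) : a = 0 := by
  rcases lt_trichotomy a 0 with ha | ha | ha
  · exfalso
    have h1 : Tendsto (fun z : ℍ => a * z.im) atImInfty atBot :=
      tendsto_im_atImInfty.const_mul_atTop_of_neg ha
    have h2 : Tendsto (fun z : ℍ => Real.exp (a * z.im)) atImInfty (𝓝 0) :=
      Real.tendsto_exp_atBot.comp h1
    exact hl.ne (tendsto_nhds_unique h2 h)
  · exact ha
  · exfalso
    have h1 : Tendsto (fun z : ℍ => a * z.im) atImInfty atTop :=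
      tendsto_im_atImInfty.const_mul_atTop ha
    have h2 : Tendsto (fun z : ℍ => Real.exp (a * z.im)) atImInfty atTop :=
      Real.tendsto_exp_atTop.comp h1
    exact not_tendsto_nhds_of_tendsto_atTop h2 l h

theorem real_exp_zpow (x : ℝ) (K : ℤ) : Real.exp x ^ K = Real.exp ((K : ℝ) * x) := by
  rw [mul_comm, Real.exp_mul, Real.rpow_intCast]

theorem norm_discriminant_eq (z : ℍ) :
    ‖discriminant z‖ = Real.exp (-2 * π * z.im) * ‖∏' n, (1 - eta_q n z) ^ 24‖ := by
  rw [discriminant_eq_q_prod, norm_mul]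
  congr 1
  simp [Function.Periodic.qParam, Complex.norm_exp]

theorem tendsto_discriminant_div_q :
    Tendsto (fun z : ℍ => discriminant z / Complex.exp (2 * π * Complex.I * z)) atImInfty
      (𝓝 1) := by
  refine tendsto_atImInfty_tprod_one_sub_eta_q_pow.congr fun z => ?_
  rw [discriminant_eq_q_prod]
  have : Function.Periodic.qParam 1 (z : ℂ) = Complex.exp (2 * π * Complex.I * z) := by
    simp [Function.Periodic.qParam]
  rw [this, mul_div_cancel_left₀ _ (Complex.exp_ne_zero _)]

/-- If `c Δ^K exp(-2π i s z)` has a finite nonzero limit at `i∞`, then `K = s`. -/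
theorem eq_of_tendsto_discriminant_zpow_mul_exp {K : ℤ} {s : ℝ} {c l : ℂ} (hc : c ≠ 0)
    (hl : l ≠ 0)
    (h : Tendsto (fun z : ℍ => c * discriminant z ^ K * Complex.exp (-(2 * π * Complex.I * s * z)))
      atImInfty (𝓝 l)) : (K : ℝ) = s := by
  have hP : Tendsto (fun z : ℍ => ‖∏' n, (1 - eta_q n z) ^ 24‖ ^ K) atImInfty (𝓝 1) := by
    have h1 := tendsto_atImInfty_tprod_one_sub_eta_q_pow.norm
    rw [norm_one] at h1
    have h2 := h1.zpow₀ K (Or.inl one_ne_zero)
    rwa [one_zpow] at h2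
  have hn := h.norm
  have hP0 : ∀ z : ℍ, ‖∏' n, (1 - eta_q n z) ^ 24‖ ≠ 0 := by
    intro z h0
    have := norm_discriminant_eq z
    rw [h0, mul_zero, norm_eq_zero] at this
    exact discriminant_ne_zero z this
  have key : ∀ z : ℍ, Real.exp ((2 * π * (s - K)) * z.im)
      = ‖c * discriminant z ^ K * Complex.exp (-(2 * π * Complex.I * s * z))‖
        / (‖c‖ * ‖∏' n, (1 - eta_q n z) ^ 24‖ ^ K) := by
    intro z
    rw [norm_mul, norm_mul, norm_zpow, norm_discriminant_eq, mul_zpow, Complex.norm_exp,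
      real_exp_zpow]
    have hre : (-(2 * π * Complex.I * s * z) : ℂ).re = 2 * π * s * z.im := by
      simp [Complex.mul_re, Complex.mul_im]
    rw [hre]
    have h1 : ‖c‖ ≠ 0 := norm_ne_zero_iff.mpr hc
    have h2 : ‖∏' n, (1 - eta_q n z) ^ 24‖ ^ K ≠ 0 := zpow_ne_zero _ (hP0 z)
    rw [eq_div_iff (mul_ne_zero h1 h2)]
    have h3 : Real.exp (2 * π * (s - K) * z.im)
        = Real.exp ((K : ℝ) * (-2 * π * z.im)) * Real.exp (2 * π * s * z.im) := by
      rw [← Real.exp_add]; congr 1; ring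
    rw [h3]; ring
  have hlim : Tendsto (fun z : ℍ => Real.exp ((2 * π * (s - K)) * z.im)) atImInfty
      (𝓝 (‖l‖ / (‖c‖ * 1))) := by
    refine Tendsto.congr (fun z => (key z).symm) ?_
    exact hn.div (tendsto_const_nhds.mul hP) (by simpa using hc)
  have hpos : 0 < ‖l‖ / (‖c‖ * 1) := by
    have h1 : 0 < ‖c‖ := norm_pos_iff.mpr hc
    have h2 : 0 < ‖l‖ := norm_pos_iff.mpr hl
    positivity
  have h0 := eq_zero_of_tendsto_exp_mul_im hpos hlim
  have hpi : (2 * π : ℝ) ≠ 0 := by positivity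
  have := (mul_eq_zero.mp h0).resolve_left hpi
  linarith

end Fermat.Agent.ES
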