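import Fermat.Agent.ES.Basic

/-!
# Task A2: level one facts (owner: see team DB)
All from Mathlib `NumberTheory/ModularForms/LevelOne/*`, `Discriminant`, `EisensteinSeries/*`.
-/

set_option autoImplicit false

namespace Fermat.Agent.ES

open UpperHalfPlane ModularForm Filter Topology
open scoped MatrixGroups Manifold ModularForm

variable {k : ℤ} {f : ℍ → ℂ}

theorem isMF_E₄ : IsMF ⊤ 4 (E₄ : ℍ → ℂ) := isMF_top_coe _
theorem isMF_E₆ : IsMF ⊤ 6 (E₆ : ℍ → ℂ) := isMF_top_coe _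
theorem isCF_discriminant : IsCF ⊤ 12 ModularForm.discriminant :=
  isCF_top_coe CuspForm.discriminant

/-- A bundled level one form tends to the constant coefficient of its `q`-expansion. -/
theorem tendsto_coeff_zero (F : ModularForm 𝒮ℒ k) :
    Tendsto (F : ℍ → ℂ) atImInfty (𝓝 ((qExpansion 1 F).coeff 0)) := by
  have hper := SlashInvariantFormClass.periodic_comp_ofComplex F one_mem_strictPeriods_SL
  have han := ModularFormClass.analyticAt_cuspFunction_zero F one_pos one_mem_strictPeriods_SL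
  have h0 : (qExpansion 1 F).coeff 0 = cuspFunction 1 F 0 := by
    rw [qExpansion_coeff_zero one_pos han hper, cuspFunction_apply_zero one_pos han hper]
  have hcomp : (cuspFunction 1 F ∘ fun τ : ℍ ↦ Function.Periodic.qParam 1 τ : ℍ → ℂ) = F := by
    funext τ
    simpa using eq_cuspFunction τ one_ne_zero hper
  rw [h0]
  simpa [hcomp] using han.continuousAt.tendsto.comp (qParam_tendsto_atImInfty one_pos)

theorem tendsto_E {n : ℕ} (hn : 3 ≤ n) (he : Even n) :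
    Tendsto (E hn : ℍ → ℂ) atImInfty (𝓝 1) := by
  simpa [EisensteinSeries.E_qExpansion_coeff_zero hn he] using tendsto_coeff_zero (E hn)

theorem tendsto_E₄ : Tendsto (E₄ : ℍ → ℂ) atImInfty (𝓝 1) := tendsto_E _ ⟨2, rfl⟩
theorem tendsto_E₆ : Tendsto (E₆ : ℍ → ℂ) atImInfty (𝓝 1) := tendsto_E _ ⟨3, rfl⟩

/-- `M_2(SL(2,ℤ)) = 0` (Mathlib: `levelOne_weight_two_rank_zero`). -/
theorem levelOne_weight_two (hf : IsMF ⊤ 2 f) : f = 0 := by
  have h := rank_zero_iff_forall_zero.mp levelOne_weight_two_rank_zero hf.toLevelOne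
  simpa using congrArg (fun F : ModularForm 𝒮ℒ 2 => (F : ℍ → ℂ)) h

/-- A level one form with limit `0` at `i∞` is a cusp form. -/
theorem isCF_top_of_tendsto (hf : IsMF ⊤ k f) (h0 : Tendsto f atImInfty (𝓝 0)) : IsCF ⊤ k f :=
  ⟨hf.1, hf.2.1, fun γ => by rw [hf.slash γ]; exact h0⟩

/-- A level one form has a limit at `i∞`. -/
theorem levelOne_tendsto (hf : IsMF ⊤ k f) : ∃ c : ℂ, Tendsto f atImInfty (𝓝 c) :=
  ⟨_, tendsto_coeff_zero hf.toLevelOne⟩

/-- Level one cusp forms are multiples of `Δ` (Mathlib: `CuspForm.discriminantEquiv`). -/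
theorem levelOne_cusp_eq_discriminant_mul (hf : IsCF ⊤ k f) :
    ∃ g, IsMF ⊤ (k - 12) g ∧ f = ModularForm.discriminant * g :=
  ⟨_, isMF_top_coe (CuspForm.discriminantEquiv hf.toLevelOne),
    (discriminant_mul_discriminantEquiv hf.toLevelOne).symm⟩

/-- For even `k ≥ 4` there is a level one form (a monomial `E₄^a E₆^b`) with limit `1`,
lying in the ideal `(E₄, E₆)`. -/
theorem exists_levelOne_tendsto_one (hk : Even k) (hk4 : 4 ≤ k) :
    ∃ e : ℍ → ℂ, IsMF ⊤ k e ∧ Tendsto e atImInfty (𝓝 1) := by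
  lift k to ℕ using by omega
  have h3 : 3 ≤ k := by omega
  exact ⟨E h3, isMF_top_coe _, tendsto_E h3 (by exact_mod_cast hk)⟩

theorem neg_one_mem_top : (-1 : SL(2, ℤ)) ∈ (⊤ : Subgroup SL(2, ℤ)) := Subgroup.mem_top _

/-- `E₄` and `E₆` have no common zero: `1728 Δ = E₄^3 - E₆^2`, `Δ ≠ 0`. -/
theorem discriminant_eq (z : ℍ) :
    1728 * ModularForm.discriminant z = (E₄ z) ^ 3 - (E₆ z) ^ 2 := by
  rw [ModularForm.discriminant_eq_E₄_cube_sub_E₆_sq]; ring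

/-- `M_k(SL(2,ℤ)) = E₄ M_{k-4} + E₆ M_{k-6}` for `k ≠ 0`.
Proof: `k < 0` or odd or `k = 2`: `f = 0`. Otherwise subtract `f(∞) E₄^a E₆^b`, the rest is
`Δ g = (E₄^3 - E₆^2) g / 1728`. -/
theorem levelOne_decomp (hk : k ≠ 0) (hf : IsMF ⊤ k f) :
    ∃ a b : ℍ → ℂ, IsMF ⊤ (k - 4) a ∧ IsMF ⊤ (k - 6) b ∧
      f = (E₄ : ℍ → ℂ) * a + (E₆ : ℍ → ℂ) * b := by
  have hzero : f = 0 → ∃ a b : ℍ → ℂ, IsMF ⊤ (k - 4) a ∧ IsMF ⊤ (k - 6) b ∧
      f = (E₄ : ℍ → ℂ) * a + (E₆ : ℍ → ℂ) * b := by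
    rintro rfl
    exact ⟨0, 0, IsMF.zero, IsMF.zero, by simp⟩
  rcases lt_or_ge k 0 with hneg | hpos
  · exact hzero (hf.eq_zero_of_neg hneg)
  rcases Int.even_or_odd k with he | ho
  swap
  · exact hzero (hf.eq_zero_of_odd neg_one_mem_top ho)
  by_cases h2 : k = 2
  · subst h2
    exact hzero (levelOne_weight_two hf)
  have h4 : 4 ≤ k := by
    obtain ⟨r, hr⟩ := he
    omega
  -- a form `e = E₄ a₀ + E₆ b₀` of weight `k` with limit `1`
  obtain ⟨a₀, b₀, ha₀, hb₀, he₀⟩ : ∃ a₀ b₀ : ℍ → ℂ, IsMF ⊤ (k - 4) a₀ ∧ IsMF ⊤ (k - 6) b₀ ∧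
      Tendsto ((E₄ : ℍ → ℂ) * a₀ + (E₆ : ℍ → ℂ) * b₀) atImInfty (𝓝 1) := by
    by_cases h6 : k = 6
    · subst h6
      refine ⟨0, fun _ => 1, IsMF.zero, IsMF.const 1, ?_⟩
      have : (E₄ : ℍ → ℂ) * 0 + (E₆ : ℍ → ℂ) * (fun _ => (1 : ℂ)) = (E₆ : ℍ → ℂ) := by
        funext z; simp
      rw [this]; exact tendsto_E₆
    by_cases h4' : k = 4
    · subst h4'
      refine ⟨fun _ => 1, 0, IsMF.const 1, IsMF.zero, ?_⟩
      have : (E₄ : ℍ → ℂ) * (fun _ => (1 : ℂ)) + (E₆ : ℍ → ℂ) * 0 = (E₄ : ℍ → ℂ) := by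
        funext z; simp
      rw [this]; exact tendsto_E₄
    · have h8 : 4 ≤ k - 4 := by
        obtain ⟨r, hr⟩ := he
        omega
      obtain ⟨e, he1, he2⟩ := exists_levelOne_tendsto_one (k := k - 4) (by
        obtain ⟨r, hr⟩ := he
        exact ⟨r - 2, by omega⟩) h8
      refine ⟨e, 0, he1, IsMF.zero, ?_⟩
      have : (E₄ : ℍ → ℂ) * e + (E₆ : ℍ → ℂ) * 0 = (E₄ : ℍ → ℂ) * e := by
        funext z; simp
      rw [this]
      have h := tendsto_E₄.mul he2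
      rw [mul_one] at h
      exact h
  obtain ⟨c, hc⟩ := levelOne_tendsto hf
  set e : ℍ → ℂ := (E₄ : ℍ → ℂ) * a₀ + (E₆ : ℍ → ℂ) * b₀ with he_def
  have heMF : IsMF ⊤ k e :=
    ((isMF_E₄.mul ha₀).cast (by ring)).add ((isMF_E₆.mul hb₀).cast (by ring))
  have hcusp : IsCF ⊤ k (f - c • e) := by
    refine isCF_top_of_tendsto (hf.sub (heMF.smul c)) ?_
    have := hc.sub (he₀.const_smul c)
    rw [smul_eq_mul, mul_one, sub_self] at this
    exact this
  obtain ⟨g, hg, hfg⟩ := levelOne_cusp_eq_discriminant_mul hcusp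
  refine ⟨c • a₀ + (1 / 1728 : ℂ) • ((E₄ : ℍ → ℂ) * (E₄ : ℍ → ℂ) * g),
    c • b₀ - (1 / 1728 : ℂ) • ((E₆ : ℍ → ℂ) * g), ?_, ?_, ?_⟩
  · exact (ha₀.smul c).add ((((isMF_E₄.mul isMF_E₄).mul hg).cast (by ring)).smul _)
  · exact (hb₀.smul c).sub (((isMF_E₆.mul hg).cast (by ring)).smul _)
  · funext z
    have h1 := congrFun hfg z
    have h2 := discriminant_eq z
    simp only [Pi.sub_apply, Pi.smul_apply, Pi.mul_apply, Pi.add_apply, smul_eq_mul, he_def]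
      at h1 ⊢
    linear_combination h1 + (g z / 1728) * h2

/-- `MF ⊤ k ≃ ModularForm 𝒮ℒ k`. -/
noncomputable def levelOneEquiv (k : ℤ) : ModularForm 𝒮ℒ k ≃ₗ[ℂ] MF ⊤ k where
  toFun F := ⟨F, isMF_top_coe F⟩
  map_add' _ _ := rfl
  map_smul' _ _ := rfl
  invFun f := IsMF.toLevelOne f.2
  left_inv _ := rfl
  right_inv _ := rfl

theorem finite_MF_top (k : ℤ) : Module.Finite ℂ (MF ⊤ k) :=
  Module.Finite.equiv (levelOneEquiv k)

/-- Exact level one dimension for even natural weight. -/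
theorem finrank_MF_top (k : ℕ) (hk : Even k) :
    Module.finrank ℂ (MF ⊤ (k : ℤ)) = if k ≡ 2 [MOD 12] then k / 12 else k / 12 + 1 := by
  rw [← (levelOneEquiv (k : ℤ)).finrank_eq]
  have h := dimension_level_one k hk
  apply Module.finrank_eq_of_rank_eq
  rw [h]

/-- Lower bound for the level one dimension (from `ModularForm.dimension_level_one`). -/
theorem finrank_MF_top_ge (k : ℕ) (hk : Even k) : k / 12 ≤ Module.finrank ℂ (MF ⊤ (k : ℤ)) := by
  rw [finrank_MF_top k hk]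
  split_ifs <;> omega

end Fermat.Agent.ES
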