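import Mathlib
import Fermat.Prelude.Def_ModularCurve_PeriodMap

set_option autoImplicit false

open scoped MatrixGroups
open ModularCurve.Period

namespace Fermat.Agent.ES.ParabolicBound

section Algebra

variable {V : Type*} [AddCommGroup V] [Module ℂ V]

/-- If `R ^ m = 1` and the norm of `u` vanishes then `u` lies in the range of `1 - R`. -/
theorem exists_sub_of_sum_pow_eq_zero (R : V →ₗ[ℂ] V) {m : ℕ} (hm : 0 < m) (hR : R ^ m = 1)
    (u : V) (hu : ∑ i ∈ Finset.range m, (R ^ i) u = 0) : ∃ y : V, u = y - R y := by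
  refine ⟨-((m : ℂ)⁻¹ • ∑ i ∈ Finset.range m, (i : ℂ) • (R ^ i) u), ?_⟩
  have hm0 : (m : ℂ) ≠ 0 := Nat.cast_ne_zero.mpr hm.ne'
  have key : ∀ n : ℕ, (∑ i ∈ Finset.range n, (i : ℂ) • (R ^ i) u)
      - R (∑ i ∈ Finset.range n, (i : ℂ) • (R ^ i) u)
      = (∑ i ∈ Finset.range n, (R ^ i) u) - (n : ℂ) • (R ^ n) u
        - (if n = 0 then 0 else u - (R ^ n) u) := by
    intro n
    induction n with
    | zero => simp
    | succ n ih =>
      rw [Finset.sum_range_succ, Finset.sum_range_succ, map_add, add_sub_add_comm, ih]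
      have h1 : R ((n : ℂ) • (R ^ n) u) = (n : ℂ) • (R ^ (n + 1)) u := by
        rw [map_smul, pow_succ', Module.End.mul_apply]
      rw [h1]
      by_cases hn : n = 0
      · subst hn; simp
      · simp only [hn, if_false, Nat.succ_ne_zero, Nat.cast_succ, add_smul, one_smul]
        abel
  have h := key m
  rw [hu, hR, if_neg hm.ne'] at h
  simp only [Module.End.one_apply, sub_self, sub_zero, zero_sub] at h
  rw [map_neg, map_smul, neg_sub_neg, ← smul_sub, ← neg_sub, h, neg_neg, smul_smul,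
    inv_mul_cancel₀ hm0, one_smul]

end Algebra

section Count

variable {A B C Z : Type*} [AddCommGroup A] [Module ℂ A] [AddCommGroup B] [Module ℂ B]
  [AddCommGroup C] [Module ℂ C] [AddCommGroup Z] [Module ℂ Z]
  [FiniteDimensional ℂ A]

/-- abstract dimension count -/
theorem finrank_count (π : A →ₗ[ℂ] B) (Φ : A →ₗ[ℂ] C) (ι : Z →ₗ[ℂ] A)
    (hι : Function.Injective ι) (hπι : ∀ z, π (ι z) = 0) (hΦι : ∀ z, Φ (ι z) = 0)
    (R : Submodule ℂ B) (hR : ∀ b ∈ R, ∃ a, π a = b ∧ Φ a = 0) :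
    Module.finrank ℂ R + Module.finrank ℂ (LinearMap.range Φ) + Module.finrank ℂ Z
      ≤ Module.finrank ℂ A := by
  set π₀ : LinearMap.ker Φ →ₗ[ℂ] B := π ∘ₗ (LinearMap.ker Φ).subtype with hπ₀
  have h1 := LinearMap.finrank_range_add_finrank_ker Φ
  have h2 := LinearMap.finrank_range_add_finrank_ker π₀
  have h3 : Module.finrank ℂ R ≤ Module.finrank ℂ (LinearMap.range π₀) := by
    apply Submodule.finrank_mono
    intro b hb
    obtain ⟨a, ha, ha0⟩ := hR b hb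
    exact ⟨⟨a, ha0⟩, ha⟩
  have h4 : Module.finrank ℂ Z ≤ Module.finrank ℂ (LinearMap.ker π₀) := by
    let j₁ : Z →ₗ[ℂ] LinearMap.ker Φ := LinearMap.codRestrict _ ι hΦι
    let j₂ : Z →ₗ[ℂ] LinearMap.ker π₀ := LinearMap.codRestrict _ j₁ (fun z => hπι z)
    apply LinearMap.finrank_le_finrank_of_injective (f := j₂)
    intro z z' h
    apply hι
    have := congrArg (fun w : LinearMap.ker π₀ => ((w : LinearMap.ker Φ) : A)) h
    exact this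
  omega

end Count

section Cocycle

variable (Γ : Subgroup SL(2, ℤ))

/-- translation operator on functions on the coset space: `(tr g v) x = v (g • x)`. -/
noncomputable def tr (g : SL(2, ℤ)) : ((SL(2, ℤ) ⧸ Γ) → ℂ) →ₗ[ℂ] ((SL(2, ℤ) ⧸ Γ) → ℂ) :=
  LinearMap.funLeft ℂ ℂ (fun x => g • x)

@[simp] theorem tr_apply (g : SL(2, ℤ)) (v : (SL(2, ℤ) ⧸ Γ) → ℂ) (x : SL(2, ℤ) ⧸ Γ) :
    tr Γ g v x = v (g • x) := rfl

theorem tr_one : tr Γ 1 = 1 := by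
  ext v x; simp

theorem tr_mul (g h : SL(2, ℤ)) : tr Γ (g * h) = tr Γ h * tr Γ g := by
  apply LinearMap.ext; intro v; funext x
  simp [mul_smul]

theorem tr_pow (g : SL(2, ℤ)) (n : ℕ) : tr Γ (g ^ n) = tr Γ g ^ n := by
  induction n with
  | zero => simp [tr_one]
  | succ n ih => rw [pow_succ', tr_mul, ih, pow_succ]

theorem kap_mem (g : SL(2, ℤ)) (x : SL(2, ℤ) ⧸ Γ) :
    (g • x).out⁻¹ * g * x.out ∈ Γ := by
  rw [mul_assoc, ← QuotientGroup.eq, QuotientGroup.out_eq']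
  conv_lhs => rw [← QuotientGroup.out_eq' x]
  rfl

/-- the Shapiro element of `Γ`. -/
noncomputable def kap (g : SL(2, ℤ)) (x : SL(2, ℤ) ⧸ Γ) : Γ :=
  ⟨(g • x).out⁻¹ * g * x.out, kap_mem Γ g x⟩

theorem kap_mul (g h : SL(2, ℤ)) (x : SL(2, ℤ) ⧸ Γ) :
    kap Γ (g * h) x = kap Γ g (h • x) * kap Γ h x := by
  apply Subtype.ext
  simp only [kap, mul_smul, Subgroup.coe_mul]
  group

/-- the Shapiro cocycle as a linear map in `φ`. -/
noncomputable def dmap (g : SL(2, ℤ)) :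
    (Additive Γ →+ ℂ) →ₗ[ℂ] ((SL(2, ℤ) ⧸ Γ) → ℂ) where
  toFun φ := fun x => φ (Additive.ofMul (kap Γ g x))
  map_add' _ _ := rfl
  map_smul' _ _ := rfl

@[simp] theorem dmap_apply (g : SL(2, ℤ)) (φ : Additive Γ →+ ℂ) (x : SL(2, ℤ) ⧸ Γ) :
    dmap Γ g φ x = φ (Additive.ofMul (kap Γ g x)) := rfl

/-- cocycle attached to a pair `(φ, v)`. -/
noncomputable def coc (g : SL(2, ℤ)) :
    ((Additive Γ →+ ℂ) × ((SL(2, ℤ) ⧸ Γ) → ℂ)) →ₗ[ℂ] ((SL(2, ℤ) ⧸ Γ) → ℂ) :=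
  (dmap Γ g) ∘ₗ LinearMap.fst ℂ _ _ + (tr Γ g - 1) ∘ₗ LinearMap.snd ℂ _ _

theorem coc_apply (g : SL(2, ℤ)) (p : (Additive Γ →+ ℂ) × ((SL(2, ℤ) ⧸ Γ) → ℂ))
    (x : SL(2, ℤ) ⧸ Γ) :
    coc Γ g p x = p.1 (Additive.ofMul (kap Γ g x)) + (p.2 (g • x) - p.2 x) := by
  simp [coc]

theorem coc_mul (g h : SL(2, ℤ)) (p : (Additive Γ →+ ℂ) × ((SL(2, ℤ) ⧸ Γ) → ℂ)) :
    coc Γ (g * h) p = tr Γ h (coc Γ g p) + coc Γ h p := by
  funext x
  simp only [coc_apply, Pi.add_apply, tr_apply, kap_mul, ofMul_mul, map_add, mul_smul]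
  ring

theorem coc_one (p : (Additive Γ →+ ℂ) × ((SL(2, ℤ) ⧸ Γ) → ℂ)) : coc Γ 1 p = 0 := by
  have h := coc_mul Γ 1 1 p
  rw [mul_one, tr_one] at h
  simpa using h

theorem coc_pow (g : SL(2, ℤ)) (p : (Additive Γ →+ ℂ) × ((SL(2, ℤ) ⧸ Γ) → ℂ)) (m : ℕ) :
    coc Γ (g ^ m) p = ∑ i ∈ Finset.range m, (tr Γ g ^ i) (coc Γ g p) := by
  induction m with
  | zero => simp [coc_one]
  | succ m ih =>
    rw [pow_succ', coc_mul, ih, Finset.sum_range_succ, tr_pow, add_comm]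

theorem coc_eq_zero_of_generators (p : (Additive Γ →+ ℂ) × ((SL(2, ℤ) ⧸ Γ) → ℂ))
    (hS : coc Γ ModularGroup.S p = 0) (hT : coc Γ ModularGroup.T p = 0) (g : SL(2, ℤ)) :
    coc Γ g p = 0 := by
  have hg : g ∈ Subgroup.closure ({ModularGroup.S, ModularGroup.T} : Set SL(2, ℤ)) := by
    rw [SpecialLinearGroup.SL2Z_generators]; trivial
  induction hg using Subgroup.closure_induction with
  | mem x hx =>
    rcases hx with rfl | rfl
    · exact hS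
    · exact hT
  | one => exact coc_one Γ p
  | mul x y _ _ hx hy => rw [coc_mul, hx, hy, map_zero, add_zero]
  | inv x _ hx =>
    have h := coc_mul Γ x x⁻¹ p
    rw [mul_inv_cancel, coc_one, hx, map_zero, zero_add] at h
    exact h.symm

theorem trace_conj (a b : SL(2, ℤ)) :
    ((a⁻¹ * b * a : SL(2, ℤ)) : Matrix (Fin 2) (Fin 2) ℤ).trace
      = (b : Matrix (Fin 2) (Fin 2) ℤ).trace := by
  rw [Matrix.SpecialLinearGroup.coe_mul, Matrix.trace_mul_comm,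
    ← Matrix.SpecialLinearGroup.coe_mul, mul_inv_cancel_left]

/-- key membership: for parabolic `φ`, the value of the cocycle at an element `g` a power of which
acts trivially and has trace `± 2` lies in the range of `1 - tr g`. -/
theorem exists_coc_eq_sub (p : (Additive Γ →+ ℂ) × ((SL(2, ℤ) ⧸ Γ) → ℂ))
    (hp : IsParabolicHom Γ p.1) (g : SL(2, ℤ)) {m : ℕ} (hm : 0 < m)
    (hfix : ∀ x : SL(2, ℤ) ⧸ Γ, g ^ m • x = x)
    (htr : ((g ^ m : SL(2, ℤ)) : Matrix (Fin 2) (Fin 2) ℤ).trace ^ 2 = 4) :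
    ∃ y : (SL(2, ℤ) ⧸ Γ) → ℂ, coc Γ g p = y - tr Γ g y := by
  apply exists_sub_of_sum_pow_eq_zero (tr Γ g) hm
  · rw [← tr_pow]
    apply LinearMap.ext; intro v; funext x
    simp [hfix]
  · rw [← coc_pow]
    funext x
    rw [coc_apply, hfix, sub_self, add_zero]
    apply hp
    simp only [kap, hfix]
    rw [trace_conj]
    exact htr

end Cocycle

section Main

variable (Γ : Subgroup SL(2, ℤ))

open ModularGroup

theorem S_pow_four : (S : SL(2, ℤ)) ^ 4 = 1 := by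
  ext i j
  fin_cases i <;> fin_cases j <;> simp [pow_succ, coe_S, Matrix.mul_apply, Fin.sum_univ_two]

theorem ST_pow_six : (S * T : SL(2, ℤ)) ^ 6 = 1 := by
  ext i j
  fin_cases i <;> fin_cases j <;>
    simp [pow_succ, coe_S, coe_T, Matrix.mul_apply, Fin.sum_univ_two]

theorem trace_T_pow (m : ℕ) :
    ((T ^ m : SL(2, ℤ)) : Matrix (Fin 2) (Fin 2) ℤ).trace ^ 2 = 4 := by
  have h := coe_T_zpow (m : ℤ)
  rw [zpow_natCast] at h
  rw [h, Matrix.trace_fin_two_of]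
  norm_num

theorem exists_pow_fix [Finite (SL(2, ℤ) ⧸ Γ)] (g : SL(2, ℤ)) :
    ∃ m : ℕ, 0 < m ∧ ∀ x : SL(2, ℤ) ⧸ Γ, g ^ m • x = x := by
  refine ⟨orderOf (MulAction.toPermHom SL(2, ℤ) (SL(2, ℤ) ⧸ Γ) g), orderOf_pos _, fun x => ?_⟩
  have h := pow_orderOf_eq_one (MulAction.toPermHom SL(2, ℤ) (SL(2, ℤ) ⧸ Γ) g)
  rw [← map_pow] at h
  have := congrArg (fun σ : Equiv.Perm (SL(2, ℤ) ⧸ Γ) => σ x) h
  simpa using this

end Main

section Theta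

variable (Γ : Subgroup SL(2, ℤ))

open ModularGroup

/-- values of the cocycle at the two generators. -/
noncomputable def theta :
    ((Additive Γ →+ ℂ) × ((SL(2, ℤ) ⧸ Γ) → ℂ)) →ₗ[ℂ]
      ((SL(2, ℤ) ⧸ Γ) → ℂ) × ((SL(2, ℤ) ⧸ Γ) → ℂ) :=
  (coc Γ S).prod (coc Γ T)

theorem theta_eq_zero (p : (Additive Γ →+ ℂ) × ((SL(2, ℤ) ⧸ Γ) → ℂ)) (h : theta Γ p = 0) :
    p.1 = 0 ∧ ∀ x y, p.2 x = p.2 y := by
  have hS : coc Γ S p = 0 := congrArg Prod.fst h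
  have hT : coc Γ T p = 0 := congrArg Prod.snd h
  have hall := coc_eq_zero_of_generators Γ p hS hT
  have h1 : p.1 = 0 := by
    apply AddMonoidHom.ext
    intro γ'
    obtain ⟨γ, rfl⟩ : ∃ γ : Γ, Additive.ofMul γ = γ' := ⟨Additive.toMul γ', rfl⟩
    set x₀ : SL(2, ℤ) ⧸ Γ := ((1 : SL(2, ℤ)) : SL(2, ℤ) ⧸ Γ) with hx₀
    have hs₀ : x₀.out ∈ Γ := by
      have := QuotientGroup.out_eq' x₀
      rw [hx₀, QuotientGroup.eq] at this
      have h2 := Γ.inv_mem this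
      simpa using h2
    set g : SL(2, ℤ) := x₀.out * γ * x₀.out⁻¹ with hg
    have hgΓ : g ∈ Γ := Γ.mul_mem (Γ.mul_mem hs₀ γ.2) (Γ.inv_mem hs₀)
    have hgx : g • x₀ = x₀ := by
      rw [hx₀]
      change ((g * 1 : SL(2, ℤ)) : SL(2, ℤ) ⧸ Γ) = _
      rw [mul_one, QuotientGroup.eq]
      simpa using Γ.inv_mem hgΓ
    have hk : kap Γ g x₀ = γ := by
      apply Subtype.ext
      simp only [kap]
      rw [hgx, hg]
      group
    have := congrFun (hall g) x₀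
    rw [coc_apply, hk, hgx, sub_self, add_zero] at this
    simpa using this
  refine ⟨h1, fun x y => ?_⟩
  obtain ⟨g, rfl⟩ := MulAction.exists_smul_eq SL(2, ℤ) y x
  have := congrFun (hall g) y
  rw [coc_apply, h1] at this
  simp only [AddMonoidHom.zero_apply, zero_add, Pi.zero_apply] at this
  exact sub_eq_zero.mp this

end Theta

section Final

variable (Γ : Subgroup SL(2, ℤ))

open ModularGroup

/-- `1 - tr g`. -/
noncomputable def dl (g : SL(2, ℤ)) : ((SL(2, ℤ) ⧸ Γ) → ℂ) →ₗ[ℂ] ((SL(2, ℤ) ⧸ Γ) → ℂ) :=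
  1 - tr Γ g

theorem dl_apply (g : SL(2, ℤ)) (v : (SL(2, ℤ) ⧸ Γ) → ℂ) : dl Γ g v = v - tr Γ g v := rfl

/-- pull back a function on the orbit space. -/
noncomputable def pull (g : SL(2, ℤ)) :
    (MulAction.orbitRel.Quotient (Subgroup.zpowers g) (SL(2, ℤ) ⧸ Γ) → ℂ) →ₗ[ℂ]
      ((SL(2, ℤ) ⧸ Γ) → ℂ) :=
  LinearMap.funLeft ℂ ℂ (fun x => (Quotient.mk'' x :
    MulAction.orbitRel.Quotient (Subgroup.zpowers g) (SL(2, ℤ) ⧸ Γ)))

theorem pull_injective (g : SL(2, ℤ)) : Function.Injective (pull Γ g) :=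
  LinearMap.funLeft_injective_of_surjective ℂ ℂ _ Quotient.mk''_surjective

theorem dl_pull (g : SL(2, ℤ))
    (w : MulAction.orbitRel.Quotient (Subgroup.zpowers g) (SL(2, ℤ) ⧸ Γ) → ℂ) :
    dl Γ g (pull Γ g w) = 0 := by
  funext x
  rw [dl_apply, Pi.sub_apply, tr_apply, Pi.zero_apply, sub_eq_zero]
  simp only [pull, LinearMap.funLeft_apply]
  congr 1
  apply Quotient.sound'
  rw [MulAction.orbitRel_apply]
  refine ⟨⟨g⁻¹, Subgroup.inv_mem _ (Subgroup.mem_zpowers g)⟩, ?_⟩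
  change g⁻¹ • (g • x) = x
  rw [inv_smul_smul]

/-- first two components. -/
noncomputable def piMap :
    (((SL(2, ℤ) ⧸ Γ) → ℂ) × ((SL(2, ℤ) ⧸ Γ) → ℂ) × ((SL(2, ℤ) ⧸ Γ) → ℂ)) →ₗ[ℂ]
      ((SL(2, ℤ) ⧸ Γ) → ℂ) × ((SL(2, ℤ) ⧸ Γ) → ℂ) :=
  ((dl Γ S) ∘ₗ LinearMap.fst ℂ _ _).prod
    ((dl Γ T) ∘ₗ LinearMap.fst ℂ _ _ ∘ₗ LinearMap.snd ℂ _ _)

/-- the compatibility map. -/
noncomputable def phiMap :
    (((SL(2, ℤ) ⧸ Γ) → ℂ) × ((SL(2, ℤ) ⧸ Γ) → ℂ) × ((SL(2, ℤ) ⧸ Γ) → ℂ)) →ₗ[ℂ]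
      ((SL(2, ℤ) ⧸ Γ) → ℂ) :=
  (tr Γ T) ∘ₗ (dl Γ S) ∘ₗ LinearMap.fst ℂ _ _
    + (dl Γ T) ∘ₗ LinearMap.fst ℂ _ _ ∘ₗ LinearMap.snd ℂ _ _
    - (dl Γ (S * T)) ∘ₗ LinearMap.snd ℂ _ _ ∘ₗ LinearMap.snd ℂ _ _

theorem piMap_apply (u₁ u₂ u₃ : (SL(2, ℤ) ⧸ Γ) → ℂ) :
    piMap Γ (u₁, u₂, u₃) = (dl Γ S u₁, dl Γ T u₂) := rfl

theorem phiMap_apply (u₁ u₂ u₃ : (SL(2, ℤ) ⧸ Γ) → ℂ) :
    phiMap Γ (u₁, u₂, u₃) = tr Γ T (dl Γ S u₁) + dl Γ T u₂ - dl Γ (S * T) u₃ := rfl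

theorem tr_single [DecidableEq (SL(2, ℤ) ⧸ Γ)] (g : SL(2, ℤ)) (x : SL(2, ℤ) ⧸ Γ) :
    tr Γ g (Pi.single (g • x) 1) = Pi.single x 1 := by
  funext y
  rw [tr_apply]
  by_cases h : y = x
  · subst h; simp
  · rw [Pi.single_eq_of_ne h, Pi.single_eq_of_ne]
    intro h'
    exact h (smul_left_cancel g h')

theorem single_sub_single_mem [DecidableEq (SL(2, ℤ) ⧸ Γ)] (g : SL(2, ℤ)) (x : SL(2, ℤ) ⧸ Γ) :
    (Pi.single x 1 - Pi.single (g • x) 1 : (SL(2, ℤ) ⧸ Γ) → ℂ) ∈ LinearMap.range (phiMap Γ) := by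
  have hT : ∀ x : SL(2, ℤ) ⧸ Γ, (Pi.single x 1 - Pi.single (T • x) 1 : (SL(2, ℤ) ⧸ Γ) → ℂ)
      ∈ LinearMap.range (phiMap Γ) := by
    intro x
    refine ⟨(0, -Pi.single (T • x) 1, 0), ?_⟩
    rw [phiMap_apply, map_zero, map_zero, map_zero, map_neg, dl_apply, tr_single]
    abel
  have hU : ∀ x : SL(2, ℤ) ⧸ Γ, (Pi.single x 1 - Pi.single ((S * T) • x) 1 : (SL(2, ℤ) ⧸ Γ) → ℂ)
      ∈ LinearMap.range (phiMap Γ) := by
    intro x
    refine ⟨(0, 0, Pi.single ((S * T) • x) 1), ?_⟩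
    rw [phiMap_apply, map_zero, map_zero, map_zero, dl_apply, tr_single]
    abel
  let H : Subgroup SL(2, ℤ) :=
    { carrier := {g | ∀ x : SL(2, ℤ) ⧸ Γ,
        (Pi.single x 1 - Pi.single (g • x) 1 : (SL(2, ℤ) ⧸ Γ) → ℂ) ∈ LinearMap.range (phiMap Γ)}
      one_mem' := fun x => by simp
      mul_mem' := fun {a b} ha hb x => by
        have := Submodule.add_mem _ (hb x) (ha (b • x))
        rw [sub_add_sub_cancel, ← mul_smul] at this
        exact this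
      inv_mem' := fun {a} ha x => by
        have := Submodule.neg_mem _ (ha (a⁻¹ • x))
        rw [neg_sub, smul_inv_smul] at this
        exact this }
  have hTH : T ∈ H := hT
  have hUH : S * T ∈ H := hU
  have hSH : S ∈ H := by
    have := H.mul_mem hUH (H.inv_mem hTH)
    rwa [mul_inv_cancel_right] at this
  have htop : H = ⊤ := by
    rw [eq_top_iff, ← SpecialLinearGroup.SL2Z_generators, Subgroup.closure_le]
    rintro y (rfl | rfl)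
    · exact hSH
    · exact hTH
  have : g ∈ H := htop ▸ Subgroup.mem_top g
  exact this x

theorem card_le_finrank_range_phiMap [Γ.FiniteIndex] :
    Nat.card (SL(2, ℤ) ⧸ Γ) ≤ Module.finrank ℂ (LinearMap.range (phiMap Γ)) + 1 := by
  classical
  let _ : Fintype (SL(2, ℤ) ⧸ Γ) := Fintype.ofFinite _
  set x₀ : SL(2, ℤ) ⧸ Γ := ((1 : SL(2, ℤ)) : SL(2, ℤ) ⧸ Γ)
  have htop : (⊤ : Submodule ℂ ((SL(2, ℤ) ⧸ Γ) → ℂ)) ≤
      LinearMap.range (phiMap Γ) ⊔ Submodule.span ℂ {(Pi.single x₀ 1 : (SL(2, ℤ) ⧸ Γ) → ℂ)} := by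
    intro v _
    have hv : v = ∑ x, v x • (Pi.single x 1 : (SL(2, ℤ) ⧸ Γ) → ℂ) := by
      funext y
      simp [Finset.sum_apply, Pi.single_apply]
    rw [hv]
    apply Submodule.sum_mem
    intro x _
    apply Submodule.smul_mem
    obtain ⟨g, hg⟩ := MulAction.exists_smul_eq SL(2, ℤ) x x₀
    have h1 := single_sub_single_mem Γ g x
    rw [hg] at h1
    have h2 : (Pi.single x 1 : (SL(2, ℤ) ⧸ Γ) → ℂ)
        = (Pi.single x 1 - Pi.single x₀ 1) + Pi.single x₀ 1 := by abel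
    rw [h2]
    exact Submodule.add_mem_sup h1 (Submodule.mem_span_singleton_self _)
  have h1 : Module.finrank ℂ ((SL(2, ℤ) ⧸ Γ) → ℂ) = Nat.card (SL(2, ℤ) ⧸ Γ) := by
    rw [Module.finrank_fintype_fun_eq_card, Nat.card_eq_fintype_card]
  have h2 := Submodule.finrank_mono htop
  rw [finrank_top, h1] at h2
  have h3 := Submodule.finrank_add_le_finrank_add_finrank (LinearMap.range (phiMap Γ))
    (Submodule.span ℂ {(Pi.single x₀ 1 : (SL(2, ℤ) ⧸ Γ) → ℂ)})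
  have h4 : Module.finrank ℂ (Submodule.span ℂ {(Pi.single x₀ 1 : (SL(2, ℤ) ⧸ Γ) → ℂ)}) ≤ 1 :=
    (finrank_span_le_card _).trans (by simp)
  omega

/-- `theta` restricted to parabolic homomorphisms. -/
noncomputable def thetaPar :
    ((parabolicHoms ℂ Γ ℂ) × ((SL(2, ℤ) ⧸ Γ) → ℂ)) →ₗ[ℂ]
      ((SL(2, ℤ) ⧸ Γ) → ℂ) × ((SL(2, ℤ) ⧸ Γ) → ℂ) :=
  theta Γ ∘ₗ LinearMap.prodMap (parabolicHoms ℂ Γ ℂ).subtype LinearMap.id

theorem thetaPar_apply (p : (parabolicHoms ℂ Γ ℂ) × ((SL(2, ℤ) ⧸ Γ) → ℂ)) :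
    thetaPar Γ p = (coc Γ S ((p.1 : Additive Γ →+ ℂ), p.2), coc Γ T ((p.1 : Additive Γ →+ ℂ), p.2)) :=
  rfl

theorem thetaPar_eq_zero (p : (parabolicHoms ℂ Γ ℂ) × ((SL(2, ℤ) ⧸ Γ) → ℂ))
    (h : thetaPar Γ p = 0) : p.1 = 0 ∧ ∀ x y, p.2 x = p.2 y := by
  obtain ⟨h1, h2⟩ := theta_eq_zero Γ ((p.1 : Additive Γ →+ ℂ), p.2) h
  exact ⟨Subtype.ext h1, h2⟩

/-- the space of parabolic homomorphisms is finite dimensional. -/
theorem finiteDimensional_parabolicHoms [Γ.FiniteIndex] :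
    FiniteDimensional ℂ (parabolicHoms ℂ Γ ℂ) := by
  have hinj : Function.Injective (thetaPar Γ ∘ₗ LinearMap.inl ℂ (parabolicHoms ℂ Γ ℂ)
      ((SL(2, ℤ) ⧸ Γ) → ℂ)) := by
    rw [← LinearMap.ker_eq_bot, LinearMap.ker_eq_bot']
    intro φ hφ
    exact (thetaPar_eq_zero Γ (φ, 0) hφ).1
  exact FiniteDimensional.of_injective _ hinj

theorem finrank_ker_thetaPar_le [Γ.FiniteIndex] :
    Module.finrank ℂ (LinearMap.ker (thetaPar Γ)) ≤ 1 := by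
  set x₀ : SL(2, ℤ) ⧸ Γ := ((1 : SL(2, ℤ)) : SL(2, ℤ) ⧸ Γ)
  let e : LinearMap.ker (thetaPar Γ) →ₗ[ℂ] ℂ :=
    (LinearMap.proj x₀) ∘ₗ (LinearMap.snd ℂ _ _) ∘ₗ (LinearMap.ker (thetaPar Γ)).subtype
  have hinj : Function.Injective e := by
    rw [injective_iff_map_eq_zero]
    rintro ⟨p, hp⟩ he
    obtain ⟨h1, h2⟩ := thetaPar_eq_zero Γ p hp
    apply Subtype.ext
    apply Prod.ext
    · exact h1
    · funext x
      rw [h2 x x₀]
      exact he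
  have := LinearMap.finrank_le_finrank_of_injective hinj
  simpa using this

theorem thetaPar_lift [Γ.FiniteIndex] (b : ((SL(2, ℤ) ⧸ Γ) → ℂ) × ((SL(2, ℤ) ⧸ Γ) → ℂ))
    (hb : b ∈ LinearMap.range (thetaPar Γ)) : ∃ a, piMap Γ a = b ∧ phiMap Γ a = 0 := by
  obtain ⟨p, rfl⟩ := hb
  set q : (Additive Γ →+ ℂ) × ((SL(2, ℤ) ⧸ Γ) → ℂ) := ((p.1 : Additive Γ →+ ℂ), p.2) with hq
  have hpar : IsParabolicHom Γ q.1 := p.1.2
  obtain ⟨y₁, h₁⟩ := exists_coc_eq_sub Γ q hpar S (m := 4) (by norm_num)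
    (fun x => by rw [S_pow_four, one_smul]) (by rw [S_pow_four]; simp)
  obtain ⟨m, hm, hfix⟩ := exists_pow_fix Γ T
  obtain ⟨y₂, h₂⟩ := exists_coc_eq_sub Γ q hpar T hm hfix (trace_T_pow m)
  obtain ⟨y₃, h₃⟩ := exists_coc_eq_sub Γ q hpar (S * T) (m := 6) (by norm_num)
    (fun x => by rw [ST_pow_six, one_smul]) (by rw [ST_pow_six]; simp)
  refine ⟨(y₁, y₂, y₃), ?_, ?_⟩
  · rw [piMap_apply, thetaPar_apply, dl_apply, dl_apply, ← h₁, ← h₂]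
  · rw [phiMap_apply, dl_apply, dl_apply, dl_apply, ← h₁, ← h₂, ← h₃, coc_mul, sub_self]

/-- the three pull-back maps together. -/
noncomputable def iotaMap :
    ((MulAction.orbitRel.Quotient (Subgroup.zpowers (S : SL(2, ℤ))) (SL(2, ℤ) ⧸ Γ) → ℂ) ×
      (MulAction.orbitRel.Quotient (Subgroup.zpowers (T : SL(2, ℤ))) (SL(2, ℤ) ⧸ Γ) → ℂ) ×
      (MulAction.orbitRel.Quotient (Subgroup.zpowers (S * T : SL(2, ℤ))) (SL(2, ℤ) ⧸ Γ) → ℂ))
      →ₗ[ℂ]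
    (((SL(2, ℤ) ⧸ Γ) → ℂ) × ((SL(2, ℤ) ⧸ Γ) → ℂ) × ((SL(2, ℤ) ⧸ Γ) → ℂ)) :=
  LinearMap.prodMap (pull Γ S) (LinearMap.prodMap (pull Γ T) (pull Γ (S * T)))

theorem iotaMap_injective : Function.Injective (iotaMap Γ) := by
  rintro ⟨a₁, a₂, a₃⟩ ⟨b₁, b₂, b₃⟩ h
  have h1 : pull Γ S a₁ = pull Γ S b₁ := congrArg Prod.fst h
  have h2 : pull Γ T a₂ = pull Γ T b₂ := congrArg (fun z => z.2.1) h
  have h3 : pull Γ (S * T) a₃ = pull Γ (S * T) b₃ := congrArg (fun z => z.2.2) h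
  rw [pull_injective Γ _ h1, pull_injective Γ _ h2, pull_injective Γ _ h3]

/-- **The parabolic bound.**  For a finite index subgroup `Γ` of `SL(2, ℤ)`, the dimension of the
space of parabolic homomorphisms `Γ → ℂ` is bounded by the Euler characteristic count. -/
theorem finrank_parabolicHoms_add_le [Γ.FiniteIndex] :
    Module.finrank ℂ (parabolicHoms ℂ Γ ℂ)
      + Nat.card (MulAction.orbitRel.Quotient (Subgroup.zpowers (S : SL(2, ℤ))) (SL(2, ℤ) ⧸ Γ))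
      + Nat.card (MulAction.orbitRel.Quotient (Subgroup.zpowers (S * T : SL(2, ℤ))) (SL(2, ℤ) ⧸ Γ))
      + Nat.card (MulAction.orbitRel.Quotient (Subgroup.zpowers (T : SL(2, ℤ))) (SL(2, ℤ) ⧸ Γ))
      ≤ Nat.card (SL(2, ℤ) ⧸ Γ) + 2 := by
  classical
  have := finiteDimensional_parabolicHoms Γ
  let _ : Fintype (SL(2, ℤ) ⧸ Γ) := Fintype.ofFinite _
  let _ : Fintype (MulAction.orbitRel.Quotient (Subgroup.zpowers (S : SL(2, ℤ))) (SL(2, ℤ) ⧸ Γ)) :=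
    Fintype.ofFinite _
  let _ : Fintype (MulAction.orbitRel.Quotient (Subgroup.zpowers (T : SL(2, ℤ))) (SL(2, ℤ) ⧸ Γ)) :=
    Fintype.ofFinite _
  let _ : Fintype
      (MulAction.orbitRel.Quotient (Subgroup.zpowers (S * T : SL(2, ℤ))) (SL(2, ℤ) ⧸ Γ)) :=
    Fintype.ofFinite _
  have hcount := finrank_count (piMap Γ) (phiMap Γ) (iotaMap Γ) (iotaMap_injective Γ)
    (fun z => by
      obtain ⟨a₁, a₂, a₃⟩ := z
      change piMap Γ (pull Γ S a₁, pull Γ T a₂, pull Γ (S * T) a₃) = 0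
      rw [piMap_apply, dl_pull, dl_pull]; rfl)
    (fun z => by
      obtain ⟨a₁, a₂, a₃⟩ := z
      change phiMap Γ (pull Γ S a₁, pull Γ T a₂, pull Γ (S * T) a₃) = 0
      rw [phiMap_apply, dl_pull, dl_pull, dl_pull]; simp)
    (LinearMap.range (thetaPar Γ)) (thetaPar_lift Γ)
  have hrn := LinearMap.finrank_range_add_finrank_ker (thetaPar Γ)
  have hker := finrank_ker_thetaPar_le Γ
  have hphi := card_le_finrank_range_phiMap Γ
  simp only [Module.finrank_prod, Module.finrank_fintype_fun_eq_card,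
    ← Nat.card_eq_fintype_card] at hcount hrn
  omega

end Final

end Fermat.Agent.ES.ParabolicBound
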