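import Fermat.Agent.ES.FreeBasis

/-!
# Task A4': rank `= μ` and generic invertibility (Vandermonde argument).
-/

set_option autoImplicit false

namespace Fermat.Agent.ES

open UpperHalfPlane ModularForm Filter Topology
open scoped MatrixGroups Manifold ModularForm

variable {Γ : Subgroup SL(2, ℤ)}

theorem tr_injective_of_stab {t : ℍ → ℂ} {k₀ : ℤ} (ht : IsMF Γ k₀ t)
    (hstab : ∀ γ : SL(2, ℤ), t ∣[k₀] γ = t → γ ∈ Γ) :
    Function.Injective (fun q : SL(2, ℤ) ⧸ Γ => tr k₀ t q) := by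
  intro q q' h
  induction q using QuotientGroup.induction_on with
  | H g =>
  induction q' using QuotientGroup.induction_on with
  | H g' =>
    simp only [tr_mk ht.2.1] at h
    rw [QuotientGroup.eq]
    apply hstab
    have h2 := congrArg (fun F => F ∣[k₀] g') h
    simp only [← SlashAction.slash_mul] at h2
    simpa using h2

theorem exists_tr_injective [Γ.FiniteIndex] {t : ℍ → ℂ} {k₀ : ℤ} (ht : IsMF Γ k₀ t)
    (hstab : ∀ γ : SL(2, ℤ), t ∣[k₀] γ = t → γ ∈ Γ) :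
    ∃ z : ℍ, Function.Injective (fun q : SL(2, ℤ) ⧸ Γ => tr k₀ t q z) := by
  classical
  have hinj := tr_injective_of_stab ht hstab
  set s : Finset ((SL(2, ℤ) ⧸ Γ) × (SL(2, ℤ) ⧸ Γ)) := Finset.univ.filter (fun p => p.1 ≠ p.2)
  have hne : ∏ p ∈ s, (tr k₀ t p.1 - tr k₀ t p.2) ≠ 0 := by
    intro h0
    rw [UpperHalfPlane.prod_eq_zero_iff
      (fun p _ => (ht.tr_mdiff p.1).sub (ht.tr_mdiff p.2))] at h0
    obtain ⟨p, hp, hp0⟩ := h0
    exact (Finset.mem_filter.mp hp).2 (hinj (sub_eq_zero.mp hp0))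
  obtain ⟨z, hz⟩ := Function.ne_iff.mp hne
  refine ⟨z, fun q q' h => ?_⟩
  by_contra hqq
  apply hz
  rw [Finset.prod_apply]
  apply Finset.prod_eq_zero (i := (q, q')) (Finset.mem_filter.mpr ⟨Finset.mem_univ _, hqq⟩)
  simpa [sub_eq_zero] using h

theorem IsMF.pow {k : ℤ} {f : ℍ → ℂ} (hf : IsMF Γ k f) (n : ℕ) : IsMF Γ (n * k) (f ^ n) := by
  induction n with
  | zero =>
    simp only [pow_zero, Nat.cast_zero, zero_mul]
    exact IsMF.const (Γ := Γ) 1
  | succ n ih =>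
    rw [pow_succ]
    exact (ih.mul hf).cast (by push_cast; ring)

theorem tr_cast {k k' : ℤ} (h : k = k') (f : ℍ → ℂ) (q : SL(2, ℤ) ⧸ Γ) :
    tr k f q = tr k' f q := by subst h; rfl

theorem tr_pow {k : ℤ} (f : ℍ → ℂ) (n : ℕ) (q : SL(2, ℤ) ⧸ Γ) :
    tr (n * k) (f ^ n) q = (tr k f q) ^ n := by
  induction n with
  | zero =>
    simp only [pow_zero, Nat.cast_zero, zero_mul]
    exact is_invariant_one _
  | succ n ih =>
    rw [pow_succ, pow_succ, ← ih, ← tr_mul]
    exact tr_cast (by push_cast; ring) _ _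

theorem IsFreeBasis.span_vec_eq_top (hΓ : Good Γ) {J : Type} [Fintype J] {wt : J → ℤ}
    {f : J → ℍ → ℂ} (h : IsFreeBasis Γ wt f) :
    ∃ z : ℍ, Submodule.span ℂ (Set.range (vec (Γ := Γ) wt f z)) = ⊤ := by
  classical
  haveI := hΓ.finiteIndex
  obtain ⟨t, k₀, ht, hstab⟩ := hΓ.sep
  obtain ⟨z, hz⟩ := exists_tr_injective ht hstab
  refine ⟨z, ?_⟩
  rw [eq_top_iff]
  intro φ _
  -- the power vectors are in the span
  have hpow : ∀ l : ℕ, (fun x : SL(2, ℤ) ⧸ Γ => (tr k₀ t x z) ^ l) ∈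
      Submodule.span ℂ (Set.range (vec (Γ := Γ) wt f z)) := by
    intro l
    obtain ⟨a, ha, hsum⟩ := h.span (l * k₀) (t ^ l) (ht.pow l)
    have : (fun x : SL(2, ℤ) ⧸ Γ => (tr k₀ t x z) ^ l) = ∑ j, a j z • vec (Γ := Γ) wt f z j := by
      funext x
      have h1 : tr (l * k₀) (t ^ l) x = ∑ j, a j * tr (wt j) (f j) x := by
        rw [hsum, tr_sum]
        refine Finset.sum_congr rfl fun j _ => ?_
        rw [tr_cast (show (l * k₀ : ℤ) = (l * k₀ - wt j) + wt j by ring), tr_mul,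
          tr_levelOne (ha j)]
      have h2 := congrFun h1 z
      rw [tr_pow] at h2
      simpa [vec, Finset.sum_apply] using h2
    rw [this]
    exact Submodule.sum_mem _ fun j _ =>
      Submodule.smul_mem _ _ (Submodule.subset_span ⟨j, rfl⟩)
  set p := Lagrange.interpolate Finset.univ (fun x : SL(2, ℤ) ⧸ Γ => tr k₀ t x z) φ with hp
  have hφ : φ = ∑ l ∈ Finset.range (p.natDegree + 1),
      p.coeff l • (fun x : SL(2, ℤ) ⧸ Γ => (tr k₀ t x z) ^ l) := by
    funext x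
    have h1 : Polynomial.eval (tr k₀ t x z) p = φ x :=
      Lagrange.eval_interpolate_at_node φ (hz.injOn) (Finset.mem_univ x)
    rw [← h1, Polynomial.eval_eq_sum_range]
    simp [Finset.sum_apply]
  rw [hφ]
  exact Submodule.sum_mem _ fun l _ => Submodule.smul_mem _ _ (hpow l)

theorem IsFreeBasis.index_le_card (hΓ : Good Γ) {J : Type} [Fintype J] {wt : J → ℤ}
    {f : J → ℍ → ℂ} (h : IsFreeBasis Γ wt f) : Γ.index ≤ Fintype.card J := by
  classical
  haveI := hΓ.finiteIndex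
  obtain ⟨z, hz⟩ := h.span_vec_eq_top hΓ
  have h1 := finrank_range_le_card (R := ℂ) (vec (Γ := Γ) wt f z)
  rw [Set.finrank, hz, finrank_top, Module.finrank_fintype_fun_eq_card] at h1
  rwa [Subgroup.index_eq_card, Nat.card_eq_fintype_card]

theorem IsFreeBasis.card_eq (hΓ : Good Γ) {J : Type} [Fintype J] {wt : J → ℤ}
    {f : J → ℍ → ℂ} (h : IsFreeBasis Γ wt f) : Fintype.card J = Γ.index :=
  le_antisymm (h.isIndepFamily.card_le hΓ) (h.index_le_card hΓ)

end Fermat.Agent.ES
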