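import Fermat.Agent.ES.LevelOne

/-!
# Task A3: `E₄, E₆` is a regular sequence on `M_*(Γ)`; division by `Δ`.
-/

set_option autoImplicit false

namespace Fermat.Agent.ES

open UpperHalfPlane ModularForm Filter Topology Asymptotics
open scoped MatrixGroups Manifold ModularForm Real

variable {Γ : Subgroup SL(2, ℤ)} {k : ℤ} {f g : ℍ → ℂ}

/-- If `e → 1` and `e * u` is bounded at `i∞`, then `u` is bounded at `i∞`. -/
theorem isBoundedAtImInfty_of_mul {e u : ℍ → ℂ} (he : Tendsto e atImInfty (𝓝 1))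
    (hb : IsBoundedAtImInfty (e * u)) : IsBoundedAtImInfty u := by
  have h1 : ∀ᶠ z in atImInfty, (1 / 2 : ℝ) ≤ ‖e z‖ := by
    have : Tendsto (fun z => ‖e z‖) atImInfty (𝓝 ‖(1 : ℂ)‖) := he.norm
    rw [norm_one] at this
    exact this.eventually (Ici_mem_nhds (by norm_num))
  have h2 : u =O[atImInfty] (e * u) := by
    refine IsBigO.of_bound 2 ?_
    filter_upwards [h1] with z hz
    rw [Pi.mul_apply, norm_mul]
    nlinarith [norm_nonneg (u z)]
  exact h2.trans hb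

/-- Quotient of a modular form by `Δ`: holomorphy and invariance. -/
theorem div_discriminant_aux {n : ℍ → ℂ} {w : ℤ} (hn : IsMF Γ w n) :
    MDiff (n / ModularForm.discriminant) ∧
      ∀ γ : SL(2, ℤ), (n / ModularForm.discriminant) ∣[w - 12] γ
        = (n ∣[w] γ) / ModularForm.discriminant := by
  refine ⟨hn.1.div CuspForm.discriminant.holo' discriminant_ne_zero, fun γ => ?_⟩
  rw [div_slash_SL2, isCF_discriminant.slash_eq (Subgroup.mem_top γ)]

/-- Regularity. Put `h := -(E₄^2 g + E₆ f) / (1728 Δ)` (holomorphic since `Δ ≠ 0`); then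
`E₆ h = f`, `-E₄ h = g` by `1728 Δ = E₄^3 - E₆^2`. Slash invariance: pointwise / `div_slash_SL2`.
Boundedness of `h ∣ γ`: `(f ∣ γ) = E₆ * (h ∣ γ)` and `E₆ → 1`. -/
theorem regular (hf : IsMF Γ (k - 4) f) (hg : IsMF Γ (k - 6) g)
    (h : (E₄ : ℍ → ℂ) * f + (E₆ : ℍ → ℂ) * g = 0) :
    ∃ h : ℍ → ℂ, IsMF Γ (k - 10) h ∧ f = (E₆ : ℍ → ℂ) * h ∧ g = -((E₄ : ℍ → ℂ) * h) := by
  set n : ℍ → ℂ := (-1 / 1728 : ℂ) • ((E₄ : ℍ → ℂ) * (E₄ : ℍ → ℂ) * g + (E₆ : ℍ → ℂ) * f)
    with hn_def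
  have hn : IsMF Γ (k + 2) n :=
    ((((isMF_E₄.of_top.mul isMF_E₄.of_top).mul hg).cast (by ring)).add
      ((isMF_E₆.of_top.mul hf).cast (by ring))).smul _
  obtain ⟨hd1, hd2⟩ := div_discriminant_aux hn
  have hfe : f = (E₆ : ℍ → ℂ) * (n / ModularForm.discriminant) := by
    funext z
    have h1 := congrFun h z
    have h2 := discriminant_eq z
    have h3 := discriminant_ne_zero z
    simp only [Pi.add_apply, Pi.mul_apply, Pi.zero_apply] at h1
    simp only [hn_def, Pi.mul_apply, Pi.div_apply, Pi.smul_apply, Pi.add_apply, smul_eq_mul]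
    field_simp
    linear_combination (f z) * h2 + (E₄ z) ^ 2 * h1
  have hge : g = -((E₄ : ℍ → ℂ) * (n / ModularForm.discriminant)) := by
    funext z
    have h1 := congrFun h z
    have h2 := discriminant_eq z
    have h3 := discriminant_ne_zero z
    simp only [Pi.add_apply, Pi.mul_apply, Pi.zero_apply] at h1
    simp only [hn_def, Pi.mul_apply, Pi.div_apply, Pi.smul_apply, Pi.add_apply, smul_eq_mul,
      Pi.neg_apply]
    field_simp
    linear_combination (g z) * h2 - (E₆ z) * h1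
  have hw : k + 2 - 12 = k - 10 := by ring
  refine ⟨n / ModularForm.discriminant, ⟨hd1, fun γ hγ => ?_, fun γ => ?_⟩, hfe, hge⟩
  · rw [← hw, hd2, hn.slash_eq hγ]
  · apply isBoundedAtImInfty_of_mul tendsto_E₆
    have h6 : (E₆ : ℍ → ℂ) * ((n / ModularForm.discriminant) ∣[k - 10] γ) = f ∣[k - 4] γ := by
      conv_rhs => rw [hfe, show k - 4 = 6 + (k - 10) by ring, mul_slash_SL2, isMF_E₆.slash γ]
    rw [h6]
    exact hf.bdd γ

/-- `E₄` is a nonzero divisor (identity theorem; `UpperHalfPlane.prod_eq_zero_iff` or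
`mul_eq_zero` for `MDiff` functions). -/
theorem E₄_mul_eq_zero (hf : MDiff f) (h : (E₄ : ℍ → ℂ) * f = 0) : f = 0 := by
  rcases (UpperHalfPlane.mul_eq_zero_iff isMF_E₄.1 hf).mp h with h0 | h0
  · exfalso
    have h1 := tendsto_E₄
    rw [h0] at h1
    have h2 : Tendsto (0 : ℍ → ℂ) atImInfty (𝓝 0) := tendsto_const_nhds
    exact one_ne_zero (tendsto_nhds_unique h1 h2)
  · exact h0

/-- Division by `Δ`: if every conjugate of `g` is `O(exp(-2π Im z))` then `g = Δ h` with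
`h ∈ M_{k-12}(Γ)` (Mathlib: `ModularForm.exp_isBigO_discriminant`, `discriminant_ne_zero`). -/
theorem div_discriminant (hg : IsMF Γ k g)
    (hdecay : ∀ q : SL(2, ℤ) ⧸ Γ,
      (tr k g q) =O[atImInfty] (fun z : ℍ => Real.exp (-2 * π * z.im))) :
    ∃ h : ℍ → ℂ, IsMF Γ (k - 12) h ∧ g = ModularForm.discriminant * h := by
  obtain ⟨hd1, hd2⟩ := div_discriminant_aux hg
  refine ⟨g / ModularForm.discriminant, ⟨hd1, fun γ hγ => ?_, fun γ => ?_⟩, ?_⟩
  · rw [hd2, hg.slash_eq hγ]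
  · rw [hd2]
    have h1 := hdecay ((γ⁻¹ : SL(2, ℤ)) : SL(2, ℤ) ⧸ Γ)
    rw [tr_mk hg.2.1, inv_inv] at h1
    exact (div_isBoundedUnder_of_isBigO (h1.trans exp_isBigO_discriminant)).isBigO_one ℝ
  · funext z
    simp only [Pi.mul_apply, Pi.div_apply]
    rw [mul_div_cancel₀ _ (discriminant_ne_zero z)]

end Fermat.Agent.ES
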