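import Fermat.Agent.ES.Basic
import Fermat.Prelude.Thm_ModularForm_sturm_bound_Gamma0
import Fermat.Prelude.Thm_CongruenceSubgroup_one_mem_strictPeriods_Gamma0

/-!
# Task G1: `-1 ∈ Γ₀(N)` and the Sturm dimension bound.
-/

set_option autoImplicit false

namespace Fermat.Agent.ES

open UpperHalfPlane ModularForm Filter Topology CongruenceSubgroup
open scoped MatrixGroups Manifold ModularForm

theorem neg_one_mem_Gamma0 (N : ℕ) : (-1 : SL(2, ℤ)) ∈ Gamma0 N := by
  rw [Gamma0_mem]
  simp

/-- The first `B + 1` `q`-expansion coefficients, as a linear map. -/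
noncomputable def coeffMapGamma0 (N : ℕ) (k : ℤ) (B : ℕ) :
    ModularForm (Gamma0 N) k →ₗ[ℂ] (Fin (B + 1) → ℂ) where
  toFun f := fun n => (qExpansion 1 f).coeff (n : ℕ)
  map_add' f g := by
    ext n
    have := ModularForm.qExpansion_add one_pos (CongruenceSubgroup.one_mem_strictPeriods_Gamma0 N) f g
    simp only [Pi.add_apply]
    rw [show (⇑(f + g) : ℍ → ℂ) = ⇑f + ⇑g from rfl, this, map_add]
  map_smul' c f := by
    ext n
    have := ModularForm.qExpansion_smul one_pos (CongruenceSubgroup.one_mem_strictPeriods_Gamma0 N) c f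
    simp only [RingHom.id_apply, Pi.smul_apply, smul_eq_mul]
    rw [show (⇑(c • f) : ℍ → ℂ) = c • ⇑f from rfl, this]
    simp

theorem coeffMapGamma0_injective (N : ℕ) [NeZero N] (k : ℕ) :
    Function.Injective (coeffMapGamma0 N k (k * (Gamma0 N).index / 12)) := by
  rw [← LinearMap.ker_eq_bot, LinearMap.ker_eq_bot']
  intro f hf
  apply ModularForm.sturm_bound_Gamma0 N f
  intro n hn
  have e : ((k : ℤ) * ((Gamma0 N).index : ℤ)).toNat = k * (Gamma0 N).index := by
    rw [← Nat.cast_mul, Int.toNat_natCast]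
  rw [e] at hn
  exact congrFun hf ⟨n, Nat.lt_succ_of_le hn⟩

/-- From the Prelude theorem `ModularForm.sturm_bound_Gamma0`: the map to the first
`k μ / 12 + 1` `q`-coefficients is linear and injective. -/
theorem sturm_Gamma0 (N : ℕ) [NeZero N] (k : ℕ) (s : Submodule ℂ (ℍ → ℂ))
    (hs : ∀ f ∈ s, IsMF (Gamma0 N) k f) :
    Module.Finite ℂ s ∧ Module.finrank ℂ s ≤ k * (Gamma0 N).index / 12 + 1 := by
  set B := k * (Gamma0 N).index / 12 with hB
  let ι : s →ₗ[ℂ] MF (Gamma0 N) k := Submodule.inclusion (fun f hf => hs f hf)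
  let L : s →ₗ[ℂ] (Fin (B + 1) → ℂ) :=
    (coeffMapGamma0 N k B) ∘ₗ ((mfEquiv (Gamma0 N) k).symm : MF (Gamma0 N) k →ₗ[ℂ] _) ∘ₗ ι
  have hL : Function.Injective L :=
    (coeffMapGamma0_injective N k).comp
      ((mfEquiv (Gamma0 N) k).symm.injective.comp (Submodule.inclusion_injective _))
  have hfin : Module.Finite ℂ s := Module.Finite.of_injective L hL
  refine ⟨hfin, ?_⟩
  have := LinearMap.finrank_le_finrank_of_injective hL
  simpa using this

end Fermat.Agent.ES
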